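import Fermat.Agent.RT.Lifting.Minimal.ModulusBounds
import Fermat.Agent.RT.Lifting.TWModule
import Fermat.Agent.RT.Lifting.Limit
import Fermat.Agent.RT.Lifting.CriterionModulus
import Fermat.Agent.RT.Lifting.Socle
import Fermat.Agent.RT.InertiaTW.Main

/-!
# `R = T` at minimal level: `MinimalProperty`
-/

set_option autoImplicit false
set_option linter.style.haveILetI false
set_option linter.unusedSectionVars false

noncomputable section

namespace Fermat.Agent.RT.Lifting

open IsLocalRing Module MvPolynomial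
open Fermat.Agent.Deform Fermat.Agent.Arith Fermat.Agent.RT.GammaH Fermat.Agent.RT.Assembly
open Fermat.Agent.CFT.Tangent
open Fermat.Agent.GaloisReps (HeckeGaloisModel CongruenceProperty heckeGaloisModel)
open Fermat.Agent.NewformLocal (UnipotentAt)

variable {O : Type} [CommRing O] [IsDomain O] [IsDiscreteValuationRing O]
  [IsAdicComplete (maximalIdeal O) O] [Finite (ResidueField O)] [CharZero O]
  {p : ℕ} [Fact p.Prime] [CharP (ResidueField O) p] {W : Rigid O}
  {ρbar : ResidualGaloisRep (ResidueField O)} {bb : Basis (Fin 2) (ResidueField O) ρbar.V}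
  {S : Finset ℕ} {abar : ℕ → ResidueField O} {N₀ : ℕ} [NeZero N₀]

set_option maxHeartbeats 3200000 in
set_option synthInstance.maxHeartbeats 400000 in
/-- `MinimalProperty` from the inputs of patching. -/
theorem minimalProperty_of (hlimit : LimitProperty) (hmod : ModulusProperty)
    (hd : IsResidualDatum p W ρbar bb S abar N₀) (hTW : TWModuleProperty p W S abar N₀)
    (D : ∀ (M : ℕ) [NeZero M], HeckeGaloisModel M p)
    (hU : ∀ (M : ℕ) [NeZero M] (v : ℕ), v.Prime → v ≠ p → v ∣ M → ¬ v ^ 2 ∣ M → UnipotentAt (D M) v)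
    (hTI : ∀ (q R M : ℕ) [Fact q.Prime] [NeZero R] [NeZero M]
      (g : CuspForm (CongruenceSubgroup.Gamma0 M) 2), InertiaTW.TraceInertia p q R M g)
    (hcong : ∀ (N : ℕ) [NeZero N], CongruenceProperty N p) (C : CondAt O) (good : ℕ → Prop) :
    MinimalProperty p W ρbar S N₀ C good := by
  intro hC hpt hgood hsel ι _ a r₀ hO _ hr₀ hatt
  obtain ⟨m, g, hmg, hSel⟩ := hsel
  simp only [Finset.card_empty, mul_zero, zero_add] at hmg
  subst hmg
  obtain ⟨e, he⟩ := exists_isLocalizer (O := O) (resIdeal S abar N₀) (Classes O S N₀)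
  haveI : Nontrivial (MinMod S N₀ e) :=
    Submodule.nontrivial_iff_ne_bot.2 (ne_bot_of_isCongruentLevel he hd.congruent)
  haveI : Module.Free O (MinMod S N₀ e) := Module.free_of_finite_type_torsion_free'
  obtain ⟨Bs⟩ := exists_minimalBase hd hC hpt hgood hTW D hU hTI hcong he
  have hrt : ∀ (B : Type) [CommRing B] [IsLocalRing B] [Algebra O B] [Module.Finite O B]
      (hB : IsResAlg O B) (rB : Gal →* M2 B),
      IsCondLift p W C N₀.primeFactors N₀.primeFactors hB rB → (B →ₐ[O] O) →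
      ∃ f : Bs.T →ₐ[O] B, mapM (f : Bs.T →+* B) Bs.rep = rB :=
    fun B _ _ _ _ _ rB hrB y =>
      exists_rtHom hlimit hd hC hpt hgood hTW D hU hTI hcong he Bs hSel hrB y
  have hr₀' : IsCondLift p W C N₀.primeFactors N₀.primeFactors hO r₀ :=
    ⟨hr₀.cont, hr₀.lifts, hr₀.normal, hr₀.det, GalAlg.cond_of_condOn hC hr₀.cont hr₀.cond,
      hr₀.unramified, hr₀.unipotent⟩
  haveI := isLocalRing_pairAlg Bs.lifts hr₀.lifts
  haveI := finite_pairAlg (O := O) (rA := Bs.rep) (rB := r₀)
  haveI : NeZero (2 ^ m) := ⟨pow_ne_zero m two_ne_zero⟩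
  letI : Module Bs.T (MinMod S N₀ e) :=
    Module.compHom _ (Bs.act : Bs.T →+* Module.End O (MinMod S N₀ e))
  letI : Module (pairAlg O Bs.rep r₀) (Fin (2 ^ m) → MinMod S N₀ e) :=
    Module.compHom _ (pairFst O Bs.rep r₀ : pairAlg O Bs.rep r₀ →+* Bs.T)
  haveI : IsScalarTower O (pairAlg O Bs.rep r₀) (Fin (2 ^ m) → MinMod S N₀ e) :=
    ⟨fun o a x => funext fun j => by
      show Bs.act (pairFst O Bs.rep r₀ (o • a)) (x j) = o • Bs.act (pairFst O Bs.rep r₀ a) (x j)
      rw [map_smul, map_smul, LinearMap.smul_apply]⟩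
  obtain ⟨hfree, hbij, ψ, f, hψ, hker⟩ := limit_pair hlimit hd.p_mem Bs (fun _ _ _ => rfl)
    (exists_minimalDatum hd hC hpt hgood hTW D hU hTI hcong he Bs hSel hr₀'
      (AlgHom.id O O) fun _ _ _ => rfl)
  haveI : IsReduced (pairAlg O Bs.rep r₀) :=
    isReduced_of_injective (pairFst O Bs.rep r₀) hbij.1
  haveI : Module.Free O (pairAlg O Bs.rep r₀) :=
    Module.Free.of_equiv (AlgEquiv.ofBijective (pairFst O Bs.rep r₀) hbij).symm.toLinearEquiv
  obtain ⟨η, hη, hder, hdiv⟩ := hmod O (pairAlg O Bs.rep r₀) m ψ f hψ hker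
    (isResAlg_pairAlg Bs.res) inferInstance (pairSnd O Bs.rep r₀)
  haveI : Module.Finite (pairAlg O Bs.rep r₀) (Fin (2 ^ m) → MinMod S N₀ e) :=
    Module.Finite.of_restrictScalars_finite O _ _
  refine ⟨η, hη, congruenceBound_of_pairModulus Bs (fun _ _ _ => rfl) hbij a (fun i r hr => ?_) η
    (hdiv _ hfree inferInstance), liftBound_of_derBound hd.p_mem hd.rb_eq hC Bs hrt hr₀' hder⟩
  -- the values of the point at the operators
  obtain ⟨A, hA⟩ := exists_liesOverPrime i.2.1
  obtain ⟨σ, hσ⟩ := exists_isFrobeniusAt hA i.2.1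
  have hr' : r = (pairRep O Bs.rep r₀ σ).trace := hbij.1 (by
    rw [hr, AddMonoidHom.map_trace (pairFst O Bs.rep r₀), ← Bs.trace i A hA σ hσ]
    rfl)
  rw [hr', AddMonoidHom.map_trace (pairSnd O Bs.rep r₀)]
  refine hatt i.1 i.2.1 (fun h => i.2.2 ?_) A hA σ hσ
  rcases Finset.mem_insert.1 h with h | h
  · exact h ▸ hd.mem_S_p
  · exact hd.mem_S_level _ i.2.1 (Nat.dvd_of_mem_primeFactors h)

/-- **`R = T` at minimal level.** -/
theorem minimalProperty (hd : IsResidualDatum p W ρbar bb S abar N₀) (C : CondAt O)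
    (good : ℕ → Prop) : MinimalProperty p W ρbar S N₀ C good :=
  minimalProperty_of limitProperty (modulusProperty socleProperty) hd (twModuleProperty hd)
    (fun M _ => heckeGaloisModel M p)
    (fun M _ v hv hvp hvM hv2 => (special_heckeGaloisModel M v hv hvp hvM hv2).1)
    (fun q R M _ _ _ g => InertiaTW.traceInertia p q R M g)
    (fun N _ => GaloisReps.congruenceProperty N p) C good

end Fermat.Agent.RT.Lifting
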