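import Fermat.Agent.RT.Glue.Algebra
import Fermat.Agent.Deform.Basic

/-!
# From the algebra of a level to the algebra acting on the coinvariants
-/

set_option autoImplicit false
set_option linter.style.haveILetI false
set_option linter.unusedSectionVars false
set_option linter.overlappingInstances false

noncomputable section

namespace Fermat.Agent.RT.Lifting

open IsLocalRing
open Fermat.Agent.Deform

variable {O : Type} [CommRing O] [IsLocalRing O]

/-- A surjective image of an algebra with the residue field of `O` has it. -/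
theorem isResAlg_of_surjective {A B : Type} [CommRing A] [IsLocalRing A] [Algebra O A]
    [CommRing B] [IsLocalRing B] [Algebra O B] (hA : IsResAlg O A) (f : A →ₐ[O] B)
    (hf : Function.Surjective f) : IsResAlg O B := by
  haveI := hA.isLocalHom
  haveI : IsLocalHom (f : A →+* B) := IsLocalHom.of_surjective _ hf
  refine ⟨⟨fun o ho => ?_⟩, fun z => ?_⟩
  · rw [← f.commutes] at ho
    exact (isUnit_map_iff (algebraMap O A) o).1 ((isUnit_map_iff (f : A →+* B) _).1 ho)
  · obtain ⟨y, rfl⟩ := residue_surjective z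
    obtain ⟨x, rfl⟩ := hf y
    obtain ⟨o, ho⟩ := exists_sub_mem hA x
    refine ⟨o, (sub_eq_zero.1 ?_).symm⟩
    show residue B (f x) - residue B (algebraMap O B o) = 0
    rw [← map_sub, residue_eq_zero_iff, ← f.commutes, ← map_sub]
    exact map_nonunit (f : A →+* B) _ ho

variable {L : ℕ} {Δ : Type} [CommGroup Δ] {ψ : (ZMod L)ˣ →* Δ} {S : Finset ℕ}
  {abar : ℕ → ResidueField O} (H : HeckeModule L ψ S abar)
  {M : Type} [AddCommGroup M] [Module O M] {T : Type} [CommRing T] [Algebra O T]
  (act : T →ₐ[O] Module.End O M) {k : ℕ} [NeZero k] (π : H.M →ₗ[O] Fin k → M)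

include act in
/-- **The map to the algebra of the coinvariants.** -/
theorem exists_redHom (hact : Function.Injective act) (hπ : Function.Surjective π)
    (hdia : ∀ δ x, π (H.dia δ x) = π x)
    (hT : ∀ ℓ : ℕ, ℓ.Prime → ℓ ∉ S → ∃ c : T, ∀ x j, π (H.T ℓ x) j = act c (π x j)) :
    ∃ red : H.algebra →ₐ[O] T,
      (∀ (a : H.algebra) x j, π ((a : Module.End O H.M) x) j = act (red a) (π x j)) ∧
      ∀ (a : H.algebra) c,
        (∀ x j, π ((a : Module.End O H.M) x) j = act c (π x j)) → red a = c := by
  have huniq : ∀ c c' : T, (∀ x j, act c (π x j) = act c' (π x j)) → c = c' := fun c c' h => by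
    refine hact (LinearMap.ext fun v => ?_)
    obtain ⟨x, hx⟩ := hπ fun _ => v
    have h' := h x 0
    rwa [hx] at h'
  have hex : ∀ a : H.algebra, ∃ c : T, ∀ x j, π ((a : Module.End O H.M) x) j = act c (π x j) := by
    rintro ⟨a, ha⟩
    show ∃ c : T, ∀ x j, π (a x) j = act c (π x j)
    induction ha using Algebra.adjoin_induction with
    | mem y hy =>
      rcases hy with ⟨δ, rfl⟩ | ⟨ℓ, ⟨hℓ, hℓS⟩, rfl⟩
      · exact ⟨1, fun x j => by rw [hdia, map_one, Module.End.one_apply]⟩
      · exact hT ℓ hℓ hℓS
    | algebraMap r =>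
      exact ⟨algebraMap O T r, fun x j => by
        rw [Module.algebraMap_end_apply, map_smul, AlgHom.commutes, Module.algebraMap_end_apply,
          Pi.smul_apply]⟩
    | add y z _ _ hy hz =>
      obtain ⟨c, hc⟩ := hy
      obtain ⟨d, hd⟩ := hz
      exact ⟨c + d, fun x j => by
        rw [LinearMap.add_apply, map_add, Pi.add_apply, hc, hd, map_add act, LinearMap.add_apply]⟩
    | mul y z _ _ hy hz =>
      obtain ⟨c, hc⟩ := hy
      obtain ⟨d, hd⟩ := hz
      exact ⟨c * d, fun x j => by
        rw [Module.End.mul_apply, hc, hd, map_mul act, Module.End.mul_apply]⟩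
  choose f hf using hex
  have hu : ∀ (a : H.algebra) c,
      (∀ x j, π ((a : Module.End O H.M) x) j = act c (π x j)) → f a = c :=
    fun a c hc => huniq _ _ fun x j => (hf a x j).symm.trans (hc x j)
  refine ⟨{ toFun := f, map_one' := hu _ _ fun x j => ?_, map_mul' := fun a b => hu _ _ fun x j => ?_,
            map_zero' := hu _ _ fun x j => ?_, map_add' := fun a b => hu _ _ fun x j => ?_,
            commutes' := fun r => hu _ _ fun x j => ?_ }, hf, hu⟩
  · rw [OneMemClass.coe_one, map_one, Module.End.one_apply, Module.End.one_apply]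
  · rw [Subalgebra.coe_mul, Module.End.mul_apply, hf, hf, map_mul act, Module.End.mul_apply]
  · rw [ZeroMemClass.coe_zero, map_zero, LinearMap.zero_apply, LinearMap.zero_apply, map_zero,
      Pi.zero_apply]
  · rw [AddMemClass.coe_add, LinearMap.add_apply, map_add, Pi.add_apply, hf, hf, map_add act,
      LinearMap.add_apply]
  · rw [Subalgebra.coe_algebraMap, Module.algebraMap_end_apply, map_smul, AlgHom.commutes,
      Module.algebraMap_end_apply, Pi.smul_apply]

/-- The differences `δ x - x` lie in the submodule of the differences at generators. -/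
theorem dia_sub_mem [IsDomain O] [IsDiscreteValuationRing O] [Finite Δ] {ι : Type} [Fintype ι] (g : ι → Δ) (hgen : ∀ δ : Δ, ∃ e : ι → ℕ, ∏ i, g i ^ e i = δ)
    {x : H.M} (hx : x ∈ Submodule.span O (Set.range fun z : Δ × H.M => H.dia z.1 z.2 - z.2)) :
    x ∈ Ideal.span (Set.range fun i => Glue.diaA H (g i) - 1) • (⊤ : Submodule H.algebra H.M) := by
  set I := Ideal.span (Set.range fun i => Glue.diaA H (g i) - 1) with hI
  have hδ : ∀ δ, Glue.diaA H δ - 1 ∈ I := fun δ => by
    obtain ⟨e, rfl⟩ := hgen δ
    rw [← Ideal.Quotient.eq_zero_iff_mem, map_sub, map_one, sub_eq_zero, map_prod, map_prod]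
    refine Finset.prod_eq_one fun i _ => ?_
    rw [map_pow, map_pow]
    have h : Ideal.Quotient.mk I (Glue.diaA H (g i)) = 1 := by
      rw [← sub_eq_zero, ← map_one (Ideal.Quotient.mk I), ← map_sub, Ideal.Quotient.eq_zero_iff_mem]
      exact Ideal.subset_span ⟨i, rfl⟩
    rw [h, one_pow]
  induction hx using Submodule.span_induction with
  | mem x hx =>
    obtain ⟨⟨δ, y⟩, rfl⟩ := hx
    have h : H.dia δ y - y = (Glue.diaA H δ - 1) • y := by
      rw [sub_smul, one_smul]; rfl
    show H.dia δ y - y ∈ _
    rw [h]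
    exact Submodule.smul_mem_smul (hδ δ) Submodule.mem_top
  | zero => exact zero_mem _
  | add y z _ _ hy hz => exact add_mem hy hz
  | smul c y _ hy => exact Submodule.smul_of_tower_mem _ c hy

end Fermat.Agent.RT.Lifting
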