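import Fermat.Agent.RT.Lifting.Minimal.LevelRep
import Fermat.Agent.RT.Lifting.Minimal.RedHom
import Fermat.Agent.RT.GammaH.Lattice
import Fermat.Agent.RT.Assembly.Final

/-!
# The Hecke algebra of minimal level with its representation

The algebra acting on the localised classes of minimal level, and what a Taylor–Wiles level gives
over it.
-/

set_option autoImplicit false
set_option linter.style.haveILetI false
set_option linter.unusedSectionVars false

noncomputable section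

namespace Fermat.Agent.RT.Lifting

open IsLocalRing Module MvPolynomial
open Fermat.Agent.Deform Fermat.Agent.Arith Fermat.Agent.RT.GammaH Fermat.Agent.RT.Assembly
open Fermat.Agent.GaloisReps (HeckeGaloisModel CongruenceProperty)
open Fermat.Agent.NewformLocal (UnipotentAt)

variable {O : Type} [CommRing O] [IsDomain O] [IsDiscreteValuationRing O]
  [IsAdicComplete (maximalIdeal O) O]

/-- A reduced finite free algebra acting faithfully on `M` through the operators `op`, with a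
normalised lift having the operators as traces of Frobenius. -/
structure MinimalBase (p : ℕ) (W : Rigid O) (S : Finset ℕ) (N₀ : ℕ) (M : Type) [AddCommGroup M]
    [Module O M] (op : {ℓ : ℕ // ℓ.Prime ∧ ℓ ∉ S} → Module.End O M) : Type 1 where
  T : Type
  [commRing : CommRing T]
  [algebra : Algebra O T]
  [isLocalRing : IsLocalRing T]
  [finite : Module.Finite O T]
  [free : Module.Free O T]
  [isReduced : IsReduced T]
  res : IsResAlg O T
  act : T →ₐ[O] Module.End O M
  act_injective : Function.Injective act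
  t : {ℓ : ℕ // ℓ.Prime ∧ ℓ ∉ S} → T
  adjoin_t : Algebra.adjoin O (Set.range t) = ⊤
  act_t : ∀ i, act (t i) = op i
  rep : Gal →* M2 T
  cont : IsCont rep
  lifts : Lifts W res rep
  normal : IsNormal W rep
  trace : ∀ i, ∀ A : ValuationSubring QBar, A.LiesOverPrime i.1 → ∀ σ : Gal,
    A.IsFrobeniusAt σ i.1 → (rep σ).trace = t i
  unramified : ∀ ℓ : ℕ, ℓ.Prime → ℓ ≠ p → ℓ ∉ N₀.primeFactors → ∀ A : ValuationSubring QBar,
    A.LiesOverPrime ℓ → ∀ τ ∈ A.inertiaSubgroupIn ℚ, rep τ = 1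

attribute [instance] MinimalBase.commRing MinimalBase.algebra MinimalBase.isLocalRing
  MinimalBase.finite MinimalBase.free MinimalBase.isReduced

/-- The localised classes of level `N₀`. -/
abbrev MinMod (S : Finset ℕ) (N₀ : ℕ) (e : OpRing O N₀ S) : Type :=
  ↥(localPart O e (Classes O S N₀))

/-- `T_ℓ` on the localised classes of level `N₀`. -/
abbrev minOp (S : Finset ℕ) (N₀ : ℕ) (e : OpRing O N₀ S) (i : {ℓ : ℕ // ℓ.Prime ∧ ℓ ∉ S}) :
    Module.End O (MinMod S N₀ e) :=
  localAct O e (Classes O S N₀) (X (Sum.inr i))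

variable [Finite (ResidueField O)] [CharZero O]
  {p : ℕ} [Fact p.Prime] [CharP (ResidueField O) p] {W : Rigid O}
  {ρbar : ResidualGaloisRep (ResidueField O)} {bb : Basis (Fin 2) (ResidueField O) ρbar.V}
  {S : Finset ℕ} {abar : ℕ → ResidueField O} {N₀ : ℕ} [NeZero N₀]

omit [Fact p.Prime] [CharP (ResidueField O) p] in
theorem exists_twGenerators {m n : ℕ} {qv : Fin m → ℕ} (hQ : IsTWSet p W.rb S n qv) :
    ∃ (PQ : Fin m → ValuationSubring QBar) (σQ : Fin m → Gal) (aQ : ∀ i, (ZMod (qv i))ˣ),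
      (∀ i, (PQ i).LiesOverPrime (qv i)) ∧ (∀ i, σQ i ∈ (PQ i).inertiaSubgroupIn ℚ) ∧
      (∀ i, ∀ μ : QBar, μ ^ qv i = 1 → σQ i μ = μ ^ (aQ i : ZMod (qv i)).val) ∧
      ∀ i, orderOf (aQ i) = qv i - 1 := by
  choose PQ hPQ using fun i => exists_liesOverPrime (hQ.prime i)
  choose σQ aQ h1 h2 h3 using fun i => exists_inertia_generator (hQ.prime i) (hPQ i)
  exact ⟨PQ, σQ, aQ, hPQ, h1, h2, h3⟩

set_option maxHeartbeats 1600000 in
set_option synthInstance.maxHeartbeats 400000 in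
/-- **What a level gives** over an algebra acting faithfully on the classes of minimal level. -/
theorem exists_twLevel (hd : IsResidualDatum p W ρbar bb S abar N₀) {C : CondAt O}
    {good : ℕ → Prop} (hC : IsPairCond ρbar C) (hpt : PointCond p ρbar C good)
    (hgood : ∀ M : ℕ, ¬ p ^ 2 ∣ M → (p ∣ M → p ∣ N₀) → good M)
    (hTW : TWModuleProperty p W S abar N₀)
    (D : ∀ (M : ℕ) [NeZero M], HeckeGaloisModel M p)
    (hU : ∀ (M : ℕ) [NeZero M] (v : ℕ), v.Prime → v ≠ p → v ∣ M → ¬ v ^ 2 ∣ M → UnipotentAt (D M) v)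
    (hTI : ∀ (q R M : ℕ) [Fact q.Prime] [NeZero R] [NeZero M]
      (g : CuspForm (CongruenceSubgroup.Gamma0 M) 2), InertiaTW.TraceInertia p q R M g)
    (hcong : ∀ (N : ℕ) [NeZero N], CongruenceProperty N p)
    {e : OpRing O N₀ S} (he : IsLocalizer (resIdeal S abar N₀) (Classes O S N₀) e)
    [Nontrivial (MinMod S N₀ e)]
    {T : Type} [CommRing T] [Algebra O T] (act : T →ₐ[O] Module.End O (MinMod S N₀ e))
    (hact : Function.Injective act) (t : {ℓ : ℕ // ℓ.Prime ∧ ℓ ∉ S} → T)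
    (ht : ∀ i, act (t i) = minOp S N₀ e i)
    {m n : ℕ} {qv : Fin m → ℕ} (hQ : IsTWSet p W.rb S n qv) :
    ∃ (PQ : Fin m → ValuationSubring QBar) (σQ : Fin m → Gal) (L : ℕ)
      (ψ : (ZMod L)ˣ →* TWGroup p m n) (H : HeckeModule L ψ (S ∪ Finset.univ.image qv) abar)
      (π : H.M →ₗ[O] Fin (2 ^ m) → MinMod S N₀ e) (red : H.algebra →ₐ[O] T)
      (E : Type) (_ : CommRing E) (_ : IsLocalRing E) (_ : Algebra O E) (_ : Module.Finite O E)
      (hE : IsResAlg O E) (j : E →ₐ[O] H.algebra) (rE : Gal →* M2 E),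
      0 < H.d ∧ (∀ i, (PQ i).LiesOverPrime (qv i)) ∧
      (∀ i, σQ i ∈ (PQ i).inertiaSubgroupIn ℚ) ∧ Function.Surjective π ∧
      (∀ (a : H.algebra) x k, π ((a : Module.End O H.M) x) k = act (red a) (π x k)) ∧
      (∀ x, π x = 0 → x ∈ Ideal.span (Set.range fun i => Glue.diaA H (twGen p n i) - 1) •
        (⊤ : Submodule H.algebra H.M)) ∧
      IsCondLift p W C (N₀.primeFactors ∪ Finset.univ.image qv) (N₀.primeFactors.erase p) hE rE ∧
      (∀ i, j (rE (σQ i)).trace =
        Glue.diaA H (twGen p n i) + Glue.diaA H (twGen p n i)⁻¹) ∧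
      (∀ i, (i.1 ∉ Finset.univ.image qv) → ∀ A : ValuationSubring QBar, A.LiesOverPrime i.1 →
        ∀ σ : Gal, A.IsFrobeniusAt σ i.1 → red (j (rE σ).trace) = t i) ∧
      ∀ i, i.1 ∉ Finset.univ.image qv → t i ∈ red.range := by
  classical
  obtain ⟨PQ, σQ, aQ, hPQ, hσQ, hσQ', haQ⟩ := exists_twGenerators hQ
  have hLsq : Squarefree (N₀ * ∏ i, qv i) :=
    squarefree_mul_prod hd.squarefree hd.mem_S_level hQ
  haveI : NeZero (N₀ * ∏ i, qv i) := ⟨hLsq.ne_zero⟩
  have hQL : ∀ i, qv i ∣ N₀ * ∏ i, qv i := fun i =>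
    dvd_mul_of_dvd_right (Finset.dvd_prod_of_mem _ (Finset.mem_univ i)) _
  obtain ⟨ψ, hψ, hψQ, hψ1⟩ := exists_twPsi hd.p_ne_two n hLsq qv hQ.prime hQL hQ.injective
    (fun i => (pow_dvd_pow p n.le_succ).trans (hQ.dvd i)) aQ haQ
  obtain ⟨H, π, hπ, hπk, hπT⟩ :=
    hTW e he m n qv hQ (TWGroup p m n) ψ hψ (isPGroup_levelGroup (V := Empty) (r := m) p n)
  have hdia : ∀ δ x, π (H.dia δ x) = π x := fun δ x => by
    rw [← sub_eq_zero, ← map_sub, hπk]
    exact Submodule.subset_span ⟨(δ, x), rfl⟩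
  haveI : NeZero (2 ^ m) := ⟨pow_ne_zero m two_ne_zero⟩
  have hT : ∀ ℓ : ℕ, ℓ.Prime → ℓ ∉ S ∪ Finset.univ.image qv →
      ∃ c : T, ∀ x k, π (H.T ℓ x) k = act c (π x k) := fun ℓ hℓ hℓS =>
    ⟨t ⟨ℓ, hℓ, fun h => hℓS (Finset.mem_union_left _ h)⟩, fun x k => by
      rw [hπT ℓ ⟨hℓ, hℓS⟩ x k, ht]⟩
  obtain ⟨red, hred, huniq⟩ := exists_redHom H act π hact hπ hdia hT
  have hd0 : 0 < H.d := by
    by_contra h0
    obtain ⟨v, hv⟩ := exists_ne (0 : MinMod S N₀ e)
    obtain ⟨x, hx⟩ := hπ fun _ => v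
    obtain ⟨c, hc⟩ := H.basis_bijective.2 x
    haveI : IsEmpty (Fin H.d × TWGroup p m n) := ⟨fun z => h0 (Nat.zero_lt_of_lt z.1.2)⟩
    have hx0 : x = 0 := by
      rw [← hc, Subsingleton.elim c 0]
      exact Finsupp.sum_zero_index
    rw [hx0, map_zero] at hx
    exact hv (congrFun hx 0).symm
  obtain ⟨E, _, _, _, _, hE, j, rE, -, hrE, hfrob, hinert⟩ :=
    exists_levelRep hd hC hpt hgood D hU hTI hcong hQ rfl hQL hPQ hσQ hσQ' hψQ hψ1 H hd0
  have hredD : ∀ δ, red (Glue.diaA H δ) = 1 := fun δ => huniq _ _ fun x k => by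
    rw [show ((Glue.diaA H δ : H.algebra) : Module.End O H.M) x = H.dia δ x from rfl, hdia, map_one,
      Module.End.one_apply]
  have hredT : ∀ (ℓ : ℕ) (hℓ : ℓ.Prime) (hℓS : ℓ ∉ S ∪ Finset.univ.image qv),
      red (Glue.TA H hℓ hℓS) = t ⟨ℓ, hℓ, fun h => hℓS (Finset.mem_union_left _ h)⟩ :=
    fun ℓ hℓ hℓS => huniq _ _ fun x k => by
      rw [show ((Glue.TA H hℓ hℓS : H.algebra) : Module.End O H.M) x = H.T ℓ x from rfl,
        hπT ℓ ⟨hℓ, hℓS⟩ x k, ht]
  refine ⟨PQ, σQ, _, ψ, H, π, red, E, inferInstance, inferInstance, inferInstance, inferInstance,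
    hE, j, rE, hd0, hPQ, hσQ, hπ, hred, fun x hx => ?_, hrE, hinert, fun i hi A hA σ hσ => ?_,
    fun i hi => ?_⟩
  · refine dia_sub_mem H (twGen p n) (fun δ => ?_) ((hπk x).1 hx)
    choose k hk using fun i => twProj_eq_pow p n i δ
    exact ⟨k, (Finset.prod_congr rfl fun i _ => (hk i).symm).trans (prod_twProj p n δ)⟩
  · have hiS : i.1 ∉ S ∪ Finset.univ.image qv := by
      simp [Finset.mem_union, i.2.2] at hi ⊢
      exact hi
    have hcop : Nat.Coprime i.1 (N₀ * ∏ k, qv k) := i.2.1.coprime_iff_not_dvd.mpr fun h => by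
      rcases prime_dvd_mul_prod hQ i.2.1 h with h | ⟨k, hk⟩
      · exact i.2.2 (hd.mem_S_level _ i.2.1 h)
      · exact hi (Finset.mem_image.mpr ⟨k, Finset.mem_univ k, hk⟩)
    rw [hfrob i.1 i.2.1 hiS (ZMod.unitOfCoprime i.1 hcop) (ZMod.coe_unitOfCoprime _ _) A hA σ hσ,
      map_mul, map_pow, hredD, one_pow, one_mul, hredT]
  · have hiS : i.1 ∉ S ∪ Finset.univ.image qv := by
      simp [Finset.mem_union, i.2.2] at hi ⊢
      exact hi
    exact ⟨_, hredT i.1 i.2.1 hiS⟩

set_option maxHeartbeats 1600000 in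
set_option synthInstance.maxHeartbeats 400000 in
/-- **The algebra at minimal level.** -/
theorem exists_minimalBase (hd : IsResidualDatum p W ρbar bb S abar N₀) {C : CondAt O}
    {good : ℕ → Prop} (hC : IsPairCond ρbar C) (hpt : PointCond p ρbar C good)
    (hgood : ∀ M : ℕ, ¬ p ^ 2 ∣ M → (p ∣ M → p ∣ N₀) → good M)
    (hTW : TWModuleProperty p W S abar N₀)
    (D : ∀ (M : ℕ) [NeZero M], HeckeGaloisModel M p)
    (hU : ∀ (M : ℕ) [NeZero M] (v : ℕ), v.Prime → v ≠ p → v ∣ M → ¬ v ^ 2 ∣ M → UnipotentAt (D M) v)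
    (hTI : ∀ (q R M : ℕ) [Fact q.Prime] [NeZero R] [NeZero M]
      (g : CuspForm (CongruenceSubgroup.Gamma0 M) 2), InertiaTW.TraceInertia p q R M g)
    (hcong : ∀ (N : ℕ) [NeZero N], CongruenceProperty N p)
    {e : OpRing O N₀ S} (he : IsLocalizer (resIdeal S abar N₀) (Classes O S N₀) e)
    [Nontrivial (MinMod S N₀ e)] :
    Nonempty (MinimalBase p W S N₀ (MinMod S N₀ e) (minOp S N₀ e)) := by
  classical
  haveI : Module.Free O (MinMod S N₀ e) := Module.free_of_finite_type_torsion_free'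
  let ρ0 : MvPolynomial {ℓ : ℕ // ℓ.Prime ∧ ℓ ∉ S} O →ₐ[O] Module.End O (MinMod S N₀ e) :=
    (localAct O e (Classes O S N₀)).comp (rename Sum.inr)
  let T := MvPolynomial {ℓ : ℕ // ℓ.Prime ∧ ℓ ∉ S} O ⧸ RingHom.ker ρ0
  let act : T →ₐ[O] Module.End O (MinMod S N₀ e) := Ideal.kerLiftAlg ρ0
  have hact : Function.Injective act := Ideal.kerLiftAlg_injective ρ0
  let t : {ℓ : ℕ // ℓ.Prime ∧ ℓ ∉ S} → T := fun i => Ideal.Quotient.mkₐ O _ (X i)
  have ht : ∀ i, act (t i) = minOp S N₀ e i := fun i => by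
    show localAct O e (Classes O S N₀) (rename Sum.inr (X i)) = _
    rw [rename_X]
  have htop : Algebra.adjoin O (Set.range t) = ⊤ := by
    rw [show Set.range t = Ideal.Quotient.mkₐ O (RingHom.ker ρ0) '' Set.range X from
      Set.range_comp _ _, Algebra.adjoin_image, MvPolynomial.adjoin_range_X, Algebra.map_top]
    exact (AlgHom.range_eq_top _).2 (Ideal.Quotient.mkₐ_surjective O _)
  haveI : Module.Finite O T := Module.Finite.of_injective act.toLinearMap hact
  haveI : Module.IsTorsionFree O T :=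
    Function.Injective.moduleIsTorsionFree act hact fun c x => map_smul act c x
  haveI : Module.Free O T := Module.free_of_finite_type_torsion_free'
  -- the level with no auxiliary prime
  have hQ : IsTWSet p W.rb S 0 (Fin.elim0 : Fin 0 → ℕ) :=
    ⟨fun i => i.elim0, fun i => i.elim0, fun i => i.elim0, fun i => i.elim0, fun i => i.elim0,
      fun i => i.elim0⟩
  obtain ⟨PQ, σQ, L, ψ, H, π, red, E, _, _, _, _, hE, j, rE, hd0, -, -, hπ, hred, hker, hrE, -,
    hfrob, hrange⟩ := exists_twLevel hd hC hpt hgood hTW D hU hTI hcong he act hact t ht hQ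
  have hnQ : ∀ i : {ℓ : ℕ // ℓ.Prime ∧ ℓ ∉ S},
      i.1 ∉ Finset.univ.image (Fin.elim0 : Fin 0 → ℕ) := fun i => by simp
  have hsurj : Function.Surjective red := by
    rw [← AlgHom.range_eq_top, eq_top_iff, ← htop, Algebra.adjoin_le_iff]
    rintro _ ⟨i, rfl⟩
    exact hrange i (hnQ i)
  have hinj : Function.Injective red := by
    refine (injective_iff_map_eq_zero red).2 fun a ha => Subtype.ext (LinearMap.ext fun x => ?_)
    have h0 : π ((a : Module.End O H.M) x) = 0 := funext fun k => by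
      rw [hred, ha, map_zero, LinearMap.zero_apply, Pi.zero_apply]
    have h1 := hker _ h0
    rw [show Set.range (fun i : Fin 0 => Glue.diaA H (twGen p 0 i) - 1) = ∅ from
      Set.range_eq_empty _, Ideal.span_empty, Submodule.bot_smul, Submodule.mem_bot] at h1
    rw [h1]
    rfl
  have hp := hd.p_mem
  have hΔ := isPGroup_levelGroup (V := Empty) (r := 0) p 0
  haveI := Glue.isLocalRing_algebra H hp hΔ hd0
  haveI : Nontrivial T := by
    refine ⟨⟨1, 0, fun h => ?_⟩⟩
    obtain ⟨v, hv⟩ := exists_ne (0 : MinMod S N₀ e)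
    refine hv ?_
    have h' := congrArg (fun c => act c v) h
    simpa using h'
  haveI : IsLocalRing T := IsLocalRing.of_surjective' (red : H.algebra →+* T) hsurj
  haveI := Glue.isLocalHom_algebraMap H hp hΔ
  have hA : IsResAlg O H.algebra :=
    ⟨inferInstance, Glue.residue_algebraMap_surjective H hp hΔ⟩
  have hT : IsResAlg O T := isResAlg_of_surjective hA red hsurj
  haveI := hT.isLocalHom
  haveI : IsReduced H.algebra := H.isReduced
  haveI : IsReduced T := isReduced_of_injective (AlgEquiv.ofBijective red ⟨hinj, hsurj⟩).symm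
    (AlgEquiv.ofBijective red ⟨hinj, hsurj⟩).symm.injective
  have hloc : IsLocalHom ((red.comp j : E →ₐ[O] T) : E →+* T) := isLocalHom_algHom _
  refine ⟨{
    T := T
    res := hT
    act := act
    act_injective := hact
    t := t
    adjoin_t := htop
    act_t := ht
    rep := mapM ((red.comp j : E →ₐ[O] T) : E →+* T) rE
    cont := hrE.cont.map _ hloc
    lifts := hrE.lifts.map hT _ hloc
    normal := hrE.normal.map _
    trace := fun i A hA σ hσ => ?_
    unramified := fun ℓ hℓ hℓp hℓN A hA τ hτ => ?_ }⟩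
  · rw [← hfrob i (hnQ i) A hA σ hσ]
    exact (AddMonoidHom.map_trace (red.comp j) (rE σ)).symm
  · show ((red.comp j : E →ₐ[O] T) : E →+* T).mapMatrix (rE τ) = 1
    rw [hrE.unramified ℓ hℓ hℓp (by simpa using hℓN) A hA τ hτ, map_one]

end Fermat.Agent.RT.Lifting
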