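import Fermat.Agent.RT.Lifting.Minimal.PairAlg
import Mathlib.RingTheory.Henselian

/-!
# The entries of a normalised lift lie in the algebra generated by its traces

Normalisation gives the idempotents and the lower elementary matrix in the span of the
representation over the algebra of traces; irreducibility gives the upper one.
-/

set_option autoImplicit false
set_option linter.style.haveILetI false

noncomputable section

namespace Fermat.Agent.RT.Lifting

open IsLocalRing Fermat.Agent.Deform Fermat.Agent.RT.Assembly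

variable {O : Type} [CommRing O] [IsDomain O] [IsDiscreteValuationRing O]
  [IsAdicComplete (maximalIdeal O) O]
variable {A : Type} [CommRing A] [IsLocalRing A] [Algebra O A] [Module.Finite O A]
variable {W : Rigid O} {hA : IsResAlg O A} {r : Gal →* M2 A}

variable (O r) in
/-- The algebra generated by the traces of a representation. -/
abbrev traceAlg : Subalgebra O A := Algebra.adjoin O (Set.range fun σ => (r σ).trace)

set_option maxHeartbeats 800000 in
/-- The entries of a normalised lift lie in the algebra of its traces. -/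
theorem mem_traceAlg (h2 : (2 : ResidueField O) ≠ 0) (hne : ∃ σ, W.rb σ 0 1 ≠ 0)
    (hl : Lifts W hA r) (hn : IsNormal W r) (σ : Gal) (i j : Fin 2) :
    r σ i j ∈ traceAlg O r := by
  classical
  obtain ⟨hX01, hX10, hY10⟩ := hn
  set T := traceAlg O r with hT
  haveI : IsLocalRing T := isLocalRing_subalgebra T
  haveI := finite_subalgebra T
  have hTA := isResAlg_subalgebra hA T
  haveI := hTA.isLocalHom
  haveI : IsAdicComplete (maximalIdeal T) T := isAdicComplete_subalgebra T hTA.isLocalHom
  haveI : HenselianRing T (maximalIdeal T) := IsAdicComplete.henselianRing T _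
  haveI := isLocalHom_subalgebra_val T
  set N : Submodule T (M2 A) := Submodule.span T (Set.range r) with hN
  have hr : ∀ g, r g ∈ N := fun g => Submodule.subset_span ⟨g, rfl⟩
  have hone : (1 : M2 A) ∈ N := by rw [← map_one r]; exact hr 1
  have hmul : ∀ x ∈ N, ∀ y ∈ N, x * y ∈ N := fun x hx y hy => by
    induction hx using Submodule.span_induction with
    | mem x hx =>
      obtain ⟨a, rfl⟩ := hx
      induction hy using Submodule.span_induction with
      | mem y hy =>
        obtain ⟨b, rfl⟩ := hy
        rw [← map_mul]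
        exact hr _
      | zero => rw [mul_zero]; exact zero_mem _
      | add y z _ _ hy hz => rw [mul_add]; exact add_mem hy hz
      | smul c y _ hy => rw [mul_smul_comm]; exact Submodule.smul_mem _ _ hy
    | zero => rw [zero_mul]; exact zero_mem _
    | add x z _ _ hx hz => rw [add_mul]; exact add_mem hx hz
    | smul c x _ hx => rw [smul_mul_assoc]; exact Submodule.smul_mem _ _ hx
  have htr : ∀ x ∈ N, x.trace ∈ T := fun x hx => by
    induction hx using Submodule.span_induction with
    | mem x hx => obtain ⟨a, rfl⟩ := hx; exact Algebra.subset_adjoin ⟨a, rfl⟩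
    | zero => rw [Matrix.trace_zero]; exact zero_mem _
    | add x z _ _ hx hz => rw [Matrix.trace_add]; exact add_mem hx hz
    | smul c x _ hx => rw [Matrix.trace_smul]; exact mul_mem c.2 hx
  have hev : ∀ c : Gal →₀ O, evalC c r ∈ N := fun c =>
    Submodule.sum_mem _ fun g _ => Submodule.smul_of_tower_mem _ _ (hr g)
  have hhalf : IsUnit (2 : T) := isUnit_of_augment_ne_zero hTA (by rwa [map_ofNat])
  obtain ⟨c2, hc2⟩ := hhalf.exists_right_inv
  have hc2A : 2 * (c2 : A) = 1 := congrArg Subtype.val hc2
  have hX00 : augment hA (evalC W.cX r 0 0) = 1 := by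
    simpa [Matrix.single_apply] using augment_X hl 0 0
  have hX11 : augment hA (evalC W.cX r 1 1) = 0 := by
    simpa [Matrix.single_apply] using augment_X hl 1 1
  have hsum : evalC W.cX r 0 0 + evalC W.cX r 1 1 ∈ T := by
    simpa [Matrix.trace_fin_two] using htr _ (hev W.cX)
  have hsq : evalC W.cX r 0 0 ^ 2 + evalC W.cX r 1 1 ^ 2 ∈ T := by
    simpa [Matrix.trace_fin_two, Matrix.mul_apply, Fin.sum_univ_two, hX01, hX10, pow_two] using
      htr _ (hmul _ (hev W.cX) _ (hev W.cX))
  set u := evalC W.cX r 0 0 - evalC W.cX r 1 1 with hu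
  have hu2 : u ^ 2 ∈ T := by
    rw [show u ^ 2 = 2 * (evalC W.cX r 0 0 ^ 2 + evalC W.cX r 1 1 ^ 2) -
      (evalC W.cX r 0 0 + evalC W.cX r 1 1) ^ 2 by rw [hu]; ring]
    exact sub_mem (mul_mem (by exact_mod_cast natCast_mem T 2) hsq) (pow_mem hsum 2)
  have hau : augment hA u = 1 := by rw [hu, map_sub, hX00, hX11, sub_zero]
  have haw : augment hTA ⟨u ^ 2, hu2⟩ = 1 := by
    rw [augment_subalgebra hA T]
    simp [hau]
  obtain ⟨v, hv, hv1⟩ := HenselianRing.is_henselian (I := maximalIdeal T)
    (Polynomial.X ^ 2 - Polynomial.C (⟨u ^ 2, hu2⟩ : T)) (by monicity!) 1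
    ((augment_eq_zero_iff hTA _).mp (by simp [haw]))
    (IsUnit.map _ (isUnit_of_augment_ne_zero hTA (by
      simpa [Polynomial.derivative_pow, map_ofNat] using h2)))
  simp only [Polynomial.IsRoot, Polynomial.eval_sub, Polynomial.eval_pow, Polynomial.eval_X,
    Polynomial.eval_C, sub_eq_zero] at hv
  have hv2 : (v : A) ^ 2 = u ^ 2 := congrArg Subtype.val hv
  have hav : augment hA (v : A) = 1 := by
    have h := (augment_eq_zero_iff hTA _).mpr hv1
    rwa [map_sub, map_one, sub_eq_zero, augment_subalgebra hA T] at h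
  have huv : u = (v : A) := by
    have h1 : IsUnit (u + (v : A)) := isUnit_of_augment_ne_zero hA (by
      rw [map_add, hau, hav, one_add_one_eq_two]; exact h2)
    refine sub_eq_zero.mp (h1.mul_left_eq_zero.mp ?_)
    linear_combination -hv2
  have hd : evalC W.cX r 1 1 ∈ T := by
    rw [show evalC W.cX r 1 1 =
      (c2 : A) * (evalC W.cX r 0 0 + evalC W.cX r 1 1 - (v : A)) by
        linear_combination (evalC W.cX r 1 1) * (-hc2A) - (c2 : A) * (huv.symm.trans hu).symm]
    exact mul_mem c2.2 (sub_mem hsum v.2)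
  have hvu : IsUnit v := isUnit_of_augment_ne_zero hTA (by
    rw [augment_subalgebra hA T, hav]; exact one_ne_zero)
  obtain ⟨w, hw⟩ := hvu.exists_right_inv
  have hwA : (v : A) * (w : A) = 1 := congrArg Subtype.val hw
  have he0 : Matrix.single 0 0 (1 : A) ∈ N := by
    rw [show Matrix.single 0 0 (1 : A) =
        w • (evalC W.cX r - (⟨_, hd⟩ : T) • (1 : M2 A)) by
      ext a b
      fin_cases a <;> fin_cases b <;>
        simp [Subalgebra.smul_def, hX01, hX10]
      linear_combination -(w : A) * (hu.symm.trans huv) - hwA]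
    exact Submodule.smul_mem _ _ (sub_mem (hev _) (Submodule.smul_mem _ _ hone))
  have he1 : Matrix.single 1 1 (1 : A) ∈ N := by
    rw [show Matrix.single (1 : Fin 2) (1 : Fin 2) (1 : A) = 1 - Matrix.single 0 0 1 by
      ext a b; fin_cases a <;> fin_cases b <;> simp]
    exact sub_mem hone he0
  have he10 : Matrix.single 1 0 (1 : A) ∈ N := by
    rw [show Matrix.single 1 0 (1 : A) =
        Matrix.single 1 1 (1 : A) * evalC W.cY r * Matrix.single 0 0 (1 : A) by
      ext a b
      fin_cases a <;> fin_cases b <;>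
        simp [Matrix.single_apply, Matrix.mul_apply, hY10]]
    exact hmul _ (hmul _ he1 _ (hev _)) _ he0
  have hread : ∀ (a b : Fin 2), Matrix.single b a (1 : A) ∈ N → ∀ g, r g a b ∈ T := by
    intro a b hab g
    have h := htr _ (hmul _ hab _ (hr g))
    fin_cases a <;> fin_cases b <;>
      simpa [Matrix.trace_fin_two, Matrix.mul_apply, Fin.sum_univ_two, Matrix.single_apply] using h
  have h01 := hread 0 1 he10
  obtain ⟨σ₀, hσ₀⟩ := hne
  have he01 : Matrix.single 0 1 (1 : A) ∈ N := by
    have hz : IsUnit (⟨_, h01 σ₀⟩ : T) := isUnit_of_augment_ne_zero hTA (by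
      rw [augment_subalgebra hA T, hl]; exact hσ₀)
    obtain ⟨z, hz⟩ := hz.exists_right_inv
    have hzA : r σ₀ 0 1 * (z : A) = 1 := congrArg Subtype.val hz
    rw [show Matrix.single 0 1 (1 : A) =
        z • (Matrix.single 0 0 (1 : A) * r σ₀ * Matrix.single 1 1 (1 : A)) by
      ext a b
      fin_cases a <;> fin_cases b <;>
        simp [Subalgebra.smul_def]
      linear_combination -hzA]
    exact Submodule.smul_mem _ _ (hmul _ (hmul _ he0 _ (hr σ₀)) _ he1)
  fin_cases i <;> fin_cases j
  · exact hread 0 0 he0 σ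
  · exact h01 σ
  · exact hread 1 0 he01 σ
  · exact hread 1 1 he1 σ

/-- Normalised lifts with equal traces are equal. -/
theorem eq_of_trace_eq (h2 : (2 : ResidueField O) ≠ 0) (hne : ∃ σ, W.rb σ 0 1 ≠ 0)
    {r' : Gal →* M2 A} (hl : Lifts W hA r) (hl' : Lifts W hA r') (hn : IsNormal W r)
    (hn' : IsNormal W r') (htr : ∀ σ, (r σ).trace = (r' σ).trace) : r = r' := by
  haveI := isLocalRing_pairAlg hl hl'
  haveI := finite_pairAlg (O := O) (rA := r) (rB := r')
  have hle : traceAlg O (pairRep O r r') ≤
      AlgHom.equalizer (pairFst O r r') (pairSnd O r r') := by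
    refine Algebra.adjoin_le ?_
    rintro _ ⟨σ, rfl⟩
    show pairFst O r r' _ = pairSnd O r r' _
    rw [AddMonoidHom.map_trace (pairFst O r r'), AddMonoidHom.map_trace (pairSnd O r r')]
    exact htr σ
  refine MonoidHom.ext fun σ => Matrix.ext fun i j => ?_
  exact hle (mem_traceAlg h2 hne (lifts_pairRep (rB := r') hl) (isNormal_pairRep hn hn') σ i j)

/-- Algebra maps agreeing on the traces agree on the entries of a normalised lift. -/
theorem mapM_eq_of_trace_eq (h2 : (2 : ResidueField O) ≠ 0) (hne : ∃ σ, W.rb σ 0 1 ≠ 0)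
    (hl : Lifts W hA r) (hn : IsNormal W r) {B : Type} [CommRing B] [Algebra O B]
    {f g : A →ₐ[O] B} (h : ∀ σ, f (r σ).trace = g (r σ).trace) :
    mapM (f : A →+* B) r = mapM (g : A →+* B) r := by
  have hle : traceAlg O r ≤ AlgHom.equalizer f g :=
    Algebra.adjoin_le (Set.range_subset_iff.mpr h)
  exact MonoidHom.ext fun σ => Matrix.ext fun i j => hle (mem_traceAlg h2 hne hl hn σ i j)

end Fermat.Agent.RT.Lifting
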