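import Fermat.Agent.RT.Lifting.Interface
import Fermat.Agent.RT.Lifting.GalAlg.Cond
import Fermat.Agent.RT.Lifting.Minimal.TraceAlg
import Fermat.Agent.RT.Glue.Bridge
import Fermat.Agent.GaloisReps.Attach

/-!
# The condition at `p` on the glued representation

At every point the normalised matrices have values in the coefficient ring of the newform, where
`PointCond` applies; the points are finite in number and jointly injective.
-/

set_option autoImplicit false
set_option linter.style.haveILetI false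
set_option linter.unusedSectionVars false

noncomputable section

namespace Fermat.Agent.RT.Lifting

open IsLocalRing Module
open Fermat.Agent.Deform Fermat.Agent.RT.Assembly Fermat.Agent.GaloisReps Fermat.Agent.CFT.Tangent
open Fermat.Agent.RT.Glue (KBar Point Glued)

/-- There are finitely many points. -/
theorem finite_algHom_kBar {O : Type} [CommRing O] [IsDomain O] {A : Type} [CommRing A]
    [Algebra O A] [Module.Finite O A] [Module.Free O A] : Finite (A →ₐ[O] KBar O) :=
  (linearIndependent_algHom_toLinearMap O A (KBar O)).finite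

variable {O : Type} [CommRing O] [IsDomain O] [IsDiscreteValuationRing O]
  [IsAdicComplete (maximalIdeal O) O]

/-- Residual equivalence of a lift pushed to a coefficient ring with larger residue field. -/
theorem residual_isEquiv_of_map {ρbar : ResidualGaloisRep (ResidueField O)} {W : Rigid O}
    {bb : Basis (Fin 2) (ResidueField O) ρbar.V} (hW : W.rb = matRes ρbar bb)
    {E R : Type} [CommRing E] [IsLocalRing E] [Algebra O E] [CommRing R] [IsLocalRing R]
    [Algebra O R] [IsLocalHom (algebraMap O R)] {hE : IsResAlg O E} {r : Gal →* M2 E}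
    (hl : Lifts W hE r) (f : E →ₐ[O] R) (hf : IsLocalHom (f : E →+* R))
    (hc : IsCont (mapM (f : E →+* R) r)) :
    (toRep (mapM (f : E →+* R) r) hc).residual.IsEquiv
      (ρbar.baseChangeAlong (ResidueField.map (algebraMap O R))) := by
  obtain ⟨B₁, hB₁⟩ := Glue.toMatrix_residual_toRep hc
  obtain ⟨B₂, hB₂⟩ := Glue.toMatrix_baseChangeAlong (ResidueField.map (algebraMap O R)) ρbar bb
  refine Glue.isEquiv_of_toMatrix (r₁ := (toRep (mapM (f : E →+* R) r) hc).residual) B₁ B₂
    fun σ => ?_
  rw [hB₁, hB₂]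
  refine Matrix.ext fun i j => ?_
  rw [Matrix.map_apply, Matrix.map_apply,
    show LinearMap.toMatrix bb bb (ρbar.ρ σ) i j = W.rb σ i j by rw [hW]; rfl, ← hl σ i j]
  obtain ⟨o, ho⟩ := exists_sub_mem hE (r σ i j)
  have h1 := (augment_eq_zero_iff hE _).mpr ho
  rw [map_sub, AlgHom.commutes, sub_eq_zero] at h1
  have h2 : residue R (f (r σ i j)) = residue R (algebraMap O R o) := by
    rw [← sub_eq_zero, ← map_sub, residue_eq_zero_iff, ← f.commutes, ← map_sub]
    exact map_nonunit (f : E →+* R) _ ho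
  show residue R (f (r σ i j)) = _
  rw [h2, h1, ResidueField.algebraMap_eq, ResidueField.map_residue]

set_option maxHeartbeats 800000 in
/-- A jointly injective finite family of images satisfying the condition gives the condition. -/
theorem cond_of_maps {ρbar : ResidualGaloisRep (ResidueField O)} {W : Rigid O}
    {bb : Basis (Fin 2) (ResidueField O) ρbar.V} (hW : W.rb = matRes ρbar bb) {C : CondAt O}
    (hC : IsPairCond ρbar C) {E : Type} [CommRing E] [IsLocalRing E] [Algebra O E]
    [Module.Finite O E] {hE : IsResAlg O E} {r : Gal →* M2 E} (hl : Lifts W hE r) (hc : IsCont r)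
    {I : Type} [Finite I] (R : I → Type) [∀ i, CommRing (R i)] [∀ i, IsLocalRing (R i)]
    [∀ i, Algebra O (R i)] [∀ i, Module.Finite O (R i)] [∀ i, IsLocalHom (algebraMap O (R i))]
    (f : ∀ i, E →ₐ[O] R i) (hsep : ∀ x, (∀ i, f i x = 0) → x = 0)
    (hx : ∀ i hc', C (toRep (mapM (f i : E →+* R i) r) hc')) : C (toRep r hc) := by
  classical
  haveI := Fintype.ofFinite I
  haveI := hE.isLocalHom
  haveI : Nonempty I := by
    by_contra hemp
    exact one_ne_zero (hsep 1 fun i => absurd ⟨i⟩ hemp)
  have key : ∀ i, GalAlg.CondMod C r (RingHom.ker (f i)) := by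
    intro i _ hcJ
    have hfl : IsLocalHom (f i : E →+* R i) := isLocalHom_algHom (f i)
    haveI := (GalAlg.isResAlg_quotient (J := RingHom.ker (f i)) hE).isLocalHom
    let φ : E ⧸ RingHom.ker (f i) →ₐ[O] R i := Ideal.Quotient.liftₐ _ (f i) fun _ h => h
    have hφl : IsLocalHom (φ : E ⧸ RingHom.ker (f i) →+* R i) := isLocalHom_algHom φ
    refine hC.descend φ hφl _ (RingHom.kerLift_injective (f i : E →+* R i))
      (GalAlg.residual_quotient hW hC hE hl hcJ) ?_
    refine hC.of_isEquiv (isEquiv_symm (isEquiv_trans (isEquiv_baseChangeAlong_toRep _ hφl _ hcJ)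
      (isEquiv_toRep_congr ?_ _ (hc.map _ hfl)))) (hx i _)
    rw [mapM_mapM]
    rfl
  have hne : ∀ s : Finset I, s.Nonempty → s.inf (fun i => RingHom.ker (f i)) ≠ ⊤ := by
    rintro s ⟨i, hi⟩ htop
    exact RingHom.ker_ne_top (f i) (top_le_iff.1 (htop ▸ Finset.inf_le hi))
  have hall : ∀ s : Finset I, s.Nonempty →
      GalAlg.CondMod C r (s.inf fun i => RingHom.ker (f i)) := by
    intro s hs
    induction hs using Finset.Nonempty.cons_induction with
    | singleton i =>
      rw [Finset.inf_singleton]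
      exact key i
    | cons i s hi hs ih =>
      rw [Finset.inf_cons]
      exact GalAlg.condMod_inf hW hC hE hl hc (RingHom.ker_ne_top (f i)) (hne s hs) (key i) ih
  set J := Finset.univ.inf fun i => RingHom.ker (f i) with hJdef
  haveI := GalAlg.isLocalRing_quotient (hne _ Finset.univ_nonempty)
  have hJ : Function.Injective (Ideal.Quotient.mkₐ O J) := by
    refine (injective_iff_map_eq_zero _).2 fun a ha => hsep a fun i => ?_
    exact Finset.inf_le (f := fun i => RingHom.ker (f i)) (Finset.mem_univ i)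
      (Ideal.Quotient.eq_zero_iff_mem.1 ha)
  exact hC.descend (Ideal.Quotient.mkₐ O J) GalAlg.isLocalHom_mk _ hJ
    (residual_isEquiv_of_lifts hW hE _ (Pi.basisFun _ (Fin 2))
      ((matOf_toRep r hc).symm ▸ hl))
    (hC.of_isEquiv (isEquiv_symm (isEquiv_baseChangeAlong_toRep _ GalAlg.isLocalHom_mk r hc))
      (hall _ Finset.univ_nonempty (hc.map _ GalAlg.isLocalHom_mk)))

variable [Finite (ResidueField O)] [CharZero O] {p : ℕ} [Fact p.Prime]
  {L : ℕ} [NeZero L] {Δ : Type} [CommGroup Δ] [Finite Δ] {ψ : (ZMod L)ˣ →* Δ} {S : Finset ℕ}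
  {abar : ℕ → ResidueField O} {H : HeckeModule L ψ S abar}
  {hS : ∀ q : ℕ, q.Prime → q ∣ L → q ∈ S}
  [IsLocalRing H.algebra] {D : ∀ (M : ℕ) [NeZero M], HeckeGaloisModel M p}
  {pt : ∀ θ : H.algebra →ₐ[O] KBar O, Point (p := p) H hS θ.toRingHom} (G : Glued D pt)

set_option maxHeartbeats 1600000 in
/-- The values at a point of the entries of normalised matrices lie in the coefficient ring of the
newform. -/
theorem exists_pointMap {W : Rigid O} (h2 : (2 : ResidueField O) ≠ 0)
    (hne : ∃ σ, W.rb σ 0 1 ≠ 0) {hA : IsResAlg O H.algebra} {ru : Gal →* M2 H.algebra}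
    (hl : Lifts W hA ru) (hn : IsNormal W ru) (htr : ∀ σ, (ru σ).trace = (G.R σ).trace)
    (θ : H.algebra →ₐ[O] KBar O) :
    ∃ f : Algebra.adjoin O (entries ru) →ₐ[O] (pt θ).R,
      ∀ x, (pt θ).j (f x) = θ (x : H.algebra) := by
  set P := pt θ
  let jA : P.R →ₐ[O] KBar O :=
    { P.j with commutes' := fun o => RingHom.congr_fun P.j_algebraMap o }
  have hle : Algebra.adjoin O (entries ru) ≤ jA.range.comap θ := by
    refine (Algebra.adjoin_le ?_).trans (Algebra.adjoin_le
      (Set.range_subset_iff.mpr fun σ => ?_) : traceAlg O ru ≤ _)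
    · rintro _ ⟨⟨σ, i, j⟩, rfl⟩
      exact mem_traceAlg h2 hne hl hn σ i j
    · show θ (ru σ).trace ∈ jA.range
      rw [htr, G.trace_eq, P.trace_rep D]
      exact ⟨_, rfl⟩
  exact ⟨(AlgEquiv.ofInjective jA P.j_injective).symm.toAlgHom.comp
    ((θ.comp (Algebra.adjoin O (entries ru)).val).codRestrict jA.range fun x => hle x.2), fun x =>
      congrArg Subtype.val ((AlgEquiv.ofInjective jA P.j_injective).apply_symm_apply
        ⟨θ (x : H.algebra), hle x.2⟩)⟩

omit [IsAdicComplete (maximalIdeal O) O] [Finite (ResidueField O)] [CharZero O] [NeZero L]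
  [Finite Δ] [IsLocalRing H.algebra] in
theorem isLocalHom_point {θK : H.algebra →+* KBar O} (P : Point (p := p) H hS θK) :
    IsLocalHom (algebraMap O P.R) := by
  refine RingHom.IsIntegral.isLocalHom (f := algebraMap O P.R)
    (algebraMap_isIntegral_iff.mpr (Algebra.IsIntegral.of_finite O P.R)) fun a b h => ?_
  have hinj : Function.Injective (algebraMap O (KBar O)) := by
    rw [IsScalarTower.algebraMap_eq O (FractionRing O) (KBar O)]
    exact (algebraMap (FractionRing O) (KBar O)).injective.comp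
      (IsFractionRing.injective O (FractionRing O))
  exact hinj (by rw [← P.j_algebraMap, RingHom.comp_apply, RingHom.comp_apply, h])

set_option maxHeartbeats 1600000 in
/-- The condition holds at a point. -/
theorem cond_pointMap {ρbar : ResidualGaloisRep (ResidueField O)} {W : Rigid O}
    {bb : Basis (Fin 2) (ResidueField O) ρbar.V} (hW : W.rb = matRes ρbar bb)
    {C : CondAt O} {good : ℕ → Prop} (hpt : PointCond p ρbar C good)
    {ru : Gal →* M2 H.algebra} (htr : ∀ σ, (ru σ).trace = (G.R σ).trace)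
    (θ : H.algebra →ₐ[O] KBar O) (hgood : good (pt θ).M)
    {E : Subalgebra O H.algebra} [IsLocalRing E] [Module.Finite O E] {hEA : IsResAlg O E}
    {rE : Gal →* M2 E} (hru : ∀ σ, ((rE σ).trace : H.algebra) = (ru σ).trace)
    (hl : Lifts W hEA rE) (hcE : IsCont rE) (hdet : (toRep rE hcE).DetIsCyclotomic p)
    (f : E →ₐ[O] (pt θ).R) (hf : ∀ x : E, (pt θ).j (f x) = θ (x : H.algebra))
    (hc : IsCont (mapM (f : E →+* (pt θ).R) rE)) :
    C (toRep (mapM (f : E →+* (pt θ).R) rE) hc) := by
  haveI := isLocalHom_point (pt θ)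
  have hfl : IsLocalHom (f : E →+* (pt θ).R) := isLocalHom_algHom f
  refine hpt (pt θ).M (pt θ).g (pt θ).isNewform hgood (pt θ).R _
    ((pt θ).emb.toRingHom.comp (pt θ).j) ((pt θ).emb.injective.comp (pt θ).j_injective)
    (residual_isEquiv_of_map hW hl _ hfl hc) ?_ ?_
  · refine ⟨(pt θ).p_mem, fun k σ a ha => ?_⟩
    have h1 := hdet.2 k σ a ha
    rw [det_toRep] at h1 ⊢
    rw [show mapM (f : E →+* (pt θ).R) rE σ = (f : E →+* (pt θ).R).mapMatrix (rE σ) from rfl,
      ← RingHom.map_det, ← map_natCast (f : E →+* (pt θ).R) a, ← map_sub]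
    exact map_mem_span_natCast _ h1
  · intro ℓ hℓ hℓp hℓM A hA' σ hσ
    have htr' : LinearMap.trace (pt θ).R (toRep (mapM (f : E →+* (pt θ).R) rE) hc).V
        ((toRep (mapM (f : E →+* (pt θ).R) rE) hc).ρ σ) = f (rE σ).trace := by
      rw [AddMonoidHom.map_trace f]
      exact Matrix.trace_toLin'_eq (mapM (f : E →+* (pt θ).R) rE σ)
    rw [RingHom.comp_apply, htr', hf, hru, htr, G.trace_eq, (pt θ).trace_rep D,
      ← pow_one ((D (pt θ).M).eigenAction (pt θ).ι (pt θ).θ' σ),
      trace_pow_of_charpoly ((D (pt θ).M).finrank_eigenspace_domain (pt θ).θ') _ _ ℓ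
        ((D (pt θ).M).charpoly_eigenAction_frobenius (pt θ).ι (pt θ).θ' frobeniusDensity
          (pt θ).p_mem hℓ (fun h => (hℓ.dvd_mul.mp h).elim hℓM
            fun h' => hℓp ((Nat.prime_dvd_prime_iff_eq hℓ Fact.out).mp h')) hA' hσ) 1]
    show (pt θ).emb ((pt θ).j ((pt θ).θ' _)) = _
    rw [(pt θ).emb_θ', HeckeDuality.heckeOp, dif_neg hℓM,
      ConductorLevel.eigenChar_T (pt θ).isNewform.1 hℓ hℓM]

set_option maxHeartbeats 1600000 in
/-- **The condition over the algebra of the entries.** -/
theorem cond_entries {ρbar : ResidualGaloisRep (ResidueField O)} {W : Rigid O}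
    {bb : Basis (Fin 2) (ResidueField O) ρbar.V} (hW : W.rb = matRes ρbar bb)
    {C : CondAt O} (hC : IsPairCond ρbar C) {good : ℕ → Prop} (hpt : PointCond p ρbar C good)
    (hgood : ∀ θ, good (pt θ).M) (h2 : (2 : ResidueField O) ≠ 0)
    (hne : ∃ σ, W.rb σ 0 1 ≠ 0) (hA : IsResAlg O H.algebra) {ru : Gal →* M2 H.algebra}
    (hl : Lifts W hA ru) (hn : IsNormal W ru) (htr : ∀ σ, (ru σ).trace = (G.R σ).trace)
    [IsLocalRing (Algebra.adjoin O (entries ru))]
    {hmem : ∀ σ i j, ru σ i j ∈ Algebra.adjoin O (entries ru)}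
    (hcE : IsCont (corestrict (Algebra.adjoin O (entries ru)) ru hmem))
    (hdet : (toRep _ hcE).DetIsCyclotomic p) :
    C (toRep (corestrict (Algebra.adjoin O (entries ru)) ru hmem) hcE) := by
  classical
  set E := Algebra.adjoin O (entries ru) with hE
  set rE := corestrict E ru hmem with hrE
  haveI := finite_subalgebra E
  have hEA := isResAlg_subalgebra hA E
  haveI := hEA.isLocalHom
  have hlE := lifts_corestrict E hl hmem
  choose f hf using fun θ => exists_pointMap G h2 hne hl hn htr θ
  haveI : Finite (H.algebra →ₐ[O] KBar O) := finite_algHom_kBar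
  haveI : ∀ θ, IsLocalHom (algebraMap O (pt θ).R) := fun θ => isLocalHom_point (pt θ)
  refine cond_of_maps hW hC hlE hcE (fun θ => (pt θ).R) f (fun x hx => ?_) fun θ hc' => ?_
  · exact Subtype.ext (Glue.eq_zero_of_forall_point fun θ => by rw [← hf, hx, map_zero])
  · exact cond_pointMap G hW hpt htr θ (hgood θ)
      (fun σ => AddMonoidHom.map_trace E.val (rE σ)) hlE hcE hdet (f θ) (hf θ) hc'

end Fermat.Agent.RT.Lifting
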