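import Fermat.Agent.RT.Lifting.Defs
import Fermat.Agent.RT.Lifting.GalAlg.Cond
import Fermat.Agent.RT.Lifting.Minimal.TraceAlg
import Fermat.Agent.Arith.Chebotarev.Main

/-!
# Lifts with the condition over their own algebra
-/

set_option autoImplicit false
set_option linter.style.haveILetI false
set_option linter.unusedSectionVars false

noncomputable section

namespace Fermat.Agent.RT.Lifting

open IsLocalRing Module
open Fermat.Agent.Deform Fermat.Agent.Arith Fermat.Agent.RT.Assembly Fermat.Agent.CFT.Tangent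

variable {O : Type} [CommRing O] [IsDomain O] [IsDiscreteValuationRing O]
  [IsAdicComplete (maximalIdeal O) O]

/-- A lift of type `(C, T, U)` with the condition over its own coefficient algebra. -/
structure IsCondLift (p : ℕ) (W : Rigid O) (C : CondAt O) (T U : Finset ℕ) {A : Type} [CommRing A]
    [IsLocalRing A] [Algebra O A] (hA : IsResAlg O A) (r : Gal →* M2 A) : Prop where
  cont : IsCont r
  lifts : Lifts W hA r
  normal : IsNormal W r
  det : (toRep r cont).DetIsCyclotomic p
  cond : C (toRep r cont)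
  unramified : ∀ ℓ : ℕ, ℓ.Prime → ℓ ≠ p → ℓ ∉ T → ∀ A' : ValuationSubring QBar,
    A'.LiesOverPrime ℓ → ∀ τ ∈ A'.inertiaSubgroupIn ℚ, r τ = 1
  unipotent : ∀ q ∈ U, q ≠ p → ∀ A' : ValuationSubring QBar, A'.LiesOverPrime q →
    ∀ τ ∈ A'.inertiaSubgroupIn ℚ, (r τ).trace = 2

theorem isHausdorff_of_resAlg {A : Type} [CommRing A] [IsLocalRing A] [Algebra O A]
    [Module.Finite O A] (hA : IsResAlg O A) : IsHausdorff (maximalIdeal A) A := by
  haveI := hA.isLocalHom
  haveI : IsAdicComplete (maximalIdeal A) A := isAdicComplete_of_module_finite (𝒪 := O)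
  infer_instance

/-- A cyclotomic determinant is the image of the cyclotomic value. -/
theorem det_eq_cycValue [CharZero O] {p : ℕ} [Fact p.Prime] {A : Type} [CommRing A]
    [IsLocalRing A] [Algebra O A] [IsHausdorff (maximalIdeal A) A] {r : Gal →* M2 A}
    (hc : IsCont r) (hdet : (toRep r hc).DetIsCyclotomic p) (σ : Gal) (c : O)
    (hcyc : ∀ n a : ℕ, (∀ μ : QBar, μ ^ p ^ n = 1 → σ μ = μ ^ a) →
      c - a ∈ Ideal.span {((p ^ n : ℕ) : O)}) : (r σ).det = algebraMap O A c := by
  refine sub_eq_zero.mp (IsHausdorff.haus' (I := maximalIdeal A) _ fun n => ?_)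
  rw [SModEq.zero, smul_eq_mul, Ideal.mul_top]
  have : NeZero (p ^ n) := ⟨pow_ne_zero n (Fact.out : p.Prime).ne_zero⟩
  obtain ⟨a, ha⟩ := exists_pow_eq_on_roots (p ^ n) σ
  have h1 := map_mem_span_natCast (algebraMap O A) (hcyc n a ha)
  rw [map_sub, map_natCast] at h1
  have h2 := hdet.2 n σ a ha
  rw [det_toRep] at h2
  have h3 := sub_mem h2 h1
  rw [sub_sub_sub_cancel_right] at h3
  refine (Ideal.span_singleton_le_iff_mem _).mpr ?_ h3
  push_cast
  exact Ideal.pow_mem_pow hdet.1 n

/-- Two continuous representations with equal traces of Frobenius outside a finite set have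
equal traces. -/
theorem trace_eq_of_frobenius {A : Type} [CommRing A] [IsLocalRing A]
    [IsHausdorff (maximalIdeal A) A] {r r' : Gal →* M2 A} (hc : IsCont r) (hc' : IsCont r')
    (S : Finset ℕ)
    (h : ∀ ℓ : ℕ, ℓ.Prime → ℓ ∉ S → ∀ A' : ValuationSubring QBar, A'.LiesOverPrime ℓ →
      ∀ σ : Gal, A'.IsFrobeniusAt σ ℓ → (r σ).trace = (r' σ).trace) (σ : Gal) :
    (r σ).trace = (r' σ).trace := by
  refine sub_eq_zero.mp (IsHausdorff.haus' (I := maximalIdeal A) _ fun n => ?_)
  rw [SModEq.zero, smul_eq_mul, Ideal.mul_top]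
  obtain ⟨L, hL, hL'⟩ := hc n
  obtain ⟨M, hM, hM'⟩ := hc' n
  haveI := hL
  haveI := hM
  let q := Ideal.Quotient.mk (maximalIdeal A ^ n)
  let ρ : Gal →* M2 (A ⧸ maximalIdeal A ^ n) × M2 (A ⧸ maximalIdeal A ^ n) :=
    (mapM q r).prod (mapM q r')
  haveI : FiniteDimensional ℚ (L ⊔ M : IntermediateField ℚ QBar) :=
    IntermediateField.finiteDimensional_sup L M
  obtain ⟨ℓ, hℓ, hℓS, A', hA', g, hg, hρ⟩ :=
    Chebotarev.exists_frobenius_eq ρ (L ⊔ M) (fun τ hτ => by
      refine Prod.ext (Matrix.ext fun a b => ?_) (Matrix.ext fun a b => ?_)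
      · have h1 := hL' τ (fun x hx => hτ x (SetLike.le_def.mp le_sup_left hx)) a b
        show q (r τ a b) = (1 : M2 (A ⧸ maximalIdeal A ^ n)) a b
        rw [← Ideal.Quotient.eq] at h1
        rw [h1, Matrix.one_apply, Matrix.one_apply]
        split_ifs <;> simp
      · have h1 := hM' τ (fun x hx => hτ x (SetLike.le_def.mp le_sup_right hx)) a b
        show q (r' τ a b) = (1 : M2 (A ⧸ maximalIdeal A ^ n)) a b
        rw [← Ideal.Quotient.eq] at h1
        rw [h1, Matrix.one_apply, Matrix.one_apply]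
        split_ifs <;> simp) σ S
  rw [← Ideal.Quotient.eq]
  have h1 : q (r g).trace = q (r σ).trace := by
    rw [AddMonoidHom.map_trace q, AddMonoidHom.map_trace q]
    exact congrArg Matrix.trace (Prod.ext_iff.mp hρ).1
  have h2 : q (r' g).trace = q (r' σ).trace := by
    rw [AddMonoidHom.map_trace q, AddMonoidHom.map_trace q]
    exact congrArg Matrix.trace (Prod.ext_iff.mp hρ).2
  exact h1.symm.trans ((congrArg q (h ℓ hℓ hℓS A' hA' g hg)).trans h2)

variable {p : ℕ} [Fact p.Prime] {W : Rigid O} {ρbar : ResidualGaloisRep (ResidueField O)}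
  {bb : Basis (Fin 2) (ResidueField O) ρbar.V} {C : CondAt O} {T U : Finset ℕ}

/-- A lift of type `(C, T, U)` comes from one with the condition over its own algebra. -/
theorem exists_condLift [CharZero O] (hp : (p : O) ∈ maximalIdeal O) {A : Type} [CommRing A]
    [IsLocalRing A] [Algebra O A] [Module.Finite O A] {hA : IsResAlg O A} {r : Gal →* M2 A}
    (hr : IsTypeLift p W C T U hA r) :
    ∃ (B : Type) (_ : CommRing B) (_ : IsLocalRing B) (_ : Algebra O B) (_ : Module.Finite O B)
      (hB : IsResAlg O B) (φ : B →ₐ[O] A) (rB : Gal →* M2 B),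
      Function.Injective φ ∧ mapM (φ : B →+* A) rB = r ∧ IsCondLift p W C T U hB rB := by
  obtain ⟨B, _, _, _, _, φ, rB, hcB, hinj, hmap, hC⟩ := hr.cond
  haveI := hA.isLocalHom
  have hφl : IsLocalHom (φ : B →+* A) := isLocalHom_algHom φ
  have hB : IsResAlg O B := by
    refine ⟨⟨fun o ho => (isUnit_map_iff (algebraMap O A) o).mp ?_⟩, fun z => ?_⟩
    · rw [← φ.commutes]
      exact ho.map φ
    · obtain ⟨x, rfl⟩ := residue_surjective z
      obtain ⟨o, ho⟩ := exists_sub_mem hA (φ x)
      refine ⟨o, ?_⟩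
      show residue B (algebraMap O B o) = residue B x
      rw [eq_comm, ← sub_eq_zero, ← map_sub, residue_eq_zero_iff]
      intro hu
      exact ho (by simpa using hu.map φ)
  haveI := hB.isLocalHom
  haveI := isHausdorff_of_resAlg hA
  have hrτ : ∀ τ, r τ = (φ : B →+* A).mapMatrix (rB τ) := fun τ => by rw [← hmap]; rfl
  have hpull : ∀ {X Y : M2 B},
      (φ : B →+* A).mapMatrix X = (φ : B →+* A).mapMatrix Y → X = Y := fun h =>
    Matrix.map_injective hinj h
  refine ⟨B, inferInstance, inferInstance, inferInstance, inferInstance, hB, φ, rB, hinj, hmap,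
    ⟨hcB, ?_, ?_, ?_, hC, fun ℓ hℓ hℓp hℓT A' hA' τ hτ => hpull ?_,
      fun q hq hqp A' hA' τ hτ => hinj ?_⟩⟩
  · exact Lifts.of_map (hB := hA) φ hφl (hmap ▸ hr.lifts)
  · exact IsNormal.of_injective φ hinj (hmap ▸ hr.normal)
  · refine ⟨by rw [← map_natCast (algebraMap O B)]; exact map_nonunit (algebraMap O B) _ hp,
      fun n σ a ha => ?_⟩
    obtain ⟨c, hc⟩ := exists_cycValue hp σ
    have hdetB : (rB σ).det = algebraMap O B c := hinj (by
      rw [φ.commutes, ← det_eq_cycValue hr.cont hr.det σ c hc, hrτ, ← RingHom.map_det,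
        RingHom.coe_coe])
    rw [det_toRep, hdetB, ← map_natCast (algebraMap O B) a, ← map_sub]
    exact map_mem_span_natCast _ (hc n a ha)
  · rw [← hrτ, map_one, hr.unramified ℓ hℓ hℓp hℓT A' hA' τ hτ]
  · rw [map_ofNat, AddMonoidHom.map_trace φ]
    exact (congrArg Matrix.trace (hrτ τ)).symm.trans (hr.unipotent q hq hqp A' hA' τ hτ)

/-- **The pair of two lifts with the condition has it.** -/
theorem IsCondLift.pair [CharZero O] (hp : (p : O) ∈ maximalIdeal O) (hW : W.rb = matRes ρbar bb)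
    (hC : IsPairCond ρbar C) {A : Type} [CommRing A] [IsLocalRing A] [Algebra O A]
    [Module.Finite O A] {hA : IsResAlg O A} {rA : Gal →* M2 A} (ha : IsCondLift p W C T U hA rA)
    {B : Type} [CommRing B] [IsLocalRing B] [Algebra O B] [Module.Finite O B] {hB : IsResAlg O B}
    {rB : Gal →* M2 B} (hb : IsCondLift p W C T U hB rB)
    [IsLocalRing (pairAlg O rA rB)] :
    IsCondLift p W C T U (isResAlg_pairAlg (rB := rB) hA) (pairRep O rA rB) := by
  haveI := finite_pairAlg (O := O) (rA := rA) (rB := rB)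
  have hP := isResAlg_pairAlg (rA := rA) (rB := rB) hA
  haveI := hP.isLocalHom
  haveI := isHausdorff_of_resAlg hA
  haveI := isHausdorff_of_resAlg hB
  have hl := lifts_pairRep (rB := rB) ha.lifts
  have hc := isCont_pairRep hP ha.cont hb.cont
  have hfl := isLocalHom_pairFst (rA := rA) (rB := rB) hA
  have hsl := isLocalHom_pairSnd (rA := rA) (rB := rB) hB
  have hext : ∀ x y : pairAlg O rA rB, pairFst O rA rB x = pairFst O rA rB y →
      pairSnd O rA rB x = pairSnd O rA rB y → x = y := fun x y h1 h2 =>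
    Subtype.ext (Prod.ext h1 h2)
  refine ⟨hc, hl, isNormal_pairRep ha.normal hb.normal, ?_, ?_,
    fun ℓ hℓ hℓp hℓT A' hA' τ hτ => ?_, fun q hq hqp A' hA' τ hτ => ?_⟩
  · refine ⟨by rw [← map_natCast (algebraMap O (pairAlg O rA rB))]
               exact map_nonunit (algebraMap O (pairAlg O rA rB)) _ hp, fun n σ a ha' => ?_⟩
    obtain ⟨c, hcyc⟩ := exists_cycValue hp σ
    have hd : (pairRep O rA rB σ).det = algebraMap O (pairAlg O rA rB) c := by
      refine hext _ _ ?_ ?_
      · rw [AlgHom.commutes, ← det_eq_cycValue ha.cont ha.det σ c hcyc, ← RingHom.coe_coe,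
          RingHom.map_det]
        rfl
      · rw [AlgHom.commutes, ← det_eq_cycValue hb.cont hb.det σ c hcyc, ← RingHom.coe_coe,
          RingHom.map_det]
        rfl
    rw [det_toRep, hd, ← map_natCast (algebraMap O (pairAlg O rA rB)) a, ← map_sub]
    exact map_mem_span_natCast _ (hcyc n a ha')
  · refine hC.pair (pairFst O rA rB) (pairSnd O rA rB) hfl hsl _ (fun _ => pair_eq_zero)
      (residual_isEquiv_of_lifts hW hP _ (Pi.basisFun _ (Fin 2)) ((matOf_toRep _ hc).symm ▸ hl))
      ?_ ?_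
    · exact hC.of_isEquiv (isEquiv_symm (isEquiv_trans (isEquiv_baseChangeAlong_toRep _ hfl _ hc)
        (isEquiv_toRep_congr mapM_pairFst _ ha.cont))) ha.cond
    · exact hC.of_isEquiv (isEquiv_symm (isEquiv_trans (isEquiv_baseChangeAlong_toRep _ hsl _ hc)
        (isEquiv_toRep_congr mapM_pairSnd _ hb.cont))) hb.cond
  · refine Matrix.ext fun i j => hext _ _ ?_ ?_
    · refine (congrFun (congrFun (ha.unramified ℓ hℓ hℓp hℓT A' hA' τ hτ) i) j).trans ?_
      rcases eq_or_ne i j with rfl | hij <;> simp [*]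
    · refine (congrFun (congrFun (hb.unramified ℓ hℓ hℓp hℓT A' hA' τ hτ) i) j).trans ?_
      rcases eq_or_ne i j with rfl | hij <;> simp [*]
  · refine hext _ _ ?_ ?_
    · rw [map_ofNat, AddMonoidHom.map_trace (pairFst O rA rB)]
      exact ha.unipotent q hq hqp A' hA' τ hτ
    · rw [map_ofNat, AddMonoidHom.map_trace (pairSnd O rA rB)]
      exact hb.unipotent q hq hqp A' hA' τ hτ

end Fermat.Agent.RT.Lifting
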