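import Fermat.Agent.Deform.Basic
import Mathlib.RingTheory.Henselian
import Mathlib.RingTheory.AdicCompletion.Algebra

/-!
# The parameter of tame inertia at a Taylor–Wiles prime

If `Φ T = T ^ q Φ` with `T` residually `1`, `det T = 1`, `q ≡ 1` and residually distinct
eigenvalues of `Φ`, then `T` is diagonal in an eigenbasis of `Φ`; the first eigenvalue is
`tr (T E)` for an idempotent `E` of trace `1`.
-/

set_option autoImplicit false
set_option linter.style.haveILetI false

noncomputable section

namespace Fermat.Agent.RT.Lifting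

open IsLocalRing Fermat.Agent.Deform

theorem mul_mul_eq_smul_of_det_eq_zero {R : Type} [CommRing R] {E T : M2 R} (hE : E.det = 0) :
    E * T * E = (T * E).trace • E := by
  rw [Matrix.det_fin_two] at hE
  ext i j
  fin_cases i <;> fin_cases j <;>
    simp [Matrix.mul_apply, Fin.sum_univ_two, Matrix.trace_fin_two]
  · linear_combination -T 1 1 * hE
  · linear_combination T 0 1 * hE
  · linear_combination T 1 0 * hE
  · linear_combination -T 0 0 * hE

theorem det_eq_zero_of_idempotent {R : Type} [CommRing R] {E : M2 R} (hE : E * E = E)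
    (htr : E.trace = 1) : E.det = 0 := by
  have h := congrFun (congrFun hE 0) 0
  simp [Matrix.mul_apply, Fin.sum_univ_two] at h
  rw [Matrix.trace_fin_two] at htr
  rw [Matrix.det_fin_two]
  linear_combination E 0 0 * htr - h

theorem quadratic_fin_two {R : Type} [CommRing R] (X : M2 R) :
    X * X = X.trace • X - X.det • (1 : M2 R) := by
  ext i j
  fin_cases i <;> fin_cases j <;>
    simp [Matrix.mul_apply, Fin.sum_univ_two, Matrix.trace_fin_two, Matrix.det_fin_two] <;> ring

/-- Powers of a matrix of determinant `1` and trace residually `2`, as a combination of it and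
`1`. -/
theorem exists_pow_eq_smul_add {R : Type} [CommRing R] {k : Type} [CommRing k] (f : R →+* k)
    {T : M2 R} (hdet : T.det = 1) (htr : f T.trace = 2) (n : ℕ) :
    ∃ a b : R, T ^ n = a • T + b • (1 : M2 R) ∧ f a = n ∧ f b = 1 - n := by
  induction n with
  | zero => exact ⟨0, 1, by simp, by simp, by simp⟩
  | succ n ih =>
    obtain ⟨a, b, hab, ha, hb⟩ := ih
    refine ⟨a * T.trace + b, -a, ?_, ?_, ?_⟩
    · rw [pow_succ, hab, add_mul, smul_mul_assoc, smul_mul_assoc, one_mul, quadratic_fin_two T,
        hdet, one_smul, smul_sub, smul_smul, add_smul, neg_smul]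
      abel
    · rw [map_add, map_mul, htr, ha, hb, Nat.cast_succ]; ring
    · rw [map_neg, ha, Nat.cast_succ]; ring

variable {O : Type} [CommRing O] [IsLocalRing O]
variable {R : Type} [CommRing R] [IsLocalRing R] [Algebra O R]
  [IsAdicComplete (maximalIdeal R) R]

/-- The eigenvalues of a residually split regular matrix. -/
theorem exists_roots_of_augment (h : IsResAlg O R) {t d : R} {α₀ β₀ : ResidueField O}
    (hne : α₀ ≠ β₀) (ht : augment h t = α₀ + β₀) (hd : augment h d = α₀ * β₀) :
    ∃ α β : R, α + β = t ∧ α * β = d ∧ augment h α = α₀ ∧ augment h β = β₀ := by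
  haveI : HenselianRing R (maximalIdeal R) := IsAdicComplete.henselianRing R _
  obtain ⟨o, ho⟩ := residue_surjective (R := O) α₀
  have ha : augment h (algebraMap O R o) = α₀ := by
    rw [AlgHom.commutes, ResidueField.algebraMap_eq, ho]
  obtain ⟨α, hα, hα1⟩ := HenselianRing.is_henselian (I := maximalIdeal R)
    (Polynomial.X ^ 2 - Polynomial.C t * Polynomial.X + Polynomial.C d) (by monicity!)
    (algebraMap O R o)
    ((augment_eq_zero_iff h _).mp (by
      simp only [Polynomial.eval_add, Polynomial.eval_sub, Polynomial.eval_pow, Polynomial.eval_X,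
        Polynomial.eval_C, Polynomial.eval_mul, map_add, map_sub, map_pow, map_mul, ha, ht, hd]
      ring))
    (IsUnit.map _ (isUnit_of_augment_ne_zero h (by
      simp [Polynomial.derivative_pow, map_ofNat, ha, ht]
      intro h0
      exact hne (by linear_combination h0))))
  simp only [Polynomial.IsRoot, Polynomial.eval_add, Polynomial.eval_sub, Polynomial.eval_pow,
    Polynomial.eval_X, Polynomial.eval_C, Polynomial.eval_mul] at hα
  have hα0 : augment h α = α₀ := by
    have := (augment_eq_zero_iff h _).mpr hα1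
    rwa [map_sub, ha, sub_eq_zero] at this
  exact ⟨α, t - α, by ring, by linear_combination -hα, hα0,
    by rw [map_sub, ht, hα0, add_sub_cancel_left]⟩

set_option maxHeartbeats 800000 in
/-- **Tame inertia at a Taylor–Wiles prime.** -/
theorem exists_tame_param (h : IsResAlg O R) {Φ T : M2 R} {q : ℕ} {α₀ β₀ : ResidueField O}
    (hne : α₀ ≠ β₀) (htΦ : augment h Φ.trace = α₀ + β₀) (hdΦ : augment h Φ.det = α₀ * β₀)
    (hu : IsUnit Φ.det) (hT : ∀ i j, augment h (T i j) = (1 : M2 (ResidueField O)) i j)
    (hdT : T.det = 1) (hq : (q : ResidueField O) = 1) (hconj : Φ * T = T ^ q * Φ) :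
    ∃ (E : M2 R) (s s' : R), E.trace = 1 ∧ s = (T * E).trace ∧ s + s' = T.trace ∧ s * s' = 1 ∧
      s ^ q = s ∧ augment h s = 1 := by
  obtain ⟨α, β, hab, hmul, hα, hβ⟩ := exists_roots_of_augment h hne htΦ hdΦ
  have hαβ : IsUnit (α - β) :=
    isUnit_of_augment_ne_zero h (by rwa [map_sub, hα, hβ, sub_ne_zero])
  obtain ⟨w, hw⟩ := hαβ.exists_left_inv
  obtain ⟨E, hE⟩ : ∃ E : M2 R, E = w • (Φ - β • (1 : M2 R)) := ⟨_, rfl⟩
  obtain ⟨F, hF⟩ : ∃ F : M2 R, F = 1 - E := ⟨_, rfl⟩
  have hΦ2 := quadratic_fin_two Φ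
  rw [← hab, ← hmul] at hΦ2
  have hΦE : Φ * E = α • E := by
    rw [hE, mul_smul_comm, mul_sub, hΦ2, mul_smul_comm, mul_one]
    ext i j
    simp
    ring
  have hEΦ : E * Φ = α • E := by
    rw [hE, smul_mul_assoc, sub_mul, hΦ2, smul_mul_assoc, one_mul]
    ext i j
    simp
    ring
  have hEE : E * E = E := by
    conv_lhs => arg 1; rw [hE]
    rw [smul_mul_assoc, sub_mul, hΦE, smul_mul_assoc, one_mul, ← sub_smul, smul_smul, hw, one_smul]
  have hΦeq : Φ = α • E + β • F := by
    rw [hF, smul_sub, hE]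
    ext i j
    simp
    linear_combination -(Φ i j - β * (1 : M2 R) i j) * hw
  have hEF : E * F = 0 := by rw [hF, mul_sub, mul_one, hEE, sub_self]
  have hFE : F * E = 0 := by rw [hF, sub_mul, one_mul, hEE, sub_self]
  have hFF : F * F = F := by
    conv_lhs => arg 1; rw [hF]
    rw [sub_mul, one_mul, hEF, sub_zero]
  have hΦF : Φ * F = β • F := by
    rw [hΦeq, add_mul, smul_mul_assoc, smul_mul_assoc, hEF, hFF, smul_zero, zero_add]
  have hFΦ : F * Φ = β • F := by
    rw [hΦeq, mul_add, mul_smul_comm, mul_smul_comm, hFE, hFF, smul_zero, zero_add]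
  have htrE : E.trace = 1 := by
    rw [hE, Matrix.trace_smul, Matrix.trace_sub, Matrix.trace_smul, Matrix.trace_one,
      Fintype.card_fin, ← hab, smul_eq_mul, smul_eq_mul]
    push_cast
    linear_combination hw
  have htrF : F.trace = 1 := by
    rw [hF, Matrix.trace_sub, htrE, Matrix.trace_one, Fintype.card_fin]
    norm_num
  have haT : augment h T.trace = 2 := by
    rw [Matrix.trace_fin_two, map_add, hT, hT, Matrix.one_apply_eq, Matrix.one_apply_eq,
      one_add_one_eq_two]
  obtain ⟨a, b, hpow, ha, -⟩ := exists_pow_eq_smul_add (augment h : R →+* ResidueField O) hdT haT q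
  rw [RingHom.coe_coe, hq] at ha
  have hconj' := hconj
  rw [hpow] at hconj'
  have hoff : ∀ (P Q : M2 R) (x y : R), P * Q = 0 → P * Φ = x • P → Φ * Q = y • Q →
      augment h x ≠ augment h y → P * T * Q = 0 := by
    intro P Q x y hPQ hPΦ hΦQ hxy
    have h1 := congrArg (fun M => P * M * Q) hconj'
    rw [← mul_assoc P Φ T, hPΦ, mul_assoc P _ Q, mul_assoc _ Φ Q, hΦQ, smul_mul_assoc,
      smul_mul_assoc, mul_smul_comm, mul_smul_comm, add_mul, smul_mul_assoc, smul_mul_assoc,
      one_mul, mul_add, mul_smul_comm, mul_smul_comm, hPQ, smul_zero, add_zero, smul_smul,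
      ← mul_assoc P T Q] at h1
    have hu' : IsUnit (x - y * a) := isUnit_of_augment_ne_zero h (by
      rwa [map_sub, map_mul, ha, mul_one, sub_ne_zero])
    have h2 : (x - y * a) • (P * T * Q) = 0 := by rw [sub_smul, h1, sub_self]
    exact hu'.smul_eq_zero.mp h2
  have hETF : E * T * F = 0 := hoff E F α β hEF hEΦ hΦF (by rwa [hα, hβ])
  have hFTE : F * T * E = 0 := hoff F E β α hFE hFΦ hΦE (by rw [hα, hβ]; exact hne.symm)
  obtain ⟨s, hs⟩ : ∃ x, x = (T * E).trace := ⟨_, rfl⟩
  obtain ⟨s', hs'⟩ : ∃ x, x = (T * F).trace := ⟨_, rfl⟩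
  have hTeq : T = s • E + s' • F := by
    rw [hs, hs', ← mul_mul_eq_smul_of_det_eq_zero (det_eq_zero_of_idempotent hEE htrE),
      ← mul_mul_eq_smul_of_det_eq_zero (det_eq_zero_of_idempotent hFF htrF)]
    conv_lhs =>
      rw [show T = (E + F) * T * (E + F) by rw [hF, add_sub_cancel, one_mul, mul_one]]
    rw [add_mul, add_mul, mul_add, mul_add, hETF, hFTE, add_zero, zero_add]
  have hsum : s + s' = T.trace := by
    rw [hs, hs', ← Matrix.trace_add, ← mul_add, hF, add_sub_cancel, mul_one]
  have hprod : ∀ x y x' y' : R, (x • E + y • F) * (x' • E + y' • F) =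
      (x * x') • E + (y * y') • F := fun x y x' y' => by
    simp only [add_mul, mul_add, smul_mul_smul_comm, hEE, hEF, hFE, hFF, smul_zero, add_zero,
      zero_add]
  have hss : s * s' = 1 := by
    have h1 : T * (s' • E + s • F) = (s * s') • (1 : M2 R) := by
      rw [hTeq, hprod, mul_comm s' s, ← smul_add, hF, add_sub_cancel]
    have h2 : T * (s' • E + s • F) = 1 := by
      have h3 : s' • E + s • F = T.trace • (1 : M2 R) - T := by
        rw [eq_sub_iff_add_eq]
        nth_rw 1 [hTeq]
        rw [← hsum, hF, smul_sub, smul_sub, add_smul]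
        abel
      rw [h3, mul_sub, mul_smul_comm, mul_one, quadratic_fin_two T, hdT, one_smul, sub_sub_cancel]
    have h4 := congrFun (congrFun (h1.symm.trans h2) 0) 0
    simpa using h4
  have hpowT : ∀ n : ℕ, T ^ n = s ^ n • E + s' ^ n • F := fun n => by
    induction n with
    | zero => rw [pow_zero, pow_zero, pow_zero, one_smul, one_smul, hF, add_sub_cancel]
    | succ n ih => rw [pow_succ, ih, hTeq, hprod, ← pow_succ, ← pow_succ]
  have hcomm : Φ * T = T * Φ := by
    rw [hΦeq, hTeq, hprod, hprod, mul_comm α s, mul_comm β s']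
  have hTq : T ^ q = T :=
    ((Matrix.isUnit_iff_isUnit_det Φ).mpr hu).mul_right_cancel (hconj.symm.trans hcomm)
  have hsq : s ^ q = s := by
    have h1 := congrArg (fun M : M2 R => (M * E).trace) (hpowT q)
    simp only [hTq, add_mul, smul_mul_assoc, hEE, hFE, smul_zero, add_zero, Matrix.trace_smul,
      htrE, smul_eq_mul, mul_one, ← hs] at h1
    exact h1.symm
  refine ⟨E, s, s', htrE, hs, hsum, hss, hsq, ?_⟩
  have hTm : (augment h : R →+* ResidueField O).mapMatrix T = 1 := Matrix.ext fun i j => hT i j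
  rw [hs, ← RingHom.coe_coe, AddMonoidHom.map_trace (augment h : R →+* ResidueField O)]
  show ((augment h : R →+* ResidueField O).mapMatrix (T * E)).trace = 1
  rw [map_mul, hTm, one_mul, RingHom.mapMatrix_apply,
    ← AddMonoidHom.map_trace (augment h : R →+* ResidueField O), htrE, map_one]

end Fermat.Agent.RT.Lifting
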