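import Fermat.Agent.RT.Lifting.Interface
import Fermat.Agent.RT.Lifting.Minimal.LiftData
import Fermat.Agent.RT.Lifting.Minimal.Tame
import Fermat.Agent.RT.Assembly.Selmer
import Fermat.Agent.RT.Assembly.Places
import Fermat.Agent.Patching.PowerSeriesRegular

/-!
# Coordinates and tame parameters on the algebra of a lift
-/

set_option autoImplicit false
set_option linter.style.haveILetI false
set_option linter.unusedSectionVars false

noncomputable section

namespace Fermat.Agent.RT.Lifting

open IsLocalRing Module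
open Fermat.Agent.Deform Fermat.Agent.Arith Fermat.Agent.RT.Assembly Fermat.Agent.CFT.Tangent

variable {O : Type} [CommRing O] [IsDomain O] [IsDiscreteValuationRing O]
  [IsAdicComplete (maximalIdeal O) O] [Finite (ResidueField O)]
  {p : ℕ} [Fact p.Prime] [CharP (ResidueField O) p] {W : Rigid O}
  {ρbar : ResidualGaloisRep (ResidueField O)} {bb : Basis (Fin 2) (ResidueField O) ρbar.V}
  {C : CondAt O}
  {R : Type} [CommRing R] [IsLocalRing R] [Algebra O R] [Module.Finite O R] {hR : IsResAlg O R}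
  {T U : Finset ℕ} {r : Gal →* M2 R}

/-- A presentation by as many series as the Selmer bound, centred at a point. -/
theorem exists_presentation [CharZero O] (hp : (p : O) ∈ maximalIdeal O) (hp2 : p ≠ 2)
    (hC : IsPairCond ρbar C) (hr : IsCondLift p W C T U hR r) (hgen : Algebra.adjoin O (entries r) = ⊤)
    (hU : p ∉ U) (y : R →ₐ[O] O) {g : ℕ}
    (hbound : ∀ Z : Submodule (ResidueField O) (Gal → M2 (ResidueField O)),
      Module.Finite (ResidueField O) Z →
      (∀ b ∈ Z, IsSelmerClass p C W.rb T U ∅ b) →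
      (∀ b ∈ Z, ∀ X, b = cobdLin W.rb X → b = 0) → finrank (ResidueField O) Z ≤ g) :
    ∃ γ : MvPowerSeries (Fin g) O →ₐ[O] R, Function.Surjective γ ∧
      ∀ f, y (γ f) = MvPowerSeries.constantCoeff f := by
  haveI := hR.isLocalHom
  haveI : IsAdicComplete (maximalIdeal R) R := isAdicComplete_of_module_finite (𝒪 := O)
  haveI := IsNoetherianRing.of_finite O R
  haveI : ∀ i : Fin 0, Fact ((fun _ : Fin 0 => 2) i).Prime := fun i => i.elim0
  have h2 : (2 : ResidueField O) ≠ 0 :=
    Ring.two_ne_zero (by rw [ringChar.eq (ResidueField O) p]; exact hp2)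
  obtain ⟨c, hc⟩ := (isUnit_of_augment_ne_zero hR (a := (2 : R)) (by rwa [map_ofNat])).exists_right_inv
  have hg := finrank_killedDer_le (W := W) (h := hR) (ru := r) hp2 C (T := T) (U := U) (V := ∅)
    hr.lifts hr.normal hr.cont hgen
    (fun σ => by
      obtain ⟨o, ho⟩ := exists_cycValue hp σ
      haveI := isHausdorff_of_resAlg hR
      exact ⟨o, (det_eq_cycValue hr.cont hr.det σ o ho).symm⟩)
    hr.det (fun δ hδ => isTangentClass_of_cond hC.toIsLocalCond hr.lifts hr.cont hr.cond hr.det hδ)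
    hr.unramified
    (fun q hq A hA τ hτ => ⟨2, by
      rw [map_ofNat, hr.unipotent q hq (fun h => hU (h ▸ hq)) A hA τ hτ]⟩)
    (ι := Fin 0) (fun _ => 2) (fun v hv => absurd hv (Finset.notMem_empty v)) (fun i => i.elim0)
    (fun i => i.elim0) (fun i => i.elim0) (fun i => i.elim0) (fun i => i.elim0) (fun i => i.elim0)
    (fun i => i.elim0) (fun i => i.elim0) (fun i => i.elim0) (fun i => i.elim0)
    (fun i => i.elim0) (fun i => i.elim0) (fun i => i.elim0) hc hbound
  obtain ⟨γ₀, hγ₀, -⟩ := exists_coord_surjective hR _ (fun x => x.1.elim0) hg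
  let s : Fin g → R := fun i =>
    γ₀ (MvPowerSeries.X (Sum.inr i)) - algebraMap O R (y (γ₀ (MvPowerSeries.X (Sum.inr i))))
  have hloc : IsLocalHom (γ₀ : MvPowerSeries (((Fin 0) × Fin 2 × Fin 3) ⊕ Fin g) O →+* R) :=
    IsLocalHom.of_surjective _ hγ₀
  have hyl : IsLocalHom (y : R →+* O) :=
    IsLocalHom.of_surjective _ fun o => ⟨algebraMap O R o, y.commutes o⟩
  have hX : ∀ x, γ₀ (MvPowerSeries.X x) ∈ maximalIdeal R := fun x =>
    map_nonunit (γ₀ : MvPowerSeries (((Fin 0) × Fin 2 × Fin 3) ⊕ Fin g) O →+* R) _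
      (by simp [MvPowerSeries.isUnit_iff_constantCoeff])
  have hs : ∀ i, s i ∈ maximalIdeal R := fun i => sub_mem (hX _)
    (map_nonunit (algebraMap O R) _ (map_nonunit (y : R →+* O) _ (hX (Sum.inr i))))
  obtain ⟨γ, hγ⟩ := exists_evalHom (O := O) s hs
  refine ⟨γ, surjective_evalHom hR.residue_surjective γ hγ hs fun x hx => ?_, fun f => ?_⟩
  · obtain ⟨f, rfl⟩ := hγ₀ x
    have hc0 : MvPowerSeries.constantCoeff f ∈ maximalIdeal O := by
      by_contra hu
      rw [IsLocalRing.notMem_maximalIdeal] at hu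
      exact hx ((MvPowerSeries.isUnit_iff_constantCoeff.mpr hu).map γ₀)
    have hf : f - MvPowerSeries.C (MvPowerSeries.constantCoeff f) ∈
        Ideal.span (Set.range MvPowerSeries.X) := by
      rw [Patching.mem_span_range_X_iff]
      simp
    rw [← sub_add_cancel f (MvPowerSeries.C (MvPowerSeries.constantCoeff f)), map_add]
    refine add_mem ?_ (Ideal.mem_sup_right ?_)
    · have h1 := Ideal.mem_map_of_mem
        (γ₀ : MvPowerSeries (((Fin 0) × Fin 2 × Fin 3) ⊕ Fin g) O →+* R) hf
      rw [Ideal.map_span, ← Set.range_comp] at h1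
      refine Ideal.span_le.mpr ?_ h1
      rintro _ ⟨x, rfl⟩
      rcases x with x | i
      · exact x.1.elim0
      · rw [Function.comp_apply, SetLike.mem_coe, RingHom.coe_coe,
          show γ₀ (MvPowerSeries.X (Sum.inr i)) =
            s i + algebraMap O R (y (γ₀ (MvPowerSeries.X (Sum.inr i)))) from
          (sub_add_cancel _ _).symm]
        exact add_mem (Ideal.mem_sup_left (Ideal.subset_span ⟨i, rfl⟩))
          (Ideal.mem_sup_right (Ideal.mem_map_of_mem _ (map_nonunit (y : R →+* O) _ (hX _))))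
    · rw [show (MvPowerSeries.C (MvPowerSeries.constantCoeff f) :
          MvPowerSeries (((Fin 0) × Fin 2 × Fin 3) ⊕ Fin g) O) =
          algebraMap O _ (MvPowerSeries.constantCoeff f) from rfl, AlgHom.commutes]
      exact Ideal.mem_map_of_mem _ hc0
  · have hf : f - algebraMap O _ (MvPowerSeries.constantCoeff f) ∈
        Ideal.span (Set.range (MvPowerSeries.X : Fin g → MvPowerSeries (Fin g) O)) := by
      rw [Patching.mem_span_range_X_iff]
      simp [MvPowerSeries.algebraMap_apply]
    have hle : Ideal.span (Set.range (MvPowerSeries.X : Fin g → MvPowerSeries (Fin g) O)) ≤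
        RingHom.ker (y.comp γ) := by
      rw [Ideal.span_le]
      rintro _ ⟨i, rfl⟩
      show y (γ (MvPowerSeries.X i)) = 0
      rw [hγ, map_sub, y.commutes, Algebra.algebraMap_self, RingHom.id_apply, sub_self]
    have h := hle hf
    rw [RingHom.mem_ker, map_sub, AlgHom.commutes, sub_eq_zero] at h
    exact h

/-- The parameter of inertia at a Taylor–Wiles prime, over the algebra of a lift. -/
theorem exists_tame_z [CharZero O] {S : Finset ℕ} {abar : ℕ → ResidueField O} {N₀ : ℕ}
    (hd : IsResidualDatum p W ρbar bb S abar N₀) (hr : IsCondLift p W C T U hR r) {m n : ℕ}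
    {qv : Fin m → ℕ} (hQ : IsTWSet p W.rb S n qv) (i : Fin m) {P : ValuationSubring QBar}
    (hP : P.LiesOverPrime (qv i)) {σ : Gal} (hσ : σ ∈ P.inertiaSubgroupIn ℚ) :
    ∃ z : R, z ∈ maximalIdeal R ∧ (1 + z) * ((r σ).trace - (1 + z)) = 1 ∧
      ∀ (B : Type) [CommRing B] (f : R →+* B), mapM f r σ = 1 → f z = 0 := by
  have hpp : p.Prime := Fact.out
  haveI := hR.isLocalHom
  haveI : IsAdicComplete (maximalIdeal R) R := isAdicComplete_of_module_finite (𝒪 := O)
  have hunr : ∀ τ ∈ P.inertiaSubgroupIn ℚ, W.rb τ = 1 := fun τ hτ => by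
    rw [hd.rb_eq]
    show LinearMap.toMatrixAlgEquiv bb (ρbar.ρ τ) = 1
    rw [hd.unramified (qv i) (hQ.prime i) (hQ.ne_p i)
      (fun h => hQ.notMem i (hd.mem_S_level _ (hQ.prime i) h)) P hP τ hτ, map_one]
  obtain ⟨φ, hφ⟩ := exists_isFrobeniusAt hP (hQ.prime i)
  have hqk : ((qv i : ℕ) : ResidueField O) = 1 := by
    obtain ⟨k, hk⟩ := (dvd_pow_self p (Nat.succ_ne_zero n)).trans (hQ.dvd i)
    rw [show qv i = 1 + p * k by have := (hQ.prime i).two_le; omega, Nat.cast_add, Nat.cast_mul,
      CharP.cast_eq_zero (ResidueField O) p, zero_mul, add_zero, Nat.cast_one]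
  have hdetφ : (r φ).det = (qv i : R) := by
    rw [← det_toRep hr.cont]
    exact det_eq_natCast hr.det fun k μ hμ => GaloisReps.frobenius_apply_root hP (hQ.prime i) hφ hμ
      fun h => hQ.ne_p i ((Nat.prime_dvd_prime_iff_eq (hQ.prime i) hpp).mp
        ((hQ.prime i).dvd_of_dvd_pow h))
  have hdetσ : (r σ).det = 1 := by
    rw [← det_toRep hr.cont, det_eq_natCast hr.det (q := 1) fun k μ hμ => ?_, Nat.cast_one]
    rw [pow_one]
    exact inertia_root hP (hQ.prime i) hσ hμ fun h => hQ.ne_p i
      ((Nat.prime_dvd_prime_iff_eq (hQ.prime i) hpp).mp ((hQ.prime i).dvd_of_dvd_pow h))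
  have hmap : (augment hR : R →+* ResidueField O).mapMatrix (r φ) = W.rb φ :=
    Matrix.ext fun a b => hr.lifts φ a b
  have htr : augment hR (r φ).trace = (W.rb φ).trace := by
    rw [← hmap]; exact AddMonoidHom.map_trace (augment hR) (r φ)
  have hdet : augment hR (r φ).det = (W.rb φ).det := by
    rw [← hmap]; exact RingHom.map_det (augment hR : R →+* ResidueField O) (r φ)
  obtain ⟨α, β, hab, hmul⟩ := hd.split φ
  have hαβ : α * β = 1 := by rw [← hmul, ← hdet, hdetφ, map_natCast, hqk]
  have hne : α ≠ β := fun h => hQ.regular i P hP φ hφ (by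
    rw [hab, hqk]
    linear_combination (α - β) * h + 4 * hαβ)
  have hu : IsUnit (r φ).det := isUnit_of_augment_ne_zero hR (by
    rw [hdetφ, map_natCast, hqk]; exact one_ne_zero)
  have hres : ∀ τ ∈ P.inertiaSubgroupIn ℚ, ∀ a b,
      augment hR (r τ a b) = (1 : M2 (ResidueField O)) a b := fun τ hτ a b => by
    rw [hr.lifts, hunr τ hτ]
  have hconj : r φ * r σ = r σ ^ qv i * r φ := by
    refine frobenius_conj_eq_pow hpp (hQ.prime i) (hQ.ne_p i) hr.det.1 hr.cont hP
      (fun τ hτ a b => ?_) hφ hσ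
    rw [← augment_eq_zero_iff hR, Matrix.sub_apply, map_sub, hres τ hτ, Matrix.one_apply]
    rcases eq_or_ne a b with rfl | hab <;> simp [*]
  obtain ⟨E, s, s', hE, hs, hsum, hss, -, haug⟩ :=
    exists_tame_param hR hne (htr.trans hab) (hdet.trans hmul) hu (hres σ hσ) hdetσ hqk hconj
  refine ⟨s - 1, ?_, ?_, fun B _ f hf => ?_⟩
  · rw [← augment_eq_zero_iff hR, map_sub, haug, map_one, sub_self]
  · rw [add_sub_cancel, ← hsum, add_sub_cancel_left, hss]
  · have h1 : f.mapMatrix (r σ) = 1 := hf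
    rw [map_sub, map_one, hs, AddMonoidHom.map_trace f]
    show (f.mapMatrix (r σ * E)).trace - 1 = 0
    rw [map_mul, h1, one_mul, RingHom.mapMatrix_apply, ← AddMonoidHom.map_trace f, hE, map_one,
      sub_self]

end Fermat.Agent.RT.Lifting
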