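import Fermat.Agent.RT.Lifting.Minimal.Eigenparts
import Fermat.Agent.RT.Assembly.Quotient

/-!
# A module over the diamonds is free over the power series in the tame parameters
-/

set_option autoImplicit false
set_option linter.style.haveILetI false

noncomputable section

namespace Fermat.Agent.RT.Lifting.TameParams

open IsLocalRing MvPowerSeries Fermat.Agent.RT.Assembly

variable {O : Type} [CommRing O] [IsDomain O] [IsDiscreteValuationRing O]
  [IsAdicComplete (maximalIdeal O) O] [CharZero O]
  {A : Type} [CommRing A] [IsLocalRing A] [Algebra O A]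
  {M : Type} [AddCommGroup M] [Module O M] [Module A M] [IsScalarTower O A M]
  [Module.Finite O M] [Module.IsTorsionFree O M]
  {Δ : Type} [CommGroup Δ] {dA : Δ →* A} {d m p n : ℕ}
  (P : TameParams (O := O) M dA d m (p ^ n))

/-- The combination of the basis vectors with coefficients evaluated at the parameters. -/
def combine (Γ : MvPowerSeries (Fin m) O →ₐ[O] A) :
    (Fin d → MvPowerSeries (Fin m) O) →ₗ[O] M where
  toFun c := ∑ i, Γ (c i) • P.basis.basis i
  map_add' c c' := by simp [add_smul, Finset.sum_add_distrib]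
  map_smul' o c := by simp [Finset.smul_sum, smul_assoc]

omit [IsDomain O] [IsDiscreteValuationRing O] [IsAdicComplete (maximalIdeal O) O] [CharZero O]
  [Module.Finite O M] [Module.IsTorsionFree O M] in
theorem combine_apply (Γ : MvPowerSeries (Fin m) O →ₐ[O] A) (c : Fin d → MvPowerSeries (Fin m) O) :
    P.combine Γ c = ∑ i, Γ (c i) • P.basis.basis i := rfl

omit [IsAdicComplete (maximalIdeal O) O] in
/-- The combinations reach everything. -/
theorem combine_surjective (Γ : MvPowerSeries (Fin m) O →ₐ[O] A) (hΓ : ∀ i, Γ (X i) = P.z i) :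
    Function.Surjective (P.combine Γ) := by
  classical
  letI : Module (MvPowerSeries (Fin m) O) M := Module.compHom M (Γ : MvPowerSeries (Fin m) O →+* A)
  have hsmul : ∀ (f : MvPowerSeries (Fin m) O) (x : M), f • x = Γ f • x := fun _ _ => rfl
  haveI : IsScalarTower O (MvPowerSeries (Fin m) O) M := ⟨fun o f x => by
    rw [hsmul, hsmul, map_smul, smul_assoc]⟩
  haveI : Module.Finite (MvPowerSeries (Fin m) O) M :=
    Module.Finite.of_restrictScalars_finite O _ M
  haveI : Module.Finite A M := Module.Finite.of_restrictScalars_finite O A M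
  set W := Submodule.span (MvPowerSeries (Fin m) O) (Set.range P.basis.basis) with hW
  have htop : W = ⊤ := by
    refine top_le_iff.mp (Submodule.le_of_le_smul_of_le_jacobson_bot
      (I := Ideal.span (Set.range (X : Fin m → MvPowerSeries (Fin m) O))) Module.Finite.fg_top
      ((Ideal.span_le.mpr (Set.range_subset_iff.mpr fun i => X_mem_maximalIdeal i)).trans
        (maximalIdeal_le_jacobson _)) fun x _ => ?_)
    have hsub : ∀ v ∈ Ideal.span (Set.range P.z) • (⊤ : Submodule A M),
        v ∈ Ideal.span (Set.range (X : Fin m → MvPowerSeries (Fin m) O)) •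
          (⊤ : Submodule (MvPowerSeries (Fin m) O) M) := fun v hv => by
      refine Submodule.smul_induction_on hv (fun a ha w _ => ?_) fun u w hu hw => add_mem hu hw
      induction ha using Submodule.span_induction generalizing w with
      | mem a ha =>
        obtain ⟨i, rfl⟩ := ha
        rw [← hΓ, ← hsmul]
        exact Submodule.smul_mem_smul (Ideal.subset_span ⟨i, rfl⟩) Submodule.mem_top
      | zero => rw [zero_smul]; exact zero_mem _
      | add a b _ _ ha hb =>
        rw [add_smul]; exact add_mem (ha w Submodule.mem_top) (hb w Submodule.mem_top)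
      | smul c a _ ha => rw [smul_eq_mul, mul_comm, mul_smul]; exact ha _ Submodule.mem_top
    have hgen : ∀ δ : Δ, dA δ - 1 ∈ Ideal.span (Set.range P.y) := fun δ => by
      rw [← P.prod_proj δ]
      refine dA_sub_one_mem _ _ _ fun i _ => ?_
      obtain ⟨k, hk⟩ := P.proj_pow i δ
      rw [hk]
      exact dA_pow_sub_one_mem (Ideal.span (Set.range P.y)) _ (Ideal.subset_span ⟨i, rfl⟩) k
    suffices ∀ c : Fin d × Δ →₀ O, P.basis.coord.symm c ∈ W ⊔
        Ideal.span (Set.range (X : Fin m → MvPowerSeries (Fin m) O)) •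
          (⊤ : Submodule (MvPowerSeries (Fin m) O) M) by simpa using this (P.basis.coord x)
    intro c
    induction c using Finsupp.induction_linear with
    | zero => simp
    | add a b ha hb => rw [map_add]; exact add_mem ha hb
    | single bδ o =>
      rw [DiaBasis.coord_symm_single, actDia_apply]
      refine Submodule.smul_of_tower_mem _ o ?_
      rw [← sub_add_cancel (dA bδ.2) 1, add_smul, one_smul, add_comm]
      refine Submodule.add_mem_sup (Submodule.subset_span ⟨bδ.1, rfl⟩) (hsub _ ?_)
      rw [P.z_smul_top]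
      exact Submodule.smul_mem_smul (hgen bδ.2) Submodule.mem_top
  intro x
  obtain ⟨c, hc⟩ := (Submodule.mem_span_range_iff_exists_fun _).mp (htop ▸ Submodule.mem_top : x ∈ W)
  exact ⟨c, hc⟩

/-- **Freeness at a level**: the relations of the basis are the level ideal. -/
theorem combine_eq_zero_iff (hpr : p.Prime) (hp : (p : O) ∈ maximalIdeal O)
    (Γ : MvPowerSeries (Fin m) O →ₐ[O] A) (hΓ : ∀ i, Γ (X i) = P.z i)
    (χ : Δ →* MvPowerSeries (Fin m) O ⧸ levelIdeal O p n)
    (hχ : ∀ i, χ (P.g i) = 1 + Ideal.Quotient.mk (levelIdeal O p n) (X i))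
    (c : Fin d → MvPowerSeries (Fin m) O) :
    P.combine Γ c = 0 ↔ ∀ i, c i ∈ levelIdeal O p n := by
  classical
  let Q := MvPowerSeries (Fin m) O ⧸ levelIdeal (ι := Fin m) O p n
  haveI : Module.Finite O Q := finite_quotient_levelIdeal hpr hp n
  have hker : levelIdeal O p n ≤ RingHom.ker Γ := by
    rw [levelIdeal, Ideal.span_le]
    rintro _ ⟨i, rfl⟩
    show Γ ((1 + X i) ^ p ^ n - 1) = 0
    rw [map_sub, map_pow, map_add, map_one, hΓ, P.z_pow, sub_self]
  let Γ' : Q →ₐ[O] A := Ideal.Quotient.liftₐ _ Γ fun a ha => hker ha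
  have hΓ' : ∀ f, Γ' (Ideal.Quotient.mk _ f) = Γ f := fun f => rfl
  let G : (Fin d → Q) →ₗ[O] M :=
    { toFun := fun q => ∑ i, Γ' (q i) • P.basis.basis i
      map_add' := fun q q' => by simp [add_smul, Finset.sum_add_distrib]
      map_smul' := fun o q => by simp [Finset.smul_sum, smul_assoc] }
  have hGc : ∀ c, G (fun i => Ideal.Quotient.mk _ (c i)) = P.combine Γ c := fun c => rfl
  have hGsurj : Function.Surjective G := fun x => by
    obtain ⟨c, hc⟩ := P.combine_surjective Γ hΓ x
    exact ⟨_, (hGc c).trans hc⟩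
  have hspec : LinearMap.range (P.basis.spec χ) = ⊤ := by
    refine eq_top_of_X_stable hpr hp n _ (fun i x hx => ?_)
      fun j => ⟨P.basis.basis j, P.basis.spec_basis χ j⟩
    obtain ⟨v, rfl⟩ := hx
    refine ⟨actDia O M dA (P.g i) v - v, ?_⟩
    rw [map_sub, P.basis.spec_dia χ, hχ, add_smul, one_smul, add_sub_cancel_left]
  have hinj : Function.Injective (P.basis.spec χ ∘ₗ G) :=
    OrzechProperty.injective_of_surjective_endomorphism _
      ((LinearMap.range_eq_top.mp hspec).comp hGsurj)
  rw [LinearMap.coe_comp] at hinj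
  rw [← hGc, ← map_zero G, hinj.of_comp.eq_iff, funext_iff]
  exact forall_congr' fun i => Ideal.Quotient.eq_zero_iff_mem

end Fermat.Agent.RT.Lifting.TameParams
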