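import Fermat.Agent.RT.Assembly.LevelChar

/-!
# The character of a Taylor–Wiles level

It takes the chosen generator at `q i` to the inverse square of the standard one, so that the
`halfInvExp`-power of the image is the standard generator.
-/

set_option autoImplicit false

noncomputable section

namespace Fermat.Agent.RT.Lifting

open Fermat.Agent.RT.Assembly

/-- The group of a Taylor–Wiles level. -/
abbrev TWGroup (p m n : ℕ) : Type := LevelGroup Empty p m n

/-- The standard generators. -/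
def twGen (p : ℕ) {m : ℕ} (n : ℕ) (i : Fin m) : TWGroup p m n := levelGen p n (Sum.inr i)

/-- The projection to the `i`-th factor. -/
def twProj (p : ℕ) {m : ℕ} (n : ℕ) (i : Fin m) : TWGroup p m n →* TWGroup p m n where
  toFun δ := Multiplicative.ofAdd (0, Pi.single i (δ.toAdd.2 i))
  map_one' := by simp
  map_mul' a b := by simp [← ofAdd_add, Pi.single_add]

theorem twProj_gen (p : ℕ) {m : ℕ} (n : ℕ) (i j : Fin m) :
    twProj p n i (twGen p n j) = if j = i then twGen p n j else 1 := by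
  simp only [twProj, twGen, levelGen, MonoidHom.coe_mk, OneHom.coe_mk, toAdd_ofAdd]
  split_ifs with h
  · subst h; simp
  · simp [Pi.single_eq_of_ne (Ne.symm h)]

theorem twProj_eq_pow (p : ℕ) [NeZero p] {m : ℕ} (n : ℕ) (i : Fin m) (δ : TWGroup p m n) :
    ∃ k : ℕ, twProj p n i δ = twGen p n i ^ k := by
  refine ⟨(δ.toAdd.2 i).val, Multiplicative.toAdd.injective ?_⟩
  rw [toAdd_pow]
  simp only [twProj, twGen, levelGen, MonoidHom.coe_mk, OneHom.coe_mk, toAdd_ofAdd,
    Prod.smul_mk, smul_zero, ← Pi.single_smul', nsmul_one, ZMod.natCast_zmod_val]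

theorem prod_twProj (p : ℕ) {m : ℕ} (n : ℕ) (δ : TWGroup p m n) : ∏ i, twProj p n i δ = δ := by
  apply Multiplicative.toAdd.injective
  rw [toAdd_prod]
  simp only [twProj, MonoidHom.coe_mk, OneHom.coe_mk, toAdd_ofAdd]
  refine Prod.ext (funext fun e => e.elim) (funext fun j => ?_)
  simp [Prod.snd_sum, Finset.sum_apply, Pi.single_apply]

theorem orderOf_twGen (p : ℕ) [NeZero p] {m : ℕ} (n : ℕ) (i : Fin m) :
    orderOf (twGen p n i) = p ^ n := by
  rw [twGen, levelGen, orderOf_ofAdd_eq_addOrderOf]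
  refine Eq.trans ?_ (ZMod.addOrderOf_one (p ^ n))
  exact addOrderOf_injective
    ((AddMonoidHom.inr (Empty → ZMod p) (Fin m → ZMod (p ^ n))).comp (AddMonoidHom.single _ i))
    (fun a b h => Pi.single_injective i (Prod.ext_iff.mp h).2) 1

/-- **The character of the level.** -/
theorem exists_twPsi {p : ℕ} [Fact p.Prime] (hp2 : p ≠ 2) {m : ℕ} (n : ℕ) {L : ℕ}
    (hL : Squarefree L) (qv : Fin m → ℕ) (hprime : ∀ i, (qv i).Prime) (hdvd : ∀ i, qv i ∣ L)
    (hinj : Function.Injective qv) (hQ : ∀ i, p ^ n ∣ qv i - 1)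
    (a : ∀ i, (ZMod (qv i))ˣ) (ha : ∀ i, orderOf (a i) = qv i - 1) :
    ∃ ψ : (ZMod L)ˣ →* TWGroup p m n, Function.Surjective ψ ∧
      (∀ (i : Fin m) (u : (ZMod L)ˣ), ((u : ZMod L).cast : ZMod (L / qv i)) = 1 →
        ZMod.unitsMap (hdvd i) u = a i → ψ u ^ halfInvExp (TWGroup p m n) = twGen p n i) ∧
      (∀ w : ℕ, (∀ i, qv i ≠ w) → w.Prime → w ∣ L → ∀ u : (ZMod L)ˣ,
        ((u : ZMod L).cast : ZMod (L / w)) = 1 → ψ u = 1) := by
  have hf : ∀ i, ∃ f : (ZMod (qv i))ˣ →* Multiplicative (ZMod (p ^ n)),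
      f (a i) = Multiplicative.ofAdd (-2) := fun i =>
    haveI : Fact (qv i).Prime := ⟨hprime i⟩
    exists_logHom (q := qv i) (hQ i) (ha i) (-2)
  choose f hfa using hf
  let ψ : (ZMod L)ˣ →* TWGroup p m n :=
    { toFun := fun u =>
        Multiplicative.ofAdd (0, fun i => (f i (ZMod.unitsMap (hdvd i) u)).toAdd)
      map_one' := by
        refine (congrArg Multiplicative.ofAdd ?_).trans ofAdd_zero
        exact Prod.ext rfl (funext fun i => by simp)
      map_mul' := fun u u' => by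
        rw [← ofAdd_add]
        exact congrArg Multiplicative.ofAdd (Prod.ext (by simp) (funext fun i => by simp)) }
  have hone : ∀ (i : Fin m) (w : ℕ), w.Prime → qv i ≠ w → w ∣ L →
      ∀ u : (ZMod L)ˣ, ((u : ZMod L).cast : ZMod (L / w)) = 1 →
        ZMod.unitsMap (hdvd i) u = 1 := by
    intro i w hw hne hwL u hu
    have hd : qv i ∣ L / w := by
      refine Nat.dvd_div_of_mul_dvd ?_
      exact ((Nat.coprime_primes hw (hprime i)).mpr (Ne.symm hne)).mul_dvd_of_dvd_of_dvd hwL (hdvd i)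
    have h1 : ZMod.unitsMap (Nat.div_dvd_of_dvd hwL) u = 1 := Units.ext (by
      rw [ZMod.unitsMap_val]; exact hu)
    rw [← ZMod.unitsMap_comp hd (Nat.div_dvd_of_dvd hwL), MonoidHom.comp_apply, h1, map_one]
  have hodd : Odd (Nat.card (TWGroup p m n)) := by
    rw [card_levelGroup]
    exact ((Fact.out : p.Prime).odd_of_ne_two hp2).pow
  have hgen : ∀ (i : Fin m) (u : (ZMod L)ˣ), ((u : ZMod L).cast : ZMod (L / qv i)) = 1 →
      ZMod.unitsMap (hdvd i) u = a i → ψ u ^ halfInvExp (TWGroup p m n) = twGen p n i := by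
    intro i u hu hua
    have h1 : ψ u = (twGen p n i ^ 2)⁻¹ := by
      apply Multiplicative.toAdd.injective
      rw [toAdd_inv, toAdd_pow, twGen, levelGen, toAdd_ofAdd]
      refine Prod.ext (funext fun e => e.elim) (funext fun j => ?_)
      show (f j (ZMod.unitsMap (hdvd j) u)).toAdd = _
      rcases eq_or_ne j i with rfl | hji
      · rw [hua, hfa]
        simp
      · rw [hone j (qv i) (hprime i) (fun e => hji (hinj e)) (hdvd i) u hu]
        simp [Pi.single_eq_of_ne hji]
    have h2 := pow_halfInvExp_sq_mul hodd (twGen p n i)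
    rw [h1, inv_pow, ← pow_mul, mul_comm 2, pow_mul, inv_eq_iff_mul_eq_one, h2]
  refine ⟨ψ, fun δ => ?_, hgen, fun w hwne hw hwL u hu => ?_⟩
  · have hmem : ∀ i, twGen p n i ∈ MonoidHom.range ψ := fun i => by
      obtain ⟨u, hu, hua⟩ := exists_unit_crt (hdvd i)
        ((hprime i).coprime_iff_not_dvd.mpr fun hd => (hprime i).not_isUnit
          (hL _ ((Nat.dvd_div_iff_mul_dvd (hdvd i)).1 hd))) (a i)
      exact ⟨u ^ halfInvExp (TWGroup p m n), by rw [map_pow, hgen i u hu hua]⟩
    rw [← MonoidHom.mem_range, ← prod_twProj p n δ]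
    refine Subgroup.prod_mem _ fun i _ => ?_
    obtain ⟨k, hk⟩ := twProj_eq_pow p n i δ
    rw [hk]
    exact Subgroup.pow_mem _ (hmem i) k
  · show Multiplicative.ofAdd _ = 1
    rw [← ofAdd_zero]
    refine congrArg _ (Prod.ext rfl (funext fun i => ?_))
    show (f i _).toAdd = 0
    rw [hone i w hw (hwne i) hwL u hu, map_one, toAdd_one]

end Fermat.Agent.RT.Lifting
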