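import Fermat.Agent.RT.Lifting.Minimal.Coordinates
import Fermat.Agent.RT.Lifting.Minimal.FreeLevel
import Fermat.Agent.RT.Lifting.Minimal.LevelPsi
import Fermat.Agent.RT.Assembly.RepLemmas
import Fermat.Prelude.Def_Algebra_PatchingDatum
import Mathlib.RingTheory.MvPowerSeries.Substitution

/-!
# One level of the patching datum
-/

set_option autoImplicit false
set_option linter.style.haveILetI false
set_option linter.unusedSectionVars false

noncomputable section

namespace Fermat.Agent.RT.Lifting

open IsLocalRing Module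
open Fermat.Agent.Deform Fermat.Agent.Arith Fermat.Agent.RT.Assembly Fermat.Agent.CFT.Tangent

variable {O : Type} [CommRing O] [IsDomain O] [IsDiscreteValuationRing O]
  [IsAdicComplete (maximalIdeal O) O]

/-- More room for ramification and fewer unipotence conditions. -/
theorem IsCondLift.mono {p : ℕ} {W : Rigid O} {C : CondAt O} {T U T' U' : Finset ℕ} {A : Type}
    [CommRing A] [IsLocalRing A] [Algebra O A] {hA : IsResAlg O A} {r : Gal →* M2 A}
    (h : IsCondLift p W C T U hA r) (hT : T ⊆ T') (hU : U' ⊆ U) :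
    IsCondLift p W C T' U' hA r :=
  { h with
    unramified := fun ℓ hℓ hℓp hℓT => h.unramified ℓ hℓ hℓp fun h' => hℓT (hT h')
    unipotent := fun q hq => h.unipotent q (hU hq) }

/-- `1 + w` is killed by the order of `d` when it is a root of the polynomial of `d, d⁻¹`. -/
theorem tame_pow_eq_one {A : Type} [CommRing A] [IsReduced A] {d d' s : A} (h : d * d' = 1)
    (hs : s * (d + d' - s) = 1) {N : ℕ} (hN : d ^ N = 1) : s ^ N = 1 := by
  have hN' : d' ^ N = 1 := by
    have := congrArg (· ^ N) h
    simpa [mul_pow, hN] using this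
  obtain ⟨u, hu⟩ := sub_dvd_pow_sub_pow s d N
  obtain ⟨v, hv⟩ := sub_dvd_pow_sub_pow s d' N
  rw [hN] at hu
  rw [hN'] at hv
  have h0 : (s - d) * (s - d') = 0 := by linear_combination h - hs
  refine sub_eq_zero.mp (IsReduced.eq_zero _ ⟨2, ?_⟩)
  calc (s ^ N - 1) ^ 2 = ((s - d) * u) * ((s - d') * v) := by rw [← hu, ← hv, pow_two]
    _ = 0 := by linear_combination (u * v) * h0

variable [Finite (ResidueField O)] [CharZero O]
  {p : ℕ} [Fact p.Prime] [CharP (ResidueField O) p] {W : Rigid O}
  {ρbar : ResidualGaloisRep (ResidueField O)} {bb : Basis (Fin 2) (ResidueField O) ρbar.V}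
  {S : Finset ℕ} {abar : ℕ → ResidueField O} {N₀ : ℕ}

set_option maxHeartbeats 3200000 in
set_option synthInstance.maxHeartbeats 200000 in
/-- **One level.** -/
theorem exists_patchingLevel (hd : IsResidualDatum p W ρbar bb S abar N₀) {C : CondAt O}
    (hC : IsPairCond ρbar C) {m n : ℕ} {qv : Fin m → ℕ} (hQ : IsTWSet p W.rb S n qv)
    (hbound : ∀ Z : Submodule (ResidueField O) (Gal → M2 (ResidueField O)),
      Module.Finite (ResidueField O) Z →
      (∀ b ∈ Z, IsSelmerClass p C W.rb (N₀.primeFactors ∪ Finset.univ.image qv)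
        (N₀.primeFactors.erase p) ∅ b) →
      (∀ b ∈ Z, ∀ X, b = cobdLin W.rb X → b = 0) → finrank (ResidueField O) Z ≤ m)
    {PQ : Fin m → ValuationSubring QBar} (hPQ : ∀ i, (PQ i).LiesOverPrime (qv i))
    {σQ : Fin m → Gal} (hσQ : ∀ i, σQ i ∈ (PQ i).inertiaSubgroupIn ℚ)
    -- the algebra and the module of the level
    {A : Type} [CommRing A] [IsLocalRing A] [Algebra O A] [Module.Finite O A] [IsReduced A]
    (hA : IsResAlg O A) {N : Type} [AddCommGroup N] [Module O N] [Module A N]
    [IsScalarTower O A N] [Module.Finite O N] [Module.IsTorsionFree O N]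
    (dA : TWGroup p m n →* A) {d : ℕ} (Bas : DiaBasis (actDia O N dA) d)
    {E : Type} [CommRing E] [IsLocalRing E] [Algebra O E] [Module.Finite O E] {hE : IsResAlg O E}
    (j : E →ₐ[O] A) {rE : Gal →* M2 E}
    (hrE : IsCondLift p W C (N₀.primeFactors ∪ Finset.univ.image qv) (N₀.primeFactors.erase p)
      hE rE)
    (htr : ∀ i, j (rE (σQ i)).trace = dA (twGen p n i) + dA (twGen p n i)⁻¹)
    -- the bottom level
    {T₀ : Type} [CommRing T₀] [Algebra O T₀] {P : Type} [AddCommGroup P] [Module O P]
    [Module T₀ P] (red : A →ₐ[O] T₀) (π : N →ₗ[O] P) (hπsurj : Function.Surjective π)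
    (hπ : ∀ (a : A) (x : N), π (a • x) = red a • π x)
    (hker : ∀ x, π x = 0 →
      x ∈ Ideal.span (Set.range fun i => dA (twGen p n i) - 1) • (⊤ : Submodule A N))
    {rT : Gal →* M2 T₀} (hred : mapM ((red.comp j : E →ₐ[O] T₀) : E →+* T₀) rE = rT)
    (hrT : ∀ i, rT (σQ i) = 1)
    -- the auxiliary lift
    {B : Type} [CommRing B] [IsLocalRing B] [Algebra O B] [Module.Finite O B] {hB : IsResAlg O B}
    {rB : Gal →* M2 B}
    (hrB : IsCondLift p W C N₀.primeFactors N₀.primeFactors hB rB) (y : B →ₐ[O] O)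
    [Module (pairAlg O rT rB) P]
    (hsmul : ∀ (r : pairAlg O rT rB) (x : P), r • x = pairFst O rT rB r • x) :
    Nonempty (Algebra.PatchingLevel O m (pairAlg O rT rB) P
      (Ideal.span (Set.range fun i : Fin m =>
        ((1 + MvPowerSeries.X i) ^ (p ^ n) - 1 : MvPowerSeries (Fin m) O)))) := by
  classical
  have hpp : p.Prime := Fact.out
  haveI := hA.isLocalHom
  haveI := hE.isLocalHom
  -- the algebra of the pair
  haveI := isLocalRing_pairAlg hrE.lifts hrB.lifts
  haveI := finite_pairAlg (O := O) (rA := rE) (rB := rB)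
  have hP : IsCondLift p W C (N₀.primeFactors ∪ Finset.univ.image qv) (N₀.primeFactors.erase p)
      (isResAlg_pairAlg (rB := rB) hE) (pairRep O rE rB) :=
    hrE.pair hd.p_mem hd.rb_eq hC (hrB.mono Finset.subset_union_left (Finset.erase_subset _ _))
  obtain ⟨γ, hγ, hγy⟩ := exists_presentation hd.p_mem hd.p_ne_two hC hP adjoin_pairRep
    (Finset.notMem_erase p _) (y.comp (pairSnd O rE rB)) hbound
  choose z hzm hzrel hzker using fun i => exists_tame_z hd hP hQ i (hPQ i) (hσQ i)
  have hsnd : ∀ i, pairSnd O rE rB (z i) = 0 := fun i => by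
    refine hzker i B (pairSnd O rE rB : pairAlg O rE rB →+* B) ?_
    rw [mapM_pairSnd]
    exact hrB.unramified (qv i) (hQ.prime i) (hQ.ne_p i)
      (fun h => hQ.notMem i (hd.mem_S_level _ (hQ.prime i) (Nat.dvd_of_mem_primeFactors h)))
      (PQ i) (hPQ i) (σQ i) (hσQ i)
  -- the map to the bottom level
  let φR : pairAlg O rE rB →ₐ[O] T₀ × B :=
    ((red.comp j).comp (pairFst O rE rB)).prod (pairSnd O rE rB)
  have hgenR : ∀ (σ : Gal) (a b : Fin 2),
      φR (pairRep O rE rB σ a b) = pairM rT rB σ a b := fun σ a b => by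
    rw [← hred]; rfl
  have hφR : ∀ x, φR x ∈ pairAlg O rT rB := by
    intro x
    have hx : x ∈ Algebra.adjoin O (entries (pairRep O rE rB)) := by
      rw [adjoin_pairRep]; trivial
    induction hx using Algebra.adjoin_induction with
    | mem x hx =>
      obtain ⟨⟨σ, a, b⟩, rfl⟩ := hx
      rw [hgenR]
      exact pairM_mem σ a b
    | algebraMap c => rw [AlgHom.commutes]; exact Subalgebra.algebraMap_mem _ c
    | add x y _ _ hx hy => rw [map_add]; exact add_mem hx hy
    | mul x y _ _ hx hy => rw [map_mul]; exact mul_mem hx hy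
  let ρn : pairAlg O rE rB →ₐ[O] pairAlg O rT rB := φR.codRestrict _ hφR
  have hρn : Function.Surjective ρn := fun r => by
    have hle : pairAlg O rT rB ≤ φR.range := by
      refine Algebra.adjoin_le ?_
      rintro _ ⟨⟨σ, a, b⟩, rfl⟩
      exact ⟨pairRep O rE rB σ a b, hgenR σ a b⟩
    obtain ⟨x, hx⟩ := hle r.2
    exact ⟨x, Subtype.ext hx⟩
  have hρfst : ∀ x, pairFst O rT rB (ρn x) = red (j (pairFst O rE rB x)) := fun x => rfl
  have hρz : ∀ i, ρn (z i) = 0 := fun i => by
    refine pair_eq_zero ?_ (hsnd i)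
    rw [hρfst]
    refine hzker i T₀ (((red.comp j).comp (pairFst O rE rB) : pairAlg O rE rB →ₐ[O] T₀)) ?_
    rw [show (((red.comp j).comp (pairFst O rE rB) : pairAlg O rE rB →ₐ[O] T₀) :
        pairAlg O rE rB →+* T₀) =
      ((red.comp j : E →ₐ[O] T₀) : E →+* T₀).comp (pairFst O rE rB : _ →+* E) from rfl,
      ← mapM_mapM, mapM_pairFst, hred]
    exact hrT i
  -- the substitution
  choose g hg using fun i => hγ (z i)
  have hg0 : ∀ i, MvPowerSeries.constantCoeff (g i) = 0 := fun i => by
    rw [← hγy, hg, AlgHom.comp_apply, hsnd, map_zero]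
  let φ : MvPowerSeries (Fin m) O →ₐ[O] MvPowerSeries (Fin m) O :=
    MvPowerSeries.substAlgHom (MvPowerSeries.hasSubst_of_constantCoeff_zero hg0)
  have hφX : ∀ i, φ (MvPowerSeries.X i) = g i := fun i => MvPowerSeries.substAlgHom_X _ i
  let toA : pairAlg O rE rB →ₐ[O] A := j.comp (pairFst O rE rB)
  let Γ : MvPowerSeries (Fin m) O →ₐ[O] A := toA.comp γ
  -- the parameters
  have hord : ∀ i, dA (twGen p n i) ^ (p ^ n) = 1 := fun i => by
    rw [← map_pow, orderOf_dvd_iff_pow_eq_one.mp (dvd_of_eq (orderOf_twGen p n i)), map_one]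
  have hinv : ∀ i, dA (twGen p n i) * dA (twGen p n i)⁻¹ = 1 := fun i => by
    rw [← map_mul, mul_inv_cancel, map_one]
  have hrelA : ∀ i, (1 + toA (z i)) *
      (dA (twGen p n i) + dA (twGen p n i)⁻¹ - (1 + toA (z i))) = 1 := fun i => by
    have h := congrArg toA (hzrel i)
    rw [map_mul, map_sub, map_add, map_one] at h
    have e : toA (pairRep O rE rB (σQ i)).trace = j (rE (σQ i)).trace := by
      show j (pairFst O rE rB _) = _
      rw [AddMonoidHom.map_trace (pairFst O rE rB)]
      rfl
    rwa [e, htr] at h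
  let TP : TameParams (O := O) N dA d m (p ^ n) :=
    { basis := Bas
      g := twGen p n
      proj := twProj p n
      proj_self := fun i => by rw [twProj_gen, if_pos rfl]
      proj_other := fun i k hk => by rw [twProj_gen, if_neg hk]
      proj_pow := twProj_eq_pow p n
      prod_proj := prod_twProj p n
      order := orderOf_twGen p n
      pos := pow_pos hpp.pos n
      natCast_mem := by
        rcases Nat.eq_zero_or_pos n with h | h
        · exact Or.inl (by rw [h, pow_zero])
        · refine Or.inr ?_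
          rw [← augment_eq_zero_iff hA, map_natCast, Nat.cast_pow,
            CharP.cast_eq_zero (ResidueField O) p, zero_pow h.ne']
      sub_one_mem := fun i => by
        rw [← augment_eq_zero_iff hA, map_sub, map_one]
        refine eq_zero_of_pow_eq_zero (n := p ^ n) ?_
        rw [sub_pow_char_pow, one_pow, ← map_pow, hord i, map_one, sub_self]
      z := fun i => toA (z i)
      rel := fun i => by
        linear_combination -(dA (twGen p n i)) * hrelA i + (1 + toA (z i)) * hinv i
      z_pow := fun i => tame_pow_eq_one (hinv i) (hrelA i) (hord i)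
      z_mem := fun i => by
        haveI : IsLocalHom (toA : pairAlg O rE rB →+* A) := isLocalHom_algHom toA
        exact map_nonunit (toA : pairAlg O rE rB →+* A) _ (hzm i)
      small := fun i x => by
        refine hker _ ?_
        rw [hπ, show red (toA (z i)) = pairFst O rT rB (ρn (z i)) from rfl, hρz, map_zero, zero_smul] }
  haveI : Module.Finite A N := Module.Finite.of_restrictScalars_finite O A N
  letI modN : Module (MvPowerSeries (Fin m) O) N :=
    Module.compHom N (Γ : MvPowerSeries (Fin m) O →+* A)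
  have hsmulN : ∀ (f : MvPowerSeries (Fin m) O) (x : N), f • x = Γ f • x := fun _ _ => rfl
  have hΓφ : ∀ i, (Γ.comp φ) (MvPowerSeries.X i) = TP.z i := fun i => by
    show toA (γ (φ (MvPowerSeries.X i))) = toA (z i)
    rw [hφX, hg]
  have hψX : ∀ i, (ρn.comp γ) (φ (MvPowerSeries.X i)) = 0 := fun i => by
    show ρn (γ (φ (MvPowerSeries.X i))) = 0
    rw [hφX, hg, hρz]
  have hπsmul : ∀ (f : MvPowerSeries (Fin m) O) (x : N),
      π (f • x) = (ρn.comp γ) f • π x := fun f x => by
    rw [hsmulN, hπ, hsmul]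
    rfl
  refine ⟨{
    N := N
    φ := φ
    ψ := ρn.comp γ
    ψ_surjective := hρn.comp hγ
    ψ_φ_X := hψX
    π := π.toAddMonoidHom
    π_smul := hπsmul
    π_surjective := hπsurj
    ker_π := fun x => ⟨fun h => ?_, fun h => ?_⟩
    d := d
    b := Bas.basis
    b_span := fun x => ?_
    b_rel := fun c => ?_ }⟩
  · have h' := hker x h
    rw [← TP.z_smul_top] at h'
    refine Submodule.smul_induction_on h' (fun a ha w _ => ?_) fun u v hu hv => add_mem hu hv
    induction ha using Submodule.span_induction generalizing w with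
    | mem a ha =>
      obtain ⟨i, rfl⟩ := ha
      rw [← hΓφ i, AlgHom.comp_apply, ← hsmulN]
      exact Submodule.smul_mem_smul (Ideal.subset_span ⟨i, rfl⟩) Submodule.mem_top
    | zero => rw [zero_smul]; exact zero_mem _
    | add a b _ _ ha hb =>
      rw [add_smul]; exact add_mem (ha w Submodule.mem_top) (hb w Submodule.mem_top)
    | smul c a _ ha => rw [smul_eq_mul, mul_comm, mul_smul]; exact ha _ Submodule.mem_top
  · refine Submodule.smul_induction_on h (fun a ha w _ => ?_) fun u v hu hv => ?_
    · have hψa : (ρn.comp γ) a = 0 := by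
        have hle : Ideal.span (Set.range fun i => φ (MvPowerSeries.X i)) ≤
            RingHom.ker (ρn.comp γ) := Ideal.span_le.mpr (Set.range_subset_iff.mpr hψX)
        exact hle ha
      show π (a • w) = 0
      rw [hπsmul, hψa, zero_smul]
    · show π (u + v) = 0
      rw [map_add]
      exact (congrArg₂ (· + ·) hu hv).trans (add_zero 0)
  · obtain ⟨c, hc⟩ := TP.combine_surjective (Γ.comp φ) hΓφ x
    exact ⟨c, hc.symm⟩
  · have hχ : ∀ i, levelChar (V := Empty) (one_pow p : (1 : O) ^ p = 1) n (TP.g i) =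
        1 + Ideal.Quotient.mk (levelIdeal O p n) (MvPowerSeries.X i) := fun i =>
      levelChar_gen_inr _ n i
    exact TP.combine_eq_zero_iff hpp hd.p_mem (Γ.comp φ) hΓφ _ hχ c

end Fermat.Agent.RT.Lifting
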