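import Fermat.Agent.RT.Lifting.Minimal.Algebra
import Fermat.Agent.RT.Lifting.Minimal.Level

/-!
# The patching datum at minimal level
-/

set_option autoImplicit false
set_option linter.style.haveILetI false
set_option linter.unusedSectionVars false

noncomputable section

namespace Fermat.Agent.RT.Lifting

open IsLocalRing Module MvPolynomial
open Fermat.Agent.Deform Fermat.Agent.Arith Fermat.Agent.RT.GammaH Fermat.Agent.RT.Assembly
open Fermat.Agent.CFT.Tangent
open Fermat.Agent.GaloisReps (HeckeGaloisModel CongruenceProperty)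
open Fermat.Agent.NewformLocal (UnipotentAt)

variable {O : Type} [CommRing O] [IsDomain O] [IsDiscreteValuationRing O]
  [IsAdicComplete (maximalIdeal O) O] [Finite (ResidueField O)] [CharZero O]
  {p : ℕ} [Fact p.Prime] [CharP (ResidueField O) p] {W : Rigid O}
  {ρbar : ResidualGaloisRep (ResidueField O)} {bb : Basis (Fin 2) (ResidueField O) ρbar.V}
  {S : Finset ℕ} {abar : ℕ → ResidueField O} {N₀ : ℕ}

omit [IsAdicComplete (maximalIdeal O) O] [Finite (ResidueField O)] [CharZero O] in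
theorem IsResidualDatum.two_ne_zero [IsAdicComplete (maximalIdeal O) O]
    (hd : IsResidualDatum p W ρbar bb S abar N₀) : (2 : ResidueField O) ≠ 0 :=
  Ring.two_ne_zero (by rw [ringChar.eq (ResidueField O) p]; exact hd.p_ne_two)

omit [Fact p.Prime] [CharP (ResidueField O) p] [Finite (ResidueField O)] [CharZero O] in
theorem IsResidualDatum.exists_rb_ne (hd : IsResidualDatum p W ρbar bb S abar N₀) :
    ∃ σ, W.rb σ 0 1 ≠ 0 := by
  by_contra hcon
  push Not at hcon
  have hle : Submodule.span (ResidueField O)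
      (Set.range fun σ => LinearMap.toMatrixAlgEquiv bb (ρbar.ρ σ)) ≤
      LinearMap.ker (Matrix.entryLinearMap (ResidueField O) (ResidueField O)
        (0 : Fin 2) (1 : Fin 2)) := by
    rw [Submodule.span_le]
    rintro _ ⟨σ, rfl⟩
    have h1 := hcon σ
    rw [hd.rb_eq] at h1
    exact h1
  rw [span_matrix_eq_top ρbar hd.irreducible bb] at hle
  have h1 : (Matrix.single (0 : Fin 2) (1 : Fin 2) (1 : ResidueField O)) 0 1 = 0 :=
    hle (Submodule.mem_top (x := Matrix.single (0 : Fin 2) (1 : Fin 2) (1 : ResidueField O)))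
  simp at h1

variable [NeZero N₀]

set_option maxHeartbeats 1600000 in
set_option synthInstance.maxHeartbeats 400000 in
/-- **The patching datum** over the algebra of the pair with an auxiliary lift. -/
theorem exists_minimalDatum (hd : IsResidualDatum p W ρbar bb S abar N₀) {C : CondAt O}
    {good : ℕ → Prop} (hC : IsPairCond ρbar C) (hpt : PointCond p ρbar C good)
    (hgood : ∀ M : ℕ, ¬ p ^ 2 ∣ M → (p ∣ M → p ∣ N₀) → good M)
    (hTW : TWModuleProperty p W S abar N₀)
    (D : ∀ (M : ℕ) [NeZero M], HeckeGaloisModel M p)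
    (hU : ∀ (M : ℕ) [NeZero M] (v : ℕ), v.Prime → v ≠ p → v ∣ M → ¬ v ^ 2 ∣ M → UnipotentAt (D M) v)
    (hTI : ∀ (q R M : ℕ) [Fact q.Prime] [NeZero R] [NeZero M]
      (g : CuspForm (CongruenceSubgroup.Gamma0 M) 2), InertiaTW.TraceInertia p q R M g)
    (hcong : ∀ (N : ℕ) [NeZero N], CongruenceProperty N p)
    {e : OpRing O N₀ S} (he : IsLocalizer (resIdeal S abar N₀) (Classes O S N₀) e)
    [Nontrivial (MinMod S N₀ e)]
    (Bs : MinimalBase p W S N₀ (MinMod S N₀ e) (minOp S N₀ e)) {m : ℕ}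
    (hSel : ∀ n : ℕ, ∃ qv : Fin m → ℕ, IsTWSet p W.rb S n qv ∧
      ∀ Z : Submodule (ResidueField O) (Gal → M2 (ResidueField O)),
        Module.Finite (ResidueField O) Z →
        (∀ b ∈ Z, IsSelmerClass p C W.rb (N₀.primeFactors ∪ Finset.univ.image qv)
          (N₀.primeFactors.erase p) ∅ b) →
        (∀ b ∈ Z, ∀ X, b = cobdLin W.rb X → b = 0) → finrank (ResidueField O) Z ≤ m)
    {B : Type} [CommRing B] [IsLocalRing B] [Algebra O B] [Module.Finite O B] {hB : IsResAlg O B}
    {rB : Gal →* M2 B}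
    (hrB : IsCondLift p W C N₀.primeFactors N₀.primeFactors hB rB) (y : B →ₐ[O] O)
    [Module (pairAlg O Bs.rep rB) (Fin (2 ^ m) → MinMod S N₀ e)]
    (hsmul : ∀ (r : pairAlg O Bs.rep rB) (x : Fin (2 ^ m) → MinMod S N₀ e) (k : Fin (2 ^ m)),
      (r • x) k = Bs.act (pairFst O Bs.rep rB r) (x k)) :
    Nonempty (Algebra.PatchingDatum O p m (pairAlg O Bs.rep rB)
      (Fin (2 ^ m) → MinMod S N₀ e)) := by
  classical
  letI : Module Bs.T (MinMod S N₀ e) := Module.compHom _ (Bs.act : Bs.T →+* Module.End O (MinMod S N₀ e))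
  suffices h : ∀ n : ℕ, Nonempty (Algebra.PatchingLevel O m (pairAlg O Bs.rep rB)
      (Fin (2 ^ m) → MinMod S N₀ e)
      (Ideal.span (Set.range fun i : Fin m =>
        ((1 + MvPowerSeries.X i) ^ (p ^ n) - 1 : MvPowerSeries (Fin m) O)))) from
    ⟨⟨fun n => (h n).some⟩⟩
  intro n
  obtain ⟨qv, hQ, hbound⟩ := hSel n
  obtain ⟨PQ, σQ, L, ψ, H, π, red, E, _, _, _, _, hE, j, rE, hd0, hPQ, hσQ, hπ, hred, hker, hrE,
    hinert, hfrob, -⟩ := exists_twLevel hd hC hpt hgood hTW D hU hTI hcong he Bs.act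
      Bs.act_injective Bs.t Bs.act_t hQ
  have hp := hd.p_mem
  have hΔ := isPGroup_levelGroup (V := Empty) (r := m) p n
  haveI := Glue.isLocalRing_algebra H hp hΔ hd0
  haveI := Glue.isLocalHom_algebraMap H hp hΔ
  have hA : IsResAlg O H.algebra :=
    ⟨inferInstance, Glue.residue_algebraMap_surjective H hp hΔ⟩
  haveI : IsReduced H.algebra := H.isReduced
  haveI := Bs.res.isLocalHom
  haveI := hE.isLocalHom
  haveI := isHausdorff_of_resAlg Bs.res
  have hloc : IsLocalHom ((red.comp j : E →ₐ[O] Bs.T) : E →+* Bs.T) := isLocalHom_algHom _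
  -- the two representations over the bottom algebra
  have hrep : mapM ((red.comp j : E →ₐ[O] Bs.T) : E →+* Bs.T) rE = Bs.rep := by
    refine eq_of_trace_eq hd.two_ne_zero hd.exists_rb_ne (hA := Bs.res)
      (hrE.lifts.map Bs.res _ hloc) Bs.lifts (hrE.normal.map _) Bs.normal fun σ => ?_
    refine trace_eq_of_frobenius (hrE.cont.map _ hloc) Bs.cont (S ∪ Finset.univ.image qv)
      (fun ℓ hℓ hℓS A hA' τ hτ => ?_) σ
    have hℓS' : ℓ ∉ S := fun h => hℓS (Finset.mem_union_left _ h)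
    have hℓQ : ℓ ∉ Finset.univ.image qv := fun h => hℓS (Finset.mem_union_right _ h)
    rw [Bs.trace ⟨ℓ, hℓ, hℓS'⟩ A hA' τ hτ, ← hfrob ⟨ℓ, hℓ, hℓS'⟩ hℓQ A hA' τ hτ]
    exact (AddMonoidHom.map_trace (red.comp j) (rE τ)).symm
  refine exists_patchingLevel hd hC hQ hbound hPQ hσQ hA (N := H.M) (Glue.diaA H)
    ⟨H.basis, H.basis_bijective⟩ j hrE hinert red π hπ
    (fun a x => funext fun k => hred a x k) hker hrep (fun i => ?_) hrB y
    fun r x => funext fun k => hsmul r x k
  exact Bs.unramified (qv i) (hQ.prime i) (hQ.ne_p i)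
    (fun h => hQ.notMem i (hd.mem_S_level _ (hQ.prime i) (Nat.dvd_of_mem_primeFactors h)))
    (PQ i) (hPQ i) (σQ i) (hσQ i)

end Fermat.Agent.RT.Lifting
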