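import Fermat.Agent.RT.Lifting.Defs
import Fermat.Agent.RT.GammaH.Local
import Mathlib.RingTheory.Ideal.GoingUp
import Mathlib.RingTheory.Ideal.MinimalPrime.Noetherian

/-!
# Eigen elements of a point and primitive eigen classes
-/

set_option autoImplicit false
set_option linter.style.haveILetI false
set_option linter.unusedSectionVars false

noncomputable section

namespace Fermat.Agent.RT.Lifting

open IsLocalRing Fermat.Agent.RT.GammaH

/-- In a reduced finite algebra something nonzero is killed by the kernel of a point. -/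
theorem exists_ne_zero_eigen {O : Type} [CommRing O] [IsDomain O] [IsNoetherianRing O] {R : Type}
    [CommRing R] [IsReduced R] [Algebra O R] [Module.Finite O R] (x : R →ₐ[O] O) :
    ∃ c : R, c ≠ 0 ∧ ∀ r : R, r * c = algebraMap O R (x r) * c := by
  classical
  haveI : IsNoetherianRing R := IsNoetherianRing.of_finite O R
  set P := RingHom.ker x
  haveI hP : P.IsPrime := RingHom.ker_isPrime x
  set s := (minimalPrimes.finite_of_isNoetherianRing R).toFinset.erase P with hs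
  have hnot : ¬ s.inf id ≤ P := fun h => by
    obtain ⟨Q, hQ, hQP : Q ≤ P⟩ := (Ideal.IsPrime.inf_le' hP).1 h
    obtain ⟨hne, hQm⟩ := Finset.mem_erase.1 hQ
    rw [Set.Finite.mem_toFinset] at hQm
    haveI : Q.IsPrime := hQm.1.1
    obtain ⟨z, hzP, hzQ⟩ := SetLike.exists_of_lt (lt_of_le_of_ne hQP hne)
    have hlt := Ideal.comap_lt_comap_of_integral_mem_sdiff (R := O) hQP ⟨hzP, hzQ⟩
      (Algebra.IsIntegral.isIntegral z)
    have hbot : P.comap (algebraMap O R) = ⊥ := by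
      refine eq_bot_iff.2 fun o ho => ?_
      rw [Ideal.mem_comap, RingHom.mem_ker, x.commutes] at ho
      exact ho
    exact not_lt_bot (hbot ▸ hlt)
  obtain ⟨c, hc, hcP⟩ := SetLike.not_le_iff_exists.1 hnot
  refine ⟨c, fun h => hcP (h ▸ zero_mem P), fun r => ?_⟩
  have hz : r - algebraMap O R (x r) ∈ P := by simp [P, RingHom.mem_ker]
  rw [← sub_eq_zero, ← sub_mul]
  refine IsReduced.eq_zero _ (mem_nilradical.1 ?_)
  rw [nilradical_eq_sInf, Ideal.mem_sInf]
  intro Q hQ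
  haveI : Q.IsPrime := hQ
  obtain ⟨Q', hQ', hle⟩ := Ideal.exists_minimalPrimes_le (I := ⊥) (J := Q) bot_le
  refine hle ?_
  by_cases h : Q' = P
  · exact h ▸ Ideal.mul_mem_right c _ hz
  · refine Ideal.mul_mem_left _ _ ?_
    exact (Finset.inf_le (f := id) (Finset.mem_erase.2 ⟨h,
      (Set.Finite.mem_toFinset _).2 hQ'⟩) : s.inf id ≤ Q') hc

variable {O : Type} [CommRing O] [IsDomain O] [IsDiscreteValuationRing O] {S : Finset ℕ} {L : ℕ}

/-- A nonzero class of a saturated submodule is a multiple of a primitive one. -/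
theorem exists_primitive_smul (V : Submodule O (Classes O S L))
    (hV : ∀ (c : O) (v : Classes O S L), c ≠ 0 → c • v ∈ V → v ∈ V) {u₀ : Classes O S L}
    (hu₀ : u₀ ∈ V) (h0 : u₀ ≠ 0) :
    ∃ u ∈ V, (∃ γ, IsUnit (u γ)) ∧ ∃ k : O, k ≠ 0 ∧ u₀ = k • u := by
  obtain ⟨ϖ, hϖ⟩ := IsDiscreteValuationRing.exists_irreducible O
  suffices key : ∀ (n : ℕ) (u : Classes O S L), u ∈ V → (∃ γ, ¬ ϖ ^ n ∣ u γ) →
      ∃ u' ∈ V, (∃ γ, IsUnit (u' γ)) ∧ ∃ k : O, k ≠ 0 ∧ u = k • u' by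
    obtain ⟨γ, hγ⟩ : ∃ γ, u₀ γ ≠ 0 := by
      by_contra! h
      exact h0 (DFunLike.ext _ _ h)
    obtain ⟨n, w, hw⟩ := IsDiscreteValuationRing.eq_unit_mul_pow_irreducible hγ hϖ
    refine key (n + 1) u₀ hu₀ ⟨γ, fun h => hϖ.not_isUnit ?_⟩
    rw [hw, IsUnit.dvd_mul_left w.isUnit, pow_succ'] at h
    obtain ⟨c, hc⟩ := h
    refine IsUnit.of_mul_eq_one c ?_
    have hne : ϖ ^ n ≠ 0 := pow_ne_zero _ hϖ.ne_zero
    refine mul_left_cancel₀ hne ?_
    rw [mul_one]
    linear_combination -hc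
  intro n
  induction n with
  | zero => rintro u - ⟨γ, hγ⟩; exact absurd (pow_zero ϖ ▸ one_dvd (u γ)) hγ
  | succ n ih =>
    intro u hu hex
    by_cases hunit : ∃ γ, IsUnit (u γ)
    · exact ⟨u, hu, hunit, 1, one_ne_zero, (one_smul O u).symm⟩
    push Not at hunit
    have hdiv : ∀ γ, ϖ ∣ u γ := fun γ => by
      rw [← Ideal.mem_span_singleton, ← hϖ.maximalIdeal_eq]
      exact hunit γ
    obtain ⟨χ, hχ⟩ := exists_eq_smul S hϖ hdiv
    obtain ⟨γ, hγ⟩ := hex
    have hχV : χ ∈ V := hV ϖ χ hϖ.ne_zero (hχ ▸ hu)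
    obtain ⟨u', hu', hprim, k, hk, hku⟩ := ih χ hχV ⟨γ, fun h => hγ (by
      rw [hχ, show (ϖ • χ) γ = ϖ * χ γ from rfl, pow_succ']
      exact mul_dvd_mul_left ϖ h)⟩
    exact ⟨u', hu', hprim, ϖ * k, mul_ne_zero hϖ.ne_zero hk, by rw [hχ, hku, smul_smul]⟩

end Fermat.Agent.RT.Lifting
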