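import Fermat.Agent.RT.Assembly.Diamond

/-!
# The parts of a module over a product of cyclic groups

For a module free over `O[Δ]`, `Δ = ∏ ⟨g i⟩`, the projection to the part over the `i`-th factor
identifies modulo the augmentation ideal the `i`-th piece of `Y M / 𝔪 Y M`; an operator `z i`
with `g z² = (1 + z) (g - 1)²` then sends `M` onto this piece.
-/

set_option autoImplicit false
set_option linter.style.haveILetI false

noncomputable section

namespace Fermat.Agent.RT.Lifting

open IsLocalRing Fermat.Agent.RT.Assembly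

variable {O : Type} [CommRing O] {A : Type} [CommRing A] [Algebra O A]
variable (M : Type) [AddCommGroup M] [Module O M] [Module A M] [IsScalarTower O A M]
variable {Δ : Type} [CommGroup Δ]

variable (O) in
/-- The action of a group through an algebra acting on `M`. -/
def actDia (dA : Δ →* A) : Δ →* Module.End O M :=
  (Algebra.lsmul O O M (A := A)).toMonoidHom.comp dA

theorem actDia_apply (dA : Δ →* A) (δ : Δ) (x : M) : actDia O M dA δ x = dA δ • x := rfl

/-- Parameters `z i` at the generators `g i` of a product of cyclic groups of order `N` acting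
through `A` on a module free over `O[Δ]`. -/
structure TameParams [IsLocalRing A] (dA : Δ →* A) (d m N : ℕ) : Type where
  basis : DiaBasis (actDia O M dA) d
  g : Fin m → Δ
  proj : Fin m → Δ →* Δ
  proj_self : ∀ i, proj i (g i) = g i
  proj_other : ∀ i j, j ≠ i → proj i (g j) = 1
  proj_pow : ∀ i δ, ∃ k : ℕ, proj i δ = g i ^ k
  prod_proj : ∀ δ, ∏ i, proj i δ = δ
  order : ∀ i, orderOf (g i) = N
  pos : 0 < N
  natCast_mem : N = 1 ∨ (N : A) ∈ maximalIdeal A
  sub_one_mem : ∀ i, dA (g i) - 1 ∈ maximalIdeal A
  z : Fin m → A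
  rel : ∀ i, dA (g i) * z i ^ 2 = (1 + z i) * (dA (g i) - 1) ^ 2
  z_pow : ∀ i, (1 + z i) ^ N = 1
  z_mem : ∀ i, z i ∈ maximalIdeal A
  small : ∀ i (x : M),
    z i • x ∈ Ideal.span (Set.range fun j => dA (g j) - 1) • (⊤ : Submodule A M)

namespace TameParams

variable {M} [IsLocalRing A] {dA : Δ →* A} {d m N : ℕ} (P : TameParams (O := O) M dA d m N)

/-- The differences `g j - 1`. -/
def y (j : Fin m) : A := dA (P.g j) - 1

/-- The differences at the factors other than the `i`-th. -/
def others (i : Fin m) : Ideal A := Ideal.span (P.y '' {j | j ≠ i})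

omit [IsLocalRing A] in
theorem dA_sub_one_mem (I : Ideal A) {ι : Type} (s : Finset ι) (f : ι → Δ)
    (h : ∀ j ∈ s, dA (f j) - 1 ∈ I) : dA (∏ j ∈ s, f j) - 1 ∈ I := by
  classical
  induction s using Finset.induction_on with
  | empty => simp
  | insert a s ha ih =>
    rw [Finset.prod_insert ha, map_mul,
      show dA (f a) * dA (∏ j ∈ s, f j) - 1 =
        dA (f a) * (dA (∏ j ∈ s, f j) - 1) + (dA (f a) - 1) by ring]
    exact add_mem (I.mul_mem_left _ (ih fun j hj => h j (Finset.mem_insert_of_mem hj)))
      (h a (Finset.mem_insert_self a s))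

omit [IsLocalRing A] in
theorem dA_pow_sub_one_mem (I : Ideal A) (δ : Δ) (h : dA δ - 1 ∈ I) (k : ℕ) :
    dA (δ ^ k) - 1 ∈ I := by
  rw [map_pow, ← geom_sum_mul]
  exact I.mul_mem_left _ h

/-- The projection to the part over the `i`-th factor. -/
def part (i : Fin m) : M →ₗ[O] M :=
  P.basis.coord.symm.toLinearMap ∘ₗ
    (Finsupp.lmapDomain O O fun bδ : Fin d × Δ => (bδ.1, P.proj i bδ.2)) ∘ₗ
      P.basis.coord.toLinearMap

theorem part_dia_basis (i : Fin m) (b : Fin d) (δ : Δ) :
    P.part i (dA δ • P.basis.basis b) = dA (P.proj i δ) • P.basis.basis b := by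
  have h : P.basis.coord (actDia O M dA δ (P.basis.basis b)) = Finsupp.single (b, δ) 1 := by
    rw [← P.basis.coord.eq_symm_apply, DiaBasis.coord_symm_single, one_smul]
  rw [actDia_apply] at h
  simp [part, h, DiaBasis.coord_symm_single, actDia_apply]

theorem proj_proj (i : Fin m) (δ : Δ) : P.proj i (P.proj i δ) = P.proj i δ := by
  obtain ⟨k, hk⟩ := P.proj_pow i δ
  rw [hk, map_pow, P.proj_self]

theorem part_dia (i : Fin m) (δ : Δ) (x : M) :
    P.part i (dA δ • x) = dA (P.proj i δ) • P.part i x := by
  suffices P.part i ∘ₗ actDia O M dA δ = actDia O M dA (P.proj i δ) ∘ₗ P.part i from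
    LinearMap.congr_fun this x
  refine P.basis.linearMap_ext fun b ε => ?_
  simp only [LinearMap.comp_apply, actDia_apply, smul_smul, ← map_mul, part_dia_basis]

theorem part_y_smul (i j : Fin m) (x : M) :
    P.part i (P.y j • x) = if j = i then P.y j • P.part i x else 0 := by
  rw [y, sub_smul, one_smul, map_sub, part_dia]
  split_ifs with h
  · rw [h, P.proj_self, sub_smul, one_smul]
  · rw [P.proj_other i j h, map_one, one_smul, sub_self]

theorem part_part (i : Fin m) (x : M) : P.part i (P.part i x) = P.part i x := by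
  suffices P.part i ∘ₗ P.part i = P.part i from LinearMap.congr_fun this x
  refine P.basis.linearMap_ext fun b ε => ?_
  simp only [LinearMap.comp_apply, actDia_apply, part_dia_basis, proj_proj]

theorem sub_part_mem (i : Fin m) (x : M) :
    x - P.part i x ∈ P.others i • (⊤ : Submodule A M) := by
  suffices ∀ c : Fin d × Δ →₀ O, P.basis.coord.symm c - P.part i (P.basis.coord.symm c) ∈
      P.others i • (⊤ : Submodule A M) by simpa using this (P.basis.coord x)
  intro c
  induction c using Finsupp.induction_linear with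
  | zero => simp
  | add a b ha hb => rw [map_add, map_add, add_sub_add_comm]; exact add_mem ha hb
  | single bδ o =>
    obtain ⟨b, δ⟩ := bδ
    rw [DiaBasis.coord_symm_single, actDia_apply, map_smul, part_dia_basis, ← smul_sub, ← sub_smul]
    refine Submodule.smul_of_tower_mem _ _ (Submodule.smul_mem_smul ?_ Submodule.mem_top)
    have hδ : δ = P.proj i δ * ∏ j ∈ Finset.univ.erase i, P.proj j δ := by
      rw [Finset.mul_prod_erase _ (fun j => P.proj j δ) (Finset.mem_univ i), P.prod_proj]
    conv => arg 2; arg 1; rw [hδ]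
    rw [map_mul, ← mul_sub_one]
    refine Ideal.mul_mem_left _ _ (dA_sub_one_mem _ _ _ fun j hj => ?_)
    obtain ⟨k, hk⟩ := P.proj_pow j δ
    rw [hk]
    exact dA_pow_sub_one_mem (P.others i) _
      (Ideal.subset_span ⟨j, (Finset.mem_erase.mp hj).1, rfl⟩) k

theorem part_eq_zero_of_mem (i : Fin m) {x : M} (hx : x ∈ P.others i • (⊤ : Submodule A M)) :
    P.part i x = 0 := by
  suffices ∀ a ∈ P.others i, ∀ w : M, P.part i (a • w) = 0 from
    Submodule.smul_induction_on hx (fun a ha w _ => this a ha w) fun u v hu hv => by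
      rw [map_add, hu, hv, add_zero]
  intro a ha
  induction ha using Submodule.span_induction with
  | mem a ha =>
    intro w
    obtain ⟨j, hj, rfl⟩ := ha
    rw [part_y_smul, if_neg hj]
  | zero => intro w; rw [zero_smul, map_zero]
  | add a b _ _ ha hb => intro w; rw [add_smul, map_add, ha, hb, add_zero]
  | smul c a _ ha => intro w; rw [smul_eq_mul, mul_comm, mul_smul]; exact ha _

theorem part_smul_part (i : Fin m) (a : A) (x : M) :
    P.part i (a • P.part i x) = P.part i (a • x) := by
  refine (sub_eq_zero.mp ?_).symm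
  rw [← map_sub, ← smul_sub]
  exact P.part_eq_zero_of_mem i (Submodule.smul_mem _ a (P.sub_part_mem i x))

theorem y_sum (i : Fin m) : P.y i * ∑ k ∈ Finset.range N, dA (P.g i) ^ k = 0 := by
  have h : P.g i ^ N = 1 := orderOf_dvd_iff_pow_eq_one.mp (dvd_of_eq (P.order i))
  rw [y, mul_comm, geom_sum_mul, ← map_pow, h, map_one, sub_self]

/-- Torsion-freeness turns a double fixed vector into a fixed one. -/
theorem y_smul_eq_zero [Module.IsTorsionFree O M] [IsDomain O] [CharZero O] (i : Fin m) {v : M}
    (h : P.y i • P.y i • v = 0) : P.y i • v = 0 := by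
  have hfix : dA (P.g i) • P.y i • v = P.y i • v := by
    rwa [y, sub_smul, one_smul, sub_eq_zero] at h
  have hk : ∀ k : ℕ, dA (P.g i) ^ k • P.y i • v = P.y i • v := fun k => by
    induction k with
    | zero => rw [pow_zero, one_smul]
    | succ k ih => rw [pow_succ, mul_smul, hfix, ih]
  have h1 : (∑ k ∈ Finset.range N, dA (P.g i) ^ k) • P.y i • v = (N : O) • P.y i • v := by
    rw [Finset.sum_smul, Finset.sum_congr rfl fun k _ => hk k, Finset.sum_const,
      Finset.card_range, ← Nat.cast_smul_eq_nsmul O]
  rw [smul_smul, mul_comm, P.y_sum, zero_smul] at h1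
  exact ((smul_eq_zero (R := O)).mp h1.symm).resolve_left (Nat.cast_ne_zero.mpr P.pos.ne')

/-- A fixed vector of the `i`-th part is a norm. -/
theorem eq_sum_smul_of_fixed (i : Fin m) {v : M} (hv : P.part i v = v) (hy : P.y i • v = 0) :
    ∃ w : M, v = (∑ k ∈ Finset.range N, dA (P.g i) ^ k) • w := by
  classical
  set c := P.basis.coord v with hc
  have hshift : ∀ (b : Fin d) (δ : Δ), c (b, P.g i * δ) = c (b, δ) := fun b δ => by
    have hgv : actDia O M dA (P.g i) v = v := by
      rw [actDia_apply, ← sub_eq_zero, ← one_smul A v, smul_smul, mul_one, ← sub_smul]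
      exact hy
    have h1 : ∀ c' : Fin d × Δ →₀ O,
        P.basis.coord (actDia O M dA (P.g i) (P.basis.coord.symm c')) =
          c'.mapDomain fun bδ : Fin d × Δ => (bδ.1, P.g i * bδ.2) := fun c' => by
      induction c' using Finsupp.induction_linear with
      | zero => simp
      | add a b ha hb => simp only [map_add, ha, hb, Finsupp.mapDomain_add]
      | single bδ o =>
        rw [DiaBasis.coord_symm_single, map_smul, ← Module.End.mul_apply, ← map_mul,
          Finsupp.mapDomain_single, ← P.basis.coord.eq_symm_apply, DiaBasis.coord_symm_single]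
    have h2 := h1 c
    rw [hc, LinearEquiv.symm_apply_apply, hgv] at h2
    conv_lhs => rw [hc, h2]
    exact Finsupp.mapDomain_apply (f := fun bδ : Fin d × Δ => (bδ.1, P.g i * bδ.2))
      (fun a a' e => Prod.ext (Prod.ext_iff.mp e).1 (mul_left_cancel (Prod.ext_iff.mp e).2))
      (P.basis.coord v) (b, δ)
  have hpow : ∀ (b : Fin d) (k : ℕ), c (b, P.g i ^ k) = c (b, 1) := fun b k => by
    induction k with
    | zero => rw [pow_zero]
    | succ k ih => rw [pow_succ', hshift, ih]
  have hsupp : ∀ bδ ∈ c.support, P.proj i bδ.2 = bδ.2 := fun bδ hbδ => by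
    have hcv : c.mapDomain (fun x : Fin d × Δ => (x.1, P.proj i x.2)) = c := by
      rw [hc, ← P.basis.coord.symm.injective.eq_iff, LinearEquiv.symm_apply_apply]
      exact hv
    rw [← hcv] at hbδ
    obtain ⟨a, -, rfl⟩ := Finset.mem_image.mp (Finsupp.mapDomain_support hbδ)
    exact P.proj_proj i a.2
  have hsum : c = ∑ b, ∑ k ∈ Finset.range N, Finsupp.single (b, P.g i ^ k) (c (b, 1)) := by
    ext ⟨b, δ⟩
    simp only [Finsupp.coe_finsetSum, Finset.sum_apply]
    by_cases hδ : ∃ k ∈ Finset.range N, P.g i ^ k = δ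
    · obtain ⟨k, hk, rfl⟩ := hδ
      rw [Finset.sum_eq_single b (fun b' _ hb' => Finset.sum_eq_zero fun k' _ =>
        Finsupp.single_eq_of_ne fun e => hb' (Prod.ext_iff.mp e).1.symm) (by simp),
        Finset.sum_eq_single k (fun k' hk' hne => Finsupp.single_eq_of_ne fun e => hne
          (pow_injOn_Iio_orderOf (x := P.g i) (by simpa [P.order i] using hk')
            (by simpa [P.order i] using hk) (Prod.ext_iff.mp e).2.symm)) (fun h => absurd hk h),
        Finsupp.single_eq_same, hpow]
    · rw [Finset.sum_eq_zero fun b' _ => Finset.sum_eq_zero fun k hk =>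
        Finsupp.single_eq_of_ne fun e => hδ ⟨k, hk, (Prod.ext_iff.mp e).2.symm⟩]
      by_contra hne
      obtain ⟨k, hk⟩ := P.proj_pow i δ
      refine hδ ⟨k % N, Finset.mem_range.mpr (Nat.mod_lt _ P.pos), ?_⟩
      have hmod := (pow_mod_orderOf (P.g i) k).trans hk.symm
      rw [show k % orderOf (P.g i) = k % N by rw [P.order i]] at hmod
      rw [hmod]
      exact hsupp (b, δ) (Finsupp.mem_support_iff.mpr hne)
  refine ⟨∑ b, c (b, 1) • P.basis.basis b, ?_⟩
  rw [← P.basis.coord.symm_apply_apply v, ← hc]
  conv_lhs => rw [hsum]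
  simp only [map_sum, DiaBasis.coord_symm_single, actDia_apply]
  rw [Finset.smul_sum]
  refine Finset.sum_congr rfl fun b _ => ?_
  rw [Finset.sum_smul]
  exact Finset.sum_congr rfl fun k _ => by rw [map_pow, smul_comm]

/-- A fixed vector of the `i`-th part is small. -/
theorem mem_of_fixed (hN : (N : A) ∈ maximalIdeal A) (i : Fin m) {v : M} (hv : P.part i v = v)
    (hy : P.y i • v = 0) : v ∈ maximalIdeal A • (⊤ : Submodule A M) := by
  obtain ⟨w, rfl⟩ := P.eq_sum_smul_of_fixed i hv hy
  refine Submodule.smul_mem_smul ?_ Submodule.mem_top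
  have h : ∑ k ∈ Finset.range N, (dA (P.g i) ^ k - 1) ∈ maximalIdeal A :=
    Ideal.sum_mem _ fun k _ => by
      rw [← map_pow]
      exact dA_pow_sub_one_mem _ _ (P.sub_one_mem i) k
  simp only [Finset.sum_sub_distrib, Finset.sum_const, Finset.card_range, nsmul_one] at h
  simpa using add_mem h hN

theorem y_mem (i : Fin m) : P.y i ∈ maximalIdeal A := P.sub_one_mem i

/-- Elements of the other parts are small. -/
theorem others_le (i : Fin m) : P.others i ≤ maximalIdeal A := by
  rw [others, Ideal.span_le]
  rintro _ ⟨j, -, rfl⟩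
  exact P.y_mem j

theorem part_mem_iff (i : Fin m) (x : M) :
    P.part i x ∈ maximalIdeal A • (⊤ : Submodule A M) ↔
      x ∈ maximalIdeal A • (⊤ : Submodule A M) := by
  have h := Submodule.smul_mono_left (N := (⊤ : Submodule A M)) (P.others_le i) (P.sub_part_mem i x)
  exact ⟨fun hp => by simpa using add_mem h hp, fun hx => by simpa using sub_mem hx h⟩

theorem mem_of_y_smul_part [Module.IsTorsionFree O M] [IsDomain O] [CharZero O]
    (hN : (N : A) ∈ maximalIdeal A) (i : Fin m) {x : M}
    (h : P.y i • P.y i • P.part i x = 0) : x ∈ maximalIdeal A • (⊤ : Submodule A M) :=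
  (P.part_mem_iff i x).mp (P.mem_of_fixed hN i (P.part_part i x) (P.y_smul_eq_zero i h))

theorem exists_eq_sum (i : Fin m) (x : M) : ∃ w : Fin m → M, P.z i • x = ∑ j, P.y j • w j := by
  have h : ∀ v ∈ Ideal.span (Set.range P.y) • (⊤ : Submodule A M),
      ∃ w : Fin m → M, v = ∑ j, P.y j • w j := fun v hv => by
    refine Submodule.smul_induction_on hv (fun a ha w _ => ?_) ?_
    · obtain ⟨c, rfl⟩ := (Ideal.mem_span_range_iff_exists_fun).mp ha
      refine ⟨fun j => c j • w, ?_⟩
      rw [Finset.sum_smul]
      exact Finset.sum_congr rfl fun j _ => by rw [mul_comm, mul_smul]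
    · rintro u v ⟨w, rfl⟩ ⟨w', rfl⟩
      exact ⟨w + w', by simp [smul_add, Finset.sum_add_distrib]⟩
  exact h _ (P.small i x)

omit [IsLocalRing A] in
theorem exists_one_add_pow_eq (z : A) (k : ℕ) :
    ∃ c : A, (1 + z) ^ k = 1 + (k : A) * z + c * z ^ 2 := by
  induction k with
  | zero => exact ⟨0, by simp⟩
  | succ k ih =>
    obtain ⟨c, hc⟩ := ih
    exact ⟨c + (k : A) + c * z, by rw [pow_succ, hc, Nat.cast_succ]; ring⟩

/-- The unit `(1 + z l) / g l`. -/
def unitFactor (l : Fin m) : A := dA (P.g l)⁻¹ * (1 + P.z l)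

theorem z_sq (l : Fin m) : P.z l ^ 2 = P.y l * P.y l * P.unitFactor l := by
  calc P.z l ^ 2 = dA (P.g l)⁻¹ * (dA (P.g l) * P.z l ^ 2) := by
        rw [← mul_assoc, ← map_mul, inv_mul_cancel, map_one, one_mul]
    _ = _ := by rw [P.rel l, y, unitFactor]; ring

theorem unitFactor_sub_one_mem (l : Fin m) : P.unitFactor l - 1 ∈ maximalIdeal A := by
  have h : dA (P.g l)⁻¹ * dA (P.g l) = 1 := by rw [← map_mul, inv_mul_cancel, map_one]
  rw [show P.unitFactor l - 1 = dA (P.g l)⁻¹ * (P.z l - (dA (P.g l) - 1)) by
    rw [unitFactor]; linear_combination h]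
  exact Ideal.mul_mem_left _ _ (sub_mem (P.z_mem l) (P.sub_one_mem l))

/-- `z l` is zero on the other parts. -/
theorem part_z_smul [Module.IsTorsionFree O M] [IsDomain O] [CharZero O] {i l : Fin m} (hl : l ≠ i)
    (x : M) : P.part i (P.z l • x) = 0 := by
  obtain ⟨c, hc⟩ := exists_one_add_pow_eq (P.z l) N
  rw [P.z_pow l, P.z_sq l] at hc
  have h1 : (N : A) • P.z l • x = -(P.y l • (c * P.y l * P.unitFactor l) • x) := by
    rw [smul_smul, smul_smul, ← neg_smul]
    congr 1
    linear_combination -hc
  have h2 : (N : O) • P.part i (P.z l • x) = 0 := by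
    rw [← map_smul, ← algebraMap_smul A (N : O), map_natCast, h1, map_neg, part_y_smul, if_neg hl,
      neg_zero]
  exact ((smul_eq_zero (R := O)).mp h2).resolve_left (Nat.cast_ne_zero.mpr P.pos.ne')

theorem y_smul_mem (j : Fin m) {w : M} (hw : w ∈ maximalIdeal A • (⊤ : Submodule A M)) :
    P.y j • w ∈ maximalIdeal A • (Ideal.span (Set.range P.y) • (⊤ : Submodule A M)) := by
  have hy : P.y j ∈ Ideal.span (Set.range P.y) := Ideal.subset_span ⟨j, rfl⟩
  refine Submodule.smul_induction_on hw (fun a ha v _ => ?_) fun u v hu hv => ?_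
  · have hv : P.y j • v ∈ Ideal.span (Set.range P.y) • (⊤ : Submodule A M) :=
      Submodule.smul_mem_smul hy Submodule.mem_top
    have h := Submodule.smul_mem_smul ha hv
    rwa [smul_comm a (P.y j) v] at h
  · rw [smul_add]; exact add_mem hu hv

set_option maxHeartbeats 800000 in
/-- **The parameters generate the augmentation submodule.** -/
theorem z_smul_top [Module.IsTorsionFree O M] [IsDomain O] [CharZero O] [Module.Finite A M] :
    Ideal.span (Set.range P.z) • (⊤ : Submodule A M) =
      Ideal.span (Set.range fun j => dA (P.g j) - 1) • (⊤ : Submodule A M) := by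
  classical
  change _ = Ideal.span (Set.range P.y) • (⊤ : Submodule A M)
  refine le_antisymm ?_ ?_
  · rw [Submodule.smul_le]
    intro a ha x _
    induction ha using Submodule.span_induction generalizing x with
    | mem a ha => obtain ⟨i, rfl⟩ := ha; exact P.small i x
    | zero => rw [zero_smul]; exact zero_mem _
    | add a b _ _ ha hb => rw [add_smul]; exact add_mem (ha x Submodule.mem_top) (hb x Submodule.mem_top)
    | smul c a _ ha => rw [smul_eq_mul, mul_smul]; exact Submodule.smul_mem _ _ (ha x Submodule.mem_top)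
  rcases P.natCast_mem with hN | hN
  · have hy : ∀ j, P.y j = 0 := fun j => by
      rw [y, orderOf_eq_one_iff.mp ((P.order j).trans hN), map_one, sub_self]
    rw [show Ideal.span (Set.range P.y) = ⊥ from
      Ideal.span_eq_bot.mpr (Set.forall_mem_range.mpr hy), Submodule.bot_smul]
    exact bot_le
  set Y := Ideal.span (Set.range P.y) • (⊤ : Submodule A M) with hY
  have hkey : ∀ i x, P.y i • x ∈ Ideal.span (Set.range P.z) • (⊤ : Submodule A M) ⊔
      maximalIdeal A • Y := by
    intro i x
    obtain ⟨w, hw⟩ := P.exists_eq_sum i x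
    obtain ⟨v, hv⟩ := P.exists_eq_sum i (w i)
    have hpart : ∀ (j : Fin m) (f : Fin m → M),
        P.part j (∑ l, P.y l • f l) = P.y j • P.part j (f j) := fun j f => by
      rw [map_sum, Finset.sum_eq_single j (fun l _ hl => by rw [part_y_smul, if_neg hl]) (by simp),
        part_y_smul, if_pos rfl]
    have hrest : P.z i • w i - P.y i • v i ∈ maximalIdeal A • Y := by
      rw [hv, ← Finset.add_sum_erase _ _ (Finset.mem_univ i), add_sub_cancel_left]
      refine Submodule.sum_mem _ fun j hj => P.y_smul_mem j (P.mem_of_y_smul_part hN j ?_)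
      rw [← hpart, ← hv, P.part_z_smul (Finset.mem_erase.mp hj).1.symm, smul_zero]
    have hxv : x - v i ∈ maximalIdeal A • (⊤ : Submodule A M) := by
      have h : P.unitFactor i • x - v i ∈ maximalIdeal A • (⊤ : Submodule A M) := by
        refine P.mem_of_y_smul_part hN i ?_
        have h1 : P.part i (P.z i • P.z i • x) = P.y i • P.y i • P.part i (P.unitFactor i • x) := by
          rw [smul_smul, ← pow_two, P.z_sq, mul_smul, mul_smul, part_y_smul, if_pos rfl,
            part_y_smul, if_pos rfl]
        have h2 : P.part i (P.z i • P.z i • x) = P.y i • P.y i • P.part i (v i) := by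
          rw [hw, Finset.smul_sum]
          simp only [smul_comm (P.z i)]
          rw [hpart, hv, hpart]
        rw [map_sub, smul_sub, smul_sub, ← h1, h2, sub_self]
      rw [show x - v i = (P.unitFactor i • x - v i) - (P.unitFactor i - 1) • x by
        rw [sub_smul, one_smul]; abel]
      exact sub_mem h (Submodule.smul_mem_smul (P.unitFactor_sub_one_mem i) Submodule.mem_top)
    rw [show P.y i • x = P.z i • w i + (P.y i • (x - v i) - (P.z i • w i - P.y i • v i)) by
      rw [smul_sub]; abel]
    exact add_mem (Submodule.mem_sup_left (Submodule.smul_mem_smul (Ideal.subset_span ⟨i, rfl⟩)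
      Submodule.mem_top)) (Submodule.mem_sup_right (sub_mem (P.y_smul_mem i hxv) hrest))
  refine Submodule.le_of_le_smul_of_le_jacobson_bot
    (Submodule.FG.smul (Submodule.fg_span (Set.finite_range _)) Module.Finite.fg_top)
    (maximalIdeal_le_jacobson _) ?_
  rw [hY, Submodule.smul_le]
  intro a ha x _
  induction ha using Submodule.span_induction generalizing x with
  | mem a ha => obtain ⟨i, rfl⟩ := ha; exact hkey i x
  | zero => rw [zero_smul]; exact zero_mem _
  | add a b _ _ ha hb => rw [add_smul]; exact add_mem (ha x Submodule.mem_top) (hb x Submodule.mem_top)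
  | smul c a _ ha => rw [smul_eq_mul, mul_smul]; exact Submodule.smul_mem _ _ (ha x Submodule.mem_top)

end TameParams

end Fermat.Agent.RT.Lifting
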