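import Fermat.Agent.RT.Lifting.Minimal.CondPoints
import Fermat.Agent.RT.Lifting.Minimal.LiftData
import Fermat.Agent.RT.Lifting.Minimal.LevelPsi
import Fermat.Agent.RT.Assembly.Places
import Fermat.Agent.EC.FrobTrace.LinearAlgebra

/-!
# The lift over the Hecke algebra of a Taylor–Wiles level
-/

set_option autoImplicit false
set_option linter.style.haveILetI false
set_option linter.unusedSectionVars false

noncomputable section

namespace Fermat.Agent.RT.Lifting

open IsLocalRing Module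
open Fermat.Agent.Deform Fermat.Agent.Arith Fermat.Agent.RT.Assembly Fermat.Agent.CFT.Tangent
open Fermat.Agent.GaloisReps (HeckeGaloisModel CongruenceProperty)
open Fermat.Agent.NewformLocal (UnipotentAt)

variable {O : Type} [CommRing O] [IsDomain O] [IsDiscreteValuationRing O]
  [IsAdicComplete (maximalIdeal O) O] [Finite (ResidueField O)]
  {p : ℕ} [Fact p.Prime] [CharP (ResidueField O) p] {W : Rigid O}
  {ρbar : ResidualGaloisRep (ResidueField O)} {bb : Basis (Fin 2) (ResidueField O) ρbar.V}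
  {S : Finset ℕ} {abar : ℕ → ResidueField O} {N₀ : ℕ}

omit [Finite (ResidueField O)] [Fact p.Prime] in
theorem trace_rb_eq (hd : IsResidualDatum p W ρbar bb S abar N₀) (σ : Gal) :
    (W.rb σ).trace = LinearMap.trace (ResidueField O) ρbar.V (ρbar.ρ σ) := by
  rw [hd.rb_eq]
  exact (LinearMap.trace_eq_matrix_trace (ResidueField O) bb _).symm

omit [Finite (ResidueField O)] [Fact p.Prime] [CharP (ResidueField O) p] in
theorem det_rb_eq (hd : IsResidualDatum p W ρbar bb S abar N₀) (σ : Gal) :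
    (W.rb σ).det = LinearMap.det (ρbar.ρ σ) := by
  rw [hd.rb_eq]
  exact LinearMap.det_toMatrix bb _

omit [Finite (ResidueField O)] in
theorem det_residual_frobenius (hd : IsResidualDatum p W ρbar bb S abar N₀) {ℓ : ℕ}
    (hℓ : ℓ.Prime) (hℓp : ℓ ≠ p) {A : ValuationSubring QBar} (hA : A.LiesOverPrime ℓ) {σ : Gal}
    (hσ : A.IsFrobeniusAt σ ℓ) : LinearMap.det (ρbar.ρ σ) = (ℓ : ResidueField O) := by
  have h := hd.det.2 1 σ ℓ fun μ hμ => GaloisReps.frobenius_apply_root hA hℓ hσ hμ fun h =>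
    hℓp ((Nat.prime_dvd_prime_iff_eq hℓ Fact.out).mp (hℓ.dvd_of_dvd_pow h))
  rw [pow_one, CharP.cast_eq_zero (ResidueField O) p, Ideal.span_singleton_eq_bot.mpr rfl,
    Ideal.mem_bot, sub_eq_zero] at h
  exact h

theorem hasCharpolys (hd : IsResidualDatum p W ρbar bb S abar N₀) {S' : Finset ℕ} (hS : S ⊆ S') :
    Glue.HasCharpolys S' abar ρbar := fun ℓ hℓ hℓS A hA s hs => by
  rw [EC.FrobTrace.charpoly_of_finrank_eq_two ρbar.finrank_eq, ← trace_rb_eq hd,
    hd.trace_frobenius ℓ hℓ (fun h => hℓS (hS h)) A hA s hs,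
    det_residual_frobenius hd hℓ (fun (e : ℓ = p) => hℓS (hS (e ▸ hd.mem_S_p))) hA hs]

omit [Finite (ResidueField O)] [Fact p.Prime] [CharP (ResidueField O) p] in
theorem notMem_of_isTWSet {m n : ℕ} {qv : Fin m → ℕ} (hd : IsResidualDatum p W ρbar bb S abar N₀)
    (hQ : IsTWSet p W.rb S n qv) {q : ℕ} (hq : q.Prime) (hqN : q ∣ N₀) (i : Fin m) : qv i ≠ q :=
  fun h => hQ.notMem i (h ▸ hd.mem_S_level q hq hqN)

variable [CharZero O]

set_option maxHeartbeats 1600000 in
set_option synthInstance.maxHeartbeats 400000 in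
/-- **The lift over the Hecke algebra of the level.** -/
theorem exists_levelRep (hd : IsResidualDatum p W ρbar bb S abar N₀) {C : CondAt O}
    {good : ℕ → Prop} (hC : IsPairCond ρbar C) (hpt : PointCond p ρbar C good)
    (hgood : ∀ M : ℕ, ¬ p ^ 2 ∣ M → (p ∣ M → p ∣ N₀) → good M)
    (D : ∀ (M : ℕ) [NeZero M], HeckeGaloisModel M p)
    (hU : ∀ (M : ℕ) [NeZero M] (v : ℕ), v.Prime → v ≠ p → v ∣ M → ¬ v ^ 2 ∣ M → UnipotentAt (D M) v)
    (hTI : ∀ (q R M : ℕ) [Fact q.Prime] [NeZero R] [NeZero M]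
      (g : CuspForm (CongruenceSubgroup.Gamma0 M) 2), InertiaTW.TraceInertia p q R M g)
    (hcong : ∀ (N : ℕ) [NeZero N], CongruenceProperty N p)
    {m n : ℕ} {qv : Fin m → ℕ} (hQ : IsTWSet p W.rb S n qv)
    {L : ℕ} [NeZero L] (hL : L = N₀ * ∏ i, qv i) {ψ : (ZMod L)ˣ →* TWGroup p m n}
    (hQL : ∀ i, qv i ∣ L) {σQ : Fin m → Gal} {aQ : ∀ i, (ZMod (qv i))ˣ}
    {PQ : Fin m → ValuationSubring QBar} (hPQ : ∀ i, (PQ i).LiesOverPrime (qv i))
    (hσQ : ∀ i, σQ i ∈ (PQ i).inertiaSubgroupIn ℚ)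
    (hσQ' : ∀ i, ∀ μ : QBar, μ ^ qv i = 1 → σQ i μ = μ ^ (aQ i : ZMod (qv i)).val)
    (hψQ : ∀ (i : Fin m) (u : (ZMod L)ˣ), ((u : ZMod L).cast : ZMod (L / qv i)) = 1 →
      ZMod.unitsMap (hQL i) u = aQ i → ψ u ^ halfInvExp (TWGroup p m n) = twGen p n i)
    (hψ1 : ∀ w : ℕ, (∀ i, qv i ≠ w) → w.Prime → w ∣ L → ∀ u : (ZMod L)ˣ,
      ((u : ZMod L).cast : ZMod (L / w)) = 1 → ψ u = 1)
    (H : HeckeModule L ψ (S ∪ Finset.univ.image qv) abar) (hd0 : 0 < H.d) :
    ∃ (E : Type) (_ : CommRing E) (_ : IsLocalRing E) (_ : Algebra O E) (_ : Module.Finite O E)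
      (hE : IsResAlg O E) (j : E →ₐ[O] H.algebra) (rE : Gal →* M2 E),
      Function.Injective j ∧
      IsCondLift p W C (N₀.primeFactors ∪ Finset.univ.image qv) (N₀.primeFactors.erase p) hE rE ∧
      (∀ (ℓ : ℕ) (hℓ : ℓ.Prime) (hℓS : ℓ ∉ S ∪ Finset.univ.image qv) (u : (ZMod L)ˣ),
        (u : ZMod L) = ℓ → ∀ A : ValuationSubring QBar, A.LiesOverPrime ℓ → ∀ σ : Gal,
          A.IsFrobeniusAt σ ℓ → j (rE σ).trace =
            Glue.diaA H (ψ u) ^ halfInvExp (TWGroup p m n) * Glue.TA H hℓ hℓS) ∧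
      ∀ i, j (rE (σQ i)).trace =
        Glue.diaA H (twGen p n i) + Glue.diaA H (twGen p n i)⁻¹ := by
  have hpp : p.Prime := Fact.out
  have hp := hd.p_mem
  haveI : ∀ i, Fact (qv i).Prime := fun i => ⟨hQ.prime i⟩
  have hdvdL : ∀ q : ℕ, q.Prime → q ∣ L → q ∣ N₀ ∨ ∃ i, qv i = q := fun q hq h => by
    rw [hL] at h
    rcases hq.dvd_mul.mp h with h | h
    · exact Or.inl h
    · obtain ⟨i, -, hi⟩ := (Prime.dvd_finsetProd_iff hq.prime _).mp h
      exact Or.inr ⟨i, ((Nat.prime_dvd_prime_iff_eq hq (hQ.prime i)).mp hi).symm⟩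
  have hS : ∀ q : ℕ, q.Prime → q ∣ L → q ∈ (S ∪ Finset.univ.image qv) := fun q hq hqL => by
    rcases hdvdL q hq hqL with h | ⟨i, hi⟩
    · exact Finset.mem_union_left _ (hd.mem_S_level q hq h)
    · exact Finset.mem_union_right _ (Finset.mem_image.mpr ⟨i, Finset.mem_univ i, hi⟩)
  have hLsq : Squarefree L := by
    rw [hL]
    refine (Nat.squarefree_mul (Nat.Coprime.prod_right fun i _ => ?_)).mpr ⟨hd.squarefree, ?_⟩
    · exact ((hQ.prime i).coprime_iff_not_dvd.mpr fun h =>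
        hQ.notMem i (hd.mem_S_level _ (hQ.prime i) h)).symm
    · refine Finset.squarefree_prod_of_pairwise_isCoprime (fun i _ j _ hij => ?_)
        fun i _ => (hQ.prime i).squarefree
      exact Nat.coprime_iff_isRelPrime.mp
        ((Nat.coprime_primes (hQ.prime i) (hQ.prime j)).mpr fun h => hij (hQ.injective h))
  have hpS : p ∈ (S ∪ Finset.univ.image qv) := Finset.mem_union_left _ hd.mem_S_p
  have hbar := hasCharpolys hd (Finset.subset_union_left (s₁ := S) (s₂ := Finset.univ.image qv))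
  have hΔ := isPGroup_levelGroup (V := Empty) (r := m) p n
  haveI := Glue.isLocalRing_algebra H hp hΔ hd0
  haveI := Glue.isLocalHom_algebraMap H hp hΔ
  haveI := Glue.isAdicComplete_algebra H
  have hA : IsResAlg O H.algebra :=
    ⟨inferInstance, Glue.residue_algebraMap_surjective H hp hΔ⟩
  obtain ⟨pt, G, hGres, hGdet, hGunr, hGfrob⟩ :=
    Glue.exists_rep (H := H) hp hΔ hd.p_ne_two hpS hS hd.irreducible hbar D
  obtain ⟨ru, hrc, hl, hn, hequiv, hchar, htr, hdet⟩ := exists_normalised hd.rb_eq hA G.rep hGres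
  have h2 : (2 : ResidueField O) ≠ 0 :=
    Ring.two_ne_zero (by rw [ringChar.eq (ResidueField O) p]; exact hd.p_ne_two)
  have hne : ∃ σ, W.rb σ 0 1 ≠ 0 := by
    by_contra hcon
    push Not at hcon
    have hle : Submodule.span (ResidueField O)
        (Set.range fun σ => LinearMap.toMatrixAlgEquiv bb (ρbar.ρ σ)) ≤
        LinearMap.ker (Matrix.entryLinearMap (ResidueField O) (ResidueField O)
          (0 : Fin 2) (1 : Fin 2)) := by
      rw [Submodule.span_le]
      rintro _ ⟨σ, rfl⟩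
      have h1 := hcon σ
      rw [hd.rb_eq] at h1
      exact h1
    rw [span_matrix_eq_top ρbar hd.irreducible bb] at hle
    have h1 : (Matrix.single (0 : Fin 2) (1 : Fin 2) (1 : ResidueField O)) 0 1 = 0 :=
      hle (Submodule.mem_top (x := Matrix.single (0 : Fin 2) (1 : Fin 2) (1 : ResidueField O)))
    simp at h1
  set E := Algebra.adjoin O (entries ru) with hE
  have hmem : ∀ σ i j, ru σ i j ∈ E := fun σ i j => Algebra.subset_adjoin ⟨(σ, i, j), rfl⟩
  haveI : IsLocalRing E := isLocalRing_subalgebra E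
  haveI := finite_subalgebra E
  have hEA := isResAlg_subalgebra hA E
  haveI := hEA.isLocalHom
  set rE := corestrict E ru hmem with hrE
  have hcE : IsCont rE := isCont_corestrict hA E hrc hmem
  have hval : IsLocalHom (E.val : E →+* H.algebra) := isLocalHom_subalgebra_val E
  have hdetE : (toRep rE hcE).DetIsCyclotomic p := by
    refine detIsCyclotomic_of_injective hp E.val Subtype.val_injective hval
      ⟨hGdet.1, fun k σ a ha => ?_⟩ fun σ => ?_
    · rw [det_baseChangeAlong, det_toRep, RingHom.map_det]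
      show (ru σ).det - _ ∈ _
      rw [hdet]
      exact hGdet.2 k σ a ha
    · rw [det_toRep]
      obtain ⟨o, ho⟩ := det_mem_range hp hGdet σ
      refine ⟨o, Subtype.ext ?_⟩
      rw [Subalgebra.coe_algebraMap, ho, ← hdet]
      exact ((E.val : E →+* H.algebra).map_det (rE σ)).symm
  have htrE : ∀ σ, E.val (rE σ).trace = (ru σ).trace := fun σ => AddMonoidHom.map_trace E.val (rE σ)
  refine ⟨E, inferInstance, inferInstance, inferInstance, inferInstance, hEA, E.val, rE,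
    Subtype.val_injective, ⟨hcE, lifts_corestrict E hl hmem, isNormal_corestrict E hn hmem, hdetE,
      ?_, fun ℓ hℓ hℓp hℓT A hA' τ hτ => ?_, fun q hq hqp A hA' τ hτ => ?_⟩,
    fun ℓ hℓ hℓS u hu A hA' σ hσ => ?_, fun i => ?_⟩
  · refine cond_entries G hd.rb_eq hC hpt (fun θ => ?_) h2 hne hA hl hn
      (fun σ => (htr σ).trans (G.trace_rep σ)) hcE hdetE
    have hdvd : ∀ (q : ℕ), q.Prime → q ∣ (pt θ).M → q ∣ L := fun q hq h =>
      hq.dvd_of_dvd_pow (h.trans (pt θ).dvd)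
    have hpN : p ∣ (pt θ).M → p ∣ N₀ := fun h =>
      (hdvdL p hpp (hdvd p hpp h)).resolve_right fun ⟨i, hi⟩ => hQ.ne_p i hi
    refine hgood _ (fun h => ?_) hpN
    have hpM : p ∣ (pt θ).M := (dvd_pow_self p two_ne_zero).trans h
    refine (pt θ).sq_not_dvd hpp (hdvd p hpp hpM) (fun u hu => ?_) h
    rw [hψ1 p (fun i => hQ.ne_p i) hpp (hdvd p hpp hpM) u hu, map_one, map_one]
  · have hnd : ¬ ℓ ∣ L * p := fun h => by
      rcases hℓ.dvd_mul.mp h with h | h
      · rcases hdvdL ℓ hℓ h with h | ⟨i, hi⟩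
        · exact hℓT (Finset.mem_union_left _
            (Nat.mem_primeFactors.mpr ⟨hℓ, h, hd.squarefree.ne_zero⟩))
        · exact hℓT (Finset.mem_union_right _ (Finset.mem_image.mpr ⟨i, Finset.mem_univ i, hi⟩))
      · exact hℓp ((Nat.prime_dvd_prime_iff_eq hℓ hpp).mp h)
    have h1 := matrix_eq_one_of_isEquiv hequiv (hGunr ℓ hℓ hnd A hA' τ hτ)
    refine Matrix.ext fun i j => Subtype.ext ?_
    rw [show ((rE τ i j : E) : H.algebra) = ru τ i j from rfl, h1, Matrix.one_apply,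
      Matrix.one_apply]
    split_ifs <;> simp
  · rw [Finset.mem_erase, Nat.mem_primeFactors] at hq
    obtain ⟨-, hqprime, hqN, -⟩ := hq
    have hqL : q ∣ L := hL ▸ dvd_mul_of_dvd_left hqN _
    have hcp := hchar τ
    rw [G.isUnipotentOnInertiaAt hqprime hqL hqp
      (hψ1 q (notMem_of_isTWSet hd hQ hqprime hqN) hqprime hqL)
      (fun M _ _ hqM hq2 => hU M q hqprime hqp hqM hq2) A hA' τ hτ] at hcp
    refine Subtype.val_injective ?_
    show E.val (rE τ).trace = ((2 : E) : H.algebra)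
    rw [htrE, trace_eq_of_charpoly (d := 1) (hcp.trans (by rw [map_one, map_ofNat]; ring :
      _ = Polynomial.X ^ 2 - Polynomial.C (2 : H.algebra) * Polynomial.X + Polynomial.C 1))]
    exact (map_ofNat E.val 2).symm
  · rw [htrE]
    exact trace_eq_of_charpoly ((hchar σ).trans (hGfrob ℓ hℓ hℓS u hu A hA' σ hσ))
  · have hcop : (qv i).Coprime (L / qv i) := (hQ.prime i).coprime_iff_not_dvd.mpr fun h =>
      (hQ.prime i).not_isUnit (hLsq _ ((Nat.dvd_div_iff_mul_dvd (hQL i)).mp h))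
    obtain ⟨u, hu, hua⟩ := exists_unit_crt (hQL i) hcop (aQ i)
    have hua' : ((u : ZMod L).cast : ZMod (qv i)) = ((aQ i : ZMod (qv i)).val : ℕ) := by
      rw [ZMod.natCast_zmod_val, ← hua, ZMod.unitsMap_val]
    have hE := G.twistedInertia (ρbar := ρbar) hp hΔ hd.p_ne_two hpS hLsq (hQL i) (hQ.ne_p i)
      (fun R M _ _ g => hTI (qv i) R M g)
      (by
        haveI : NeZero (qv i ^ 2 * (L / qv i) ^ 2) := ⟨by
          rw [← mul_pow, Nat.mul_div_cancel' (hQL i)]; exact pow_ne_zero 2 (NeZero.ne L)⟩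
        exact hcong (qv i ^ 2 * (L / qv i) ^ 2))
      (fun M _ _ hwM hw2 => hU M (qv i) (hQ.prime i) (hQ.ne_p i) hwM hw2) hGres
      (fun A hA' τ hτ => by
        rw [hd.unramified (qv i) (hQ.prime i) (hQ.ne_p i)
          (fun h => hQ.notMem i (hd.mem_S_level _ (hQ.prime i) h)) A hA' τ hτ,
          LinearMap.trace_one, ρbar.finrank_eq]
        norm_num)
    rw [htrE]
    refine trace_eq_add_of_charpoly ((hchar _).trans ?_)
    rw [G.charpoly_inertia (hQ.prime i) (hQ.ne_p i) hE (hPQ i) (hσQ i) (hσQ' i) u hu hua',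
      hψQ i u hu hua]

end Fermat.Agent.RT.Lifting
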