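import Fermat.Agent.RT.Lifting.Minimal.RTHom
import Fermat.Agent.RT.Lifting.Minimal.Eigen
import Fermat.Agent.RT.Lifting.Transfer

/-!
# The congruence bound and the bound on lifts from a congruence modulus at minimal level
-/

set_option autoImplicit false
set_option linter.style.haveILetI false
set_option linter.unusedSectionVars false

noncomputable section

namespace Fermat.Agent.RT.Lifting

open IsLocalRing Module MvPolynomial
open Fermat.Agent.Deform Fermat.Agent.Arith Fermat.Agent.RT.GammaH Fermat.Agent.RT.Assembly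
open Fermat.Agent.CFT.Tangent

variable {O : Type} [CommRing O] [IsDomain O] [IsDiscreteValuationRing O]
  [IsAdicComplete (maximalIdeal O) O] [Finite (ResidueField O)] [CharZero O]
  {p : ℕ} {W : Rigid O} {S : Finset ℕ} {N₀ : ℕ} [NeZero N₀]

set_option maxHeartbeats 1600000 in
set_option synthInstance.maxHeartbeats 400000 in
/-- **The congruence bound** from a congruence modulus read on the free module. -/
theorem congruenceBound_of_pairModulus {e : OpRing O N₀ S} [Nontrivial (MinMod S N₀ e)]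
    (Bs : MinimalBase p W S N₀ (MinMod S N₀ e) (minOp S N₀ e)) {r₀ : Gal →* M2 O} {k : ℕ}
    [NeZero k] [Module (pairAlg O Bs.rep r₀) (Fin k → MinMod S N₀ e)]
    (hsmul : ∀ (r : pairAlg O Bs.rep r₀) (x : Fin k → MinMod S N₀ e) (j : Fin k),
      (r • x) j = Bs.act (pairFst O Bs.rep r₀ r) (x j))
    (hbij : Function.Bijective (pairFst O Bs.rep r₀)) (a : ℕ → O)
    (ha : ∀ i r, pairFst O Bs.rep r₀ r = Bs.t i → pairSnd O Bs.rep r₀ r = a i.1) (η : O)
    (hη : ∀ (u : Fin k → MinMod S N₀ e) (φ : (Fin k → MinMod S N₀ e) →ₗ[O] O),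
      (∀ r : pairAlg O Bs.rep r₀, r • u = pairSnd O Bs.rep r₀ r • u) →
      (∀ (r : pairAlg O Bs.rep r₀) x, φ (r • x) = pairSnd O Bs.rep r₀ r * φ x) → η ∣ φ u) :
    CongruenceBound S N₀ a η := by
  classical
  haveI := finite_pairAlg (O := O) (rA := Bs.rep) (rB := r₀)
  haveI : IsReduced (pairAlg O Bs.rep r₀) :=
    isReduced_of_injective (pairFst O Bs.rep r₀) hbij.1
  -- an eigen element
  obtain ⟨c, hc, hceig⟩ := exists_ne_zero_eigen (pairSnd O Bs.rep r₀)
  obtain ⟨w, hw⟩ : ∃ w, Bs.act (pairFst O Bs.rep r₀ c) w ≠ 0 := by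
    by_contra! h
    refine hc (hbij.1 ?_)
    rw [map_zero]
    exact Bs.act_injective ((LinearMap.ext h).trans (map_zero Bs.act).symm)
  set V : Submodule O (Classes O S N₀) := (⨅ r : pairAlg O Bs.rep r₀,
    LinearMap.ker (Bs.act (pairFst O Bs.rep r₀ r) -
      pairSnd O Bs.rep r₀ r • (1 : Module.End O (MinMod S N₀ e)))).map
        (localPart O e (Classes O S N₀)).subtype with hV
  have hmemV : ∀ (v : MinMod S N₀ e), (v : Classes O S N₀) ∈ V ↔
      ∀ r, Bs.act (pairFst O Bs.rep r₀ r) v = pairSnd O Bs.rep r₀ r • v := fun v => by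
    rw [hV]
    constructor
    · rintro ⟨v', hv', hvv'⟩
      obtain rfl : v' = v := Subtype.ext hvv'
      intro r
      have h := (Submodule.mem_iInf _).1 hv' r
      rwa [LinearMap.mem_ker, LinearMap.sub_apply, LinearMap.smul_apply, Module.End.one_apply,
        sub_eq_zero] at h
    · intro h
      refine ⟨v, (Submodule.mem_iInf _).2 fun r => ?_, rfl⟩
      rw [LinearMap.mem_ker, LinearMap.sub_apply, LinearMap.smul_apply, Module.End.one_apply,
        sub_eq_zero]
      exact h r
  have hu₁ : ((Bs.act (pairFst O Bs.rep r₀ c) w : MinMod S N₀ e) : Classes O S N₀) ∈ V :=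
    (hmemV _).2 fun r => by
      rw [← Module.End.mul_apply, ← map_mul, ← map_mul, hceig, map_mul, map_mul, AlgHom.commutes,
        AlgHom.commutes, Module.End.mul_apply, Module.algebraMap_end_apply]
  have hsat : ∀ (d : O) (v : Classes O S N₀), d ≠ 0 → d • v ∈ V → v ∈ V := fun d v hd hv => by
    have hv' : d • v ∈ localPart O e (Classes O S N₀) := Submodule.map_subtype_le _ _ hv
    have hvl : v ∈ localPart O e (Classes O S N₀) := by
      rw [mem_localPart] at hv' ⊢
      rw [smul_comm] at hv'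
      exact smul_right_injective _ hd hv'
    refine (hmemV ⟨v, hvl⟩).2 fun r => smul_right_injective _ hd ?_
    show d • Bs.act (pairFst O Bs.rep r₀ r) ⟨v, hvl⟩ = d • pairSnd O Bs.rep r₀ r • ⟨v, hvl⟩
    rw [← map_smul, smul_comm d]
    exact (hmemV (d • ⟨v, hvl⟩)).1 hv r
  obtain ⟨u, huV, hprim, -⟩ := exists_primitive_smul V hsat hu₁
    fun h => hw (Subtype.ext h)
  have hul : u ∈ localPart O e (Classes O S N₀) := Submodule.map_subtype_le _ _ huV
  have hueig : ∀ r, Bs.act (pairFst O Bs.rep r₀ r) ⟨u, hul⟩ =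
      pairSnd O Bs.rep r₀ r • ⟨u, hul⟩ := (hmemV ⟨u, hul⟩).1 huV
  refine ⟨u, mem_eigVec.2 fun i => ?_, hprim, fun φ hφ => ?_⟩
  · obtain ⟨r, hr⟩ := hbij.2 (Bs.t i)
    have h := hueig r
    rw [hr, Bs.act_t, ha i r hr] at h
    exact congrArg Subtype.val h
  -- the functional on the free module
  set E := AlgEquiv.ofBijective (pairFst O Bs.rep r₀) hbij with hE
  have hEsymm : ∀ c', pairFst O Bs.rep r₀ (E.symm c') = c' := fun c' => E.apply_symm_apply c'
  let φ' : MinMod S N₀ e →ₗ[O] O := φ.comp (localPart O e (Classes O S N₀)).subtype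
  have hφ' : ∀ (c' : Bs.T) v, φ' (Bs.act c' v) =
      pairSnd O Bs.rep r₀ (E.symm c') * φ' v := by
    intro c'
    have hc' : c' ∈ Algebra.adjoin O (Set.range Bs.t) := by rw [Bs.adjoin_t]; trivial
    induction hc' using Algebra.adjoin_induction with
    | mem y hy =>
      obtain ⟨i, rfl⟩ := hy
      intro v
      rw [Bs.act_t, ha i _ (hEsymm _)]
      exact hφ i v
    | algebraMap o =>
      intro v
      rw [AlgHom.commutes, AlgEquiv.commutes, AlgHom.commutes, Module.algebraMap_end_apply,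
        map_smul, smul_eq_mul]
      rfl
    | add y z _ _ hy hz =>
      intro v
      rw [map_add, LinearMap.add_apply, map_add φ', hy, hz, map_add, map_add, add_mul]
    | mul y z _ _ hy hz =>
      intro v
      rw [map_mul, Module.End.mul_apply, hy, hz, map_mul, map_mul, mul_assoc]
  have h := hη (Pi.single 0 ⟨u, hul⟩) (φ'.comp (LinearMap.proj 0))
    (fun r => funext fun j => ?_) (fun r x => ?_)
  · simpa [φ'] using h
  · rw [hsmul, Pi.smul_apply]
    rcases eq_or_ne j 0 with rfl | hj
    · rw [Pi.single_eq_same]; exact hueig r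
    · rw [Pi.single_eq_of_ne hj, map_zero, smul_zero]
  · rw [LinearMap.comp_apply, LinearMap.proj_apply, hsmul, hφ',
      show E.symm (pairFst O Bs.rep r₀ r) = r from E.symm_apply_apply r]
    rfl

set_option maxHeartbeats 1600000 in
set_option synthInstance.maxHeartbeats 400000 in
/-- **The bound on lifts** from a bound on derivations of the algebra of the pair. -/
theorem liftBound_of_derBound [Fact p.Prime] (hp : (p : O) ∈ maximalIdeal O)
    {ρbar : ResidualGaloisRep (ResidueField O)} {bb : Basis (Fin 2) (ResidueField O) ρbar.V}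
    (hW : W.rb = matRes ρbar bb) {C : CondAt O} (hC : IsPairCond ρbar C) {M : Type}
    [AddCommGroup M] [Module O M] {op : {ℓ : ℕ // ℓ.Prime ∧ ℓ ∉ S} → Module.End O M}
    (Bs : MinimalBase p W S N₀ M op)
    (hrt : ∀ (B : Type) [CommRing B] [IsLocalRing B] [Algebra O B] [Module.Finite O B]
      (hB : IsResAlg O B) (rB : Gal →* M2 B),
      IsCondLift p W C N₀.primeFactors N₀.primeFactors hB rB → (B →ₐ[O] O) →
      ∃ f : Bs.T →ₐ[O] B, mapM (f : Bs.T →+* B) Bs.rep = rB)
    {hO : IsResAlg O O} {r₀ : Gal →* M2 O}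
    (hr₀ : IsCondLift p W C N₀.primeFactors N₀.primeFactors hO r₀) {η : O}
    (hder : DerBound (pairSnd O Bs.rep r₀) η) :
    LiftBound p W C N₀.primeFactors N₀.primeFactors r₀ η := by
  classical
  intro k _ hA s hs
  set J := O ⧸ maximalIdeal O ^ k
  haveI : Module.Finite O (TrivSqZeroExt O J) := inferInstanceAs (Module.Finite O (O × J))
  have hF : ∀ r : {r // r ∈ s}, ∃ F : pairAlg O Bs.rep r₀ →ₐ[O] TrivSqZeroExt O J,
      mapM (F : pairAlg O Bs.rep r₀ →+* TrivSqZeroExt O J) (pairRep O Bs.rep r₀) = r.1 ∧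
        (TrivSqZeroExt.fstHom O O J).comp F = pairSnd O Bs.rep r₀ := by
    rintro ⟨r, hrs⟩
    obtain ⟨hr, hfst⟩ := hs r hrs
    obtain ⟨B, _, _, _, _, hB, φ, rB, -, hmap, hrB⟩ := exists_condLift hp hr
    haveI := isLocalRing_pairAlg hrB.lifts hr₀.lifts
    haveI := finite_pairAlg (O := O) (rA := rB) (rB := r₀)
    obtain ⟨f, hf⟩ := hrt (pairAlg O rB r₀) (isResAlg_pairAlg hB) (pairRep O rB r₀)
      (hrB.pair hp hW hC hr₀) (pairSnd O rB r₀)
    refine ⟨(φ.comp (pairFst O rB r₀)).comp (f.comp (pairFst O Bs.rep r₀)), ?_, ?_⟩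
    · show mapM _ _ = r
      rw [← hmap]
      refine MonoidHom.ext fun σ => Matrix.ext fun i j => ?_
      show _ = φ (rB σ i j)
      have h := congrFun (congrFun (DFunLike.congr_fun hf σ) i) j
      show φ (pairFst O rB r₀ (f (Bs.rep σ i j))) = _
      rw [show f (Bs.rep σ i j) = pairRep O rB r₀ σ i j from h]
      rfl
    · refine algHom_eq_of_entries adjoin_pairRep ?_
      rw [mapM_pairSnd]
      refine Eq.trans ?_ hfst
      rw [← hmap]
      refine MonoidHom.ext fun σ => Matrix.ext fun i j => ?_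
      have h := congrFun (congrFun (DFunLike.congr_fun hf σ) i) j
      show (φ (pairFst O rB r₀ (f (Bs.rep σ i j)))).fst = (φ (rB σ i j)).fst
      rw [show f (Bs.rep σ i j) = pairRep O rB r₀ σ i j from h]
      rfl
  choose F hFmap hFfst using hF
  let δ : {r // r ∈ s} → (pairAlg O Bs.rep r₀ →ₗ[O] J) := fun r =>
    (TrivSqZeroExt.sndHom O J).comp (F r).toLinearMap
  have hfst' : ∀ r x, (F r x).fst = pairSnd O Bs.rep r₀ x := fun r x =>
    DFunLike.congr_fun (hFfst r) x
  have hinj : Function.Injective δ := fun r r' h => by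
    have hF' : F r = F r' := AlgHom.ext fun x =>
      TrivSqZeroExt.ext (by rw [hfst', hfst']) (LinearMap.congr_fun h x)
    exact Subtype.ext (by rw [← hFmap r, hF', hFmap])
  rw [← Finset.card_attach, ← Finset.card_image_of_injective _ hinj]
  refine hder k _ fun d hd => ?_
  obtain ⟨r, -, rfl⟩ := Finset.mem_image.1 hd
  intro x y
  show (F r (x * y)).snd = _
  rw [map_mul, TrivSqZeroExt.snd_mul, hfst', hfst', op_smul_eq_smul]
  rfl

end Fermat.Agent.RT.Lifting
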