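import Fermat.Agent.RT.Assembly.Entries

/-!
# Two lifts as one lift to the algebra their entries generate

The algebra generated by the entries of a pair of lifts inside the product of the coefficient
algebras is local with the residue field of `O`; a condition closed under pairs holds over it.
-/

set_option autoImplicit false
set_option linter.style.haveILetI false

noncomputable section

namespace Fermat.Agent.RT.Lifting

open IsLocalRing Fermat.Agent.Deform Fermat.Agent.RT.Assembly

variable {O : Type} [CommRing O] [IsDomain O] [IsDiscreteValuationRing O]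

/-- An algebra map between finite local algebras over which the maximal ideal of `O` stays proper
is local. -/
theorem isLocalHom_algHom {A B : Type} [CommRing A] [IsLocalRing A] [Algebra O A]
    [Module.Finite O A] [CommRing B] [IsLocalRing B] [Algebra O B]
    [IsLocalHom (algebraMap O B)] (φ : A →ₐ[O] B) : IsLocalHom (φ : A →+* B) := by
  refine ⟨fun a ha => ?_⟩
  by_contra hna
  obtain ⟨j, hj⟩ := exists_pow_le_map (O := O) (A := A)
  have h1 := Ideal.mem_map_of_mem (φ : A →+* B) (hj (Ideal.pow_mem_pow hna j))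
  rw [Ideal.map_map, show (φ : A →+* B).comp (algebraMap O A) = algebraMap O B from
    φ.comp_algebraMap, map_pow] at h1
  have h2 : (maximalIdeal O).map (algebraMap O B) ≤ maximalIdeal B :=
    Ideal.map_le_iff_le_comap.mpr fun o ho => map_nonunit (algebraMap O B) o ho
  exact (maximalIdeal.isMaximal B).ne_top
    (Ideal.eq_top_of_isUnit_mem _ (h2 h1) (ha.pow j))

variable {A B : Type} [CommRing A] [Algebra O A] [CommRing B] [Algebra O B]

/-- Two matrix representations as one over the product. -/
def pairM (rA : Gal →* M2 A) (rB : Gal →* M2 B) : Gal →* M2 (A × B) where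
  toFun σ := Matrix.of fun i j => (rA σ i j, rB σ i j)
  map_one' := by
    ext i j <;> rcases eq_or_ne i j with rfl | hij <;> simp [*]
  map_mul' σ τ := by
    ext i j <;> simp [Matrix.mul_apply, Fin.sum_univ_two]

variable (O) in
/-- The algebra of the entries of a pair of representations. -/
abbrev pairAlg (rA : Gal →* M2 A) (rB : Gal →* M2 B) : Subalgebra O (A × B) :=
  Algebra.adjoin O (entries (pairM rA rB))

variable {rA : Gal →* M2 A} {rB : Gal →* M2 B}

omit [IsDomain O] [IsDiscreteValuationRing O] in
theorem pairM_mem (σ : Gal) (i j : Fin 2) : pairM rA rB σ i j ∈ pairAlg O rA rB :=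
  Algebra.subset_adjoin ⟨(σ, i, j), rfl⟩

variable (O rA rB) in
/-- The pair of two representations over the algebra of its entries. -/
def pairRep : Gal →* M2 (pairAlg O rA rB) :=
  corestrict (pairAlg O rA rB) (pairM rA rB) pairM_mem

variable (O rA rB) in
/-- The projection to the first factor. -/
def pairFst : pairAlg O rA rB →ₐ[O] A :=
  (AlgHom.fst O A B).comp (pairAlg O rA rB).val

variable (O rA rB) in
/-- The projection to the second factor. -/
def pairSnd : pairAlg O rA rB →ₐ[O] B :=
  (AlgHom.snd O A B).comp (pairAlg O rA rB).val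

omit [IsDomain O] [IsDiscreteValuationRing O] in
theorem pairFst_apply (x : pairAlg O rA rB) : pairFst O rA rB x = (x : A × B).1 := rfl

omit [IsDomain O] [IsDiscreteValuationRing O] in
theorem pairSnd_apply (x : pairAlg O rA rB) : pairSnd O rA rB x = (x : A × B).2 := rfl

omit [IsDomain O] [IsDiscreteValuationRing O] in
theorem pair_eq_zero {x : pairAlg O rA rB} (h1 : pairFst O rA rB x = 0)
    (h2 : pairSnd O rA rB x = 0) : x = 0 := Subtype.ext (Prod.ext h1 h2)

omit [IsDomain O] [IsDiscreteValuationRing O] in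
theorem mapM_pairFst : mapM (pairFst O rA rB : pairAlg O rA rB →+* A) (pairRep O rA rB) = rA := by
  ext σ i j; rfl

omit [IsDomain O] [IsDiscreteValuationRing O] in
theorem mapM_pairSnd : mapM (pairSnd O rA rB : pairAlg O rA rB →+* B) (pairRep O rA rB) = rB := by
  ext σ i j; rfl

theorem adjoin_pairRep : Algebra.adjoin O (entries (pairRep O rA rB)) = ⊤ :=
  adjoin_entries_corestrict (pairM rA rB)

theorem isNormal_pairRep {W : Rigid O} (hA : IsNormal W rA) (hB : IsNormal W rB) :
    IsNormal W (pairRep O rA rB) := by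
  rw [← mapM_pairFst (O := O) (rA := rA) (rB := rB)] at hA
  rw [← mapM_pairSnd (O := O) (rA := rA) (rB := rB)] at hB
  simp only [IsNormal, evalC_map] at hA hB
  exact ⟨Subtype.ext (Prod.ext hA.1 hB.1), Subtype.ext (Prod.ext hA.2.1 hB.2.1),
    Subtype.ext (Prod.ext hA.2.2 hB.2.2)⟩

variable [IsLocalRing A] [Module.Finite O A] [IsLocalRing B] [Module.Finite O B]
  {W : Rigid O} {hA : IsResAlg O A} {hB : IsResAlg O B}

omit [Module.Finite O A] [Module.Finite O B] in
/-- The two augmentations agree on the algebra of entries. -/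
theorem augment_pair_eq (hlA : Lifts W hA rA) (hlB : Lifts W hB rB) {x : A × B}
    (hx : x ∈ pairAlg O rA rB) : augment hA x.1 = augment hB x.2 := by
  have hle : pairAlg O rA rB ≤ AlgHom.equalizer ((augment hA).comp (AlgHom.fst O A B))
      ((augment hB).comp (AlgHom.snd O A B)) := by
    refine Algebra.adjoin_le ?_
    rintro _ ⟨⟨σ, i, j⟩, rfl⟩
    show augment hA (rA σ i j) = augment hB (rB σ i j)
    rw [hlA, hlB]
  exact hle hx

omit [IsLocalRing A] [IsLocalRing B] in
theorem finite_pairAlg : Module.Finite O (pairAlg O rA rB) :=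
  finite_subalgebra _

theorem isLocalRing_pairAlg (hlA : Lifts W hA rA) (hlB : Lifts W hB rB) :
    IsLocalRing (pairAlg O rA rB) := by
  haveI := isLocalHom_subalgebra_val (pairAlg O rA rB)
  have hiff : ∀ x : pairAlg O rA rB, IsUnit x ↔ augment hA (x : A × B).1 ≠ 0 := fun x => by
    rw [← isUnit_map_iff ((pairAlg O rA rB).val : pairAlg O rA rB →+* A × B) x]
    show IsUnit (x : A × B) ↔ _
    rw [Prod.isUnit_iff]
    constructor
    · exact fun h h0 => ((augment_eq_zero_iff hA _).mp h0) h.1
    · exact fun h => ⟨isUnit_of_augment_ne_zero hA h,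
        isUnit_of_augment_ne_zero hB (augment_pair_eq hlA hlB x.2 ▸ h)⟩
  haveI : Nontrivial (pairAlg O rA rB) := inferInstance
  refine IsLocalRing.of_nonunits_add fun a b ha hb => ?_
  simp only [mem_nonunits_iff, hiff, not_not] at ha hb ⊢
  rw [AddMemClass.coe_add, Prod.fst_add, map_add, ha, hb, add_zero]

omit [Module.Finite O A] [Module.Finite O B] [IsLocalRing B] in
theorem isResAlg_pairAlg (hA : IsResAlg O A)
    [IsLocalRing (pairAlg O rA rB)] : IsResAlg O (pairAlg O rA rB) := by
  haveI := hA.isLocalHom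
  refine ⟨⟨fun o ho => (isUnit_map_iff (algebraMap O A) o).mp
    (by simpa using ho.map (pairFst O rA rB))⟩, fun z => ?_⟩
  obtain ⟨x, rfl⟩ := residue_surjective z
  obtain ⟨o, ho⟩ := exists_sub_mem hA (x : A × B).1
  refine ⟨o, ?_⟩
  show residue _ (algebraMap O (pairAlg O rA rB) o) = residue _ x
  rw [eq_comm, ← sub_eq_zero, ← map_sub, residue_eq_zero_iff]
  intro hu
  exact ho (by simpa [pairFst_apply] using hu.map (pairFst O rA rB))

omit [IsLocalRing B] in
theorem isLocalHom_pairFst [IsLocalRing (pairAlg O rA rB)] (hA : IsResAlg O A) :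
    IsLocalHom (pairFst O rA rB : pairAlg O rA rB →+* A) := by
  haveI := finite_pairAlg (O := O) (rA := rA) (rB := rB)
  haveI := hA.isLocalHom
  exact isLocalHom_algHom _

omit [IsLocalRing A] in
theorem isLocalHom_pairSnd [IsLocalRing (pairAlg O rA rB)] (hB : IsResAlg O B) :
    IsLocalHom (pairSnd O rA rB : pairAlg O rA rB →+* B) := by
  haveI := finite_pairAlg (O := O) (rA := rA) (rB := rB)
  haveI := hB.isLocalHom
  exact isLocalHom_algHom _

omit [IsLocalRing B] in
theorem lifts_pairRep (hlA : Lifts W hA rA)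
    [IsLocalRing (pairAlg O rA rB)] :
    Lifts W (isResAlg_pairAlg hA) (pairRep O rA rB) :=
  Lifts.of_map (hB := hA) (pairFst O rA rB) (isLocalHom_pairFst hA) (by rwa [mapM_pairFst])

omit [IsDomain O] [IsDiscreteValuationRing O] [Module.Finite O A] [Module.Finite O B]
  [IsLocalRing A] [IsLocalRing B] in
/-- An element of a product small in both factors is small. -/
theorem mem_smul_top_prod (I : Ideal O) {x : A × B} (h1 : x.1 ∈ I • (⊤ : Submodule O A))
    (h2 : x.2 ∈ I • (⊤ : Submodule O B)) : x ∈ I • (⊤ : Submodule O (A × B)) := by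
  have ha : LinearMap.inl O A B x.1 ∈ I • (⊤ : Submodule O (A × B)) :=
    Submodule.smul_mono le_rfl le_top
      (Submodule.map_smul'' I ⊤ (LinearMap.inl O A B) ▸ Submodule.mem_map_of_mem h1)
  have hb : LinearMap.inr O A B x.2 ∈ I • (⊤ : Submodule O (A × B)) :=
    Submodule.smul_mono le_rfl le_top
      (Submodule.map_smul'' I ⊤ (LinearMap.inr O A B) ▸ Submodule.mem_map_of_mem h2)
  simpa using add_mem ha hb

theorem isCont_pairRep [IsLocalRing (pairAlg O rA rB)]
    (hP : IsResAlg O (pairAlg O rA rB)) (hcA : IsCont rA) (hcB : IsCont rB) :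
    IsCont (pairRep O rA rB) := by
  intro n
  haveI := hP.isLocalHom
  haveI := finite_pairAlg (O := O) (rA := rA) (rB := rB)
  set S := pairAlg O rA rB
  obtain ⟨jA, hjA⟩ := exists_pow_le_map (O := O) (A := A)
  obtain ⟨jB, hjB⟩ := exists_pow_le_map (O := O) (A := B)
  obtain ⟨k, hk⟩ := (maximalIdeal O).exists_pow_inf_eq_pow_smul (Subalgebra.toSubmodule S)
  obtain ⟨L, hL, hL'⟩ := hcA (jA * (n + k))
  obtain ⟨M, hM, hM'⟩ := hcB (jB * (n + k))
  haveI := hL
  haveI := hM
  refine ⟨L ⊔ M, IntermediateField.finiteDimensional_sup L M, fun σ hσ a b => ?_⟩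
  set x : S := pairRep O rA rB σ a b - (1 : M2 S) a b with hx
  have h1A : (x : A × B).1 = rA σ a b - (1 : M2 A) a b := by
    rcases eq_or_ne a b with rfl | hab <;> simp [pairRep, pairM, corestrict, *]
  have h1B : (x : A × B).2 = rB σ a b - (1 : M2 B) a b := by
    rcases eq_or_ne a b with rfl | hab <;> simp [pairRep, pairM, corestrict, *]
  have hxm : (x : A × B) ∈ maximalIdeal O ^ (n + k) • (⊤ : Submodule O (A × B)) := by
    refine mem_smul_top_prod _ ?_ ?_
    · have h := hL' σ (fun y hy => hσ y (SetLike.le_def.mp le_sup_left hy)) a b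
      rw [← h1A, pow_mul] at h
      rw [Ideal.smul_top_eq_map, Submodule.restrictScalars_mem, Ideal.map_pow]
      exact Ideal.pow_right_mono hjA (n + k) h
    · have h := hM' σ (fun y hy => hσ y (SetLike.le_def.mp le_sup_right hy)) a b
      rw [← h1B, pow_mul] at h
      rw [Ideal.smul_top_eq_map, Submodule.restrictScalars_mem, Ideal.map_pow]
      exact Ideal.pow_right_mono hjB (n + k) h
  have hmem : (x : A × B) ∈ maximalIdeal O ^ (n + k) • (⊤ : Submodule O (A × B)) ⊓
      Subalgebra.toSubmodule S := ⟨hxm, x.2⟩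
  rw [hk (n + k) (Nat.le_add_left _ _), Nat.add_sub_cancel] at hmem
  have hmem' : (x : A × B) ∈ maximalIdeal O ^ n • Subalgebra.toSubmodule S :=
    Submodule.smul_mono le_rfl inf_le_right hmem
  have hmap : maximalIdeal O ^ n • Subalgebra.toSubmodule S =
      (maximalIdeal O ^ n • (⊤ : Submodule O S)).map S.val.toLinearMap := by
    rw [Submodule.map_smul'', Submodule.map_top]
    congr 1
    ext y
    simp
  rw [hmap] at hmem'
  obtain ⟨y, hy, hyx⟩ := hmem'
  obtain rfl : y = x := Subtype.ext hyx
  rw [Ideal.smul_top_eq_map, SetLike.mem_coe, Submodule.restrictScalars_mem, Ideal.map_pow] at hy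
  have hle : (maximalIdeal O).map (algebraMap O S) ≤ maximalIdeal S :=
    Ideal.map_le_iff_le_comap.mpr fun o ho => map_nonunit (algebraMap O S) o ho
  exact Ideal.pow_right_mono hle n hy

end Fermat.Agent.RT.Lifting
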