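import Fermat.Agent.RT.Lifting.Minimal.Datum

/-!
# The lifts of minimal type factor through the algebra at minimal level
-/

set_option autoImplicit false
set_option linter.style.haveILetI false
set_option linter.unusedSectionVars false

noncomputable section

namespace Fermat.Agent.RT.Lifting

open IsLocalRing Module MvPolynomial
open Fermat.Agent.Deform Fermat.Agent.Arith Fermat.Agent.RT.GammaH Fermat.Agent.RT.Assembly
open Fermat.Agent.CFT.Tangent
open Fermat.Agent.GaloisReps (HeckeGaloisModel CongruenceProperty)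
open Fermat.Agent.NewformLocal (UnipotentAt)

variable {O : Type} [CommRing O] [IsDomain O] [IsDiscreteValuationRing O]
  [IsAdicComplete (maximalIdeal O) O]

/-- **`R = T`**: a patched pair is the algebra at minimal level, acting freely. -/
theorem limit_pair [Finite (ResidueField O)] (hlimit : LimitProperty) {p : ℕ}
    (hp : (p : O) ∈ maximalIdeal O) {W : Rigid O} {S : Finset ℕ} {N₀ : ℕ} {M : Type}
    [AddCommGroup M] [Module O M] [Module.Finite O M] [Module.Free O M] [Nontrivial M]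
    {op : {ℓ : ℕ // ℓ.Prime ∧ ℓ ∉ S} → Module.End O M} (Bs : MinimalBase p W S N₀ M op)
    {B : Type} [CommRing B] [Algebra O B] [Module.Finite O B] {rB : Gal →* M2 B} {k r : ℕ}
    [NeZero k] [Module (pairAlg O Bs.rep rB) (Fin k → M)]
    [IsScalarTower O (pairAlg O Bs.rep rB) (Fin k → M)]
    (hsmul : ∀ (a : pairAlg O Bs.rep rB) (x : Fin k → M) (j : Fin k),
      (a • x) j = Bs.act (pairFst O Bs.rep rB a) (x j))
    (hdatum : Nonempty (Algebra.PatchingDatum O p r (pairAlg O Bs.rep rB) (Fin k → M))) :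
    Module.Free (pairAlg O Bs.rep rB) (Fin k → M) ∧
      Function.Bijective (pairFst O Bs.rep rB) ∧
      ∃ (ψ : MvPowerSeries (Fin r) O →ₐ[O] pairAlg O Bs.rep rB)
        (f : Fin r → MvPowerSeries (Fin r) O),
        Function.Surjective ψ ∧ RingHom.ker ψ = Ideal.span (Set.range f) := by
  haveI := finite_pairAlg (O := O) (rA := Bs.rep) (rB := rB)
  obtain ⟨hfree, hann, hpres⟩ :=
    hlimit O p r hp (pairAlg O Bs.rep rB) (Fin k → M) hdatum
  refine ⟨hfree, ⟨(injective_iff_map_eq_zero _).2 fun a ha => ?_, ?_⟩, hpres⟩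
  · rw [← Submodule.mem_bot (R := pairAlg O Bs.rep rB), ← hann, Module.mem_annihilator]
    intro x
    funext j
    rw [hsmul, ha, map_zero, LinearMap.zero_apply, Pi.zero_apply]
  · rw [← AlgHom.range_eq_top, eq_top_iff, ← Bs.adjoin_t, Algebra.adjoin_le_iff]
    rintro _ ⟨i, rfl⟩
    obtain ⟨A, hA⟩ := exists_liesOverPrime i.2.1
    obtain ⟨σ, hσ⟩ := exists_isFrobeniusAt hA i.2.1
    refine ⟨(pairRep O Bs.rep rB σ).trace, ?_⟩
    rw [← Bs.trace i A hA σ hσ, AlgHom.toRingHom_eq_coe, RingHom.coe_coe,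
      AddMonoidHom.map_trace (pairFst O Bs.rep rB)]
    rfl

variable [Finite (ResidueField O)] [CharZero O] {p : ℕ} [Fact p.Prime] [CharP (ResidueField O) p]
  {W : Rigid O} {ρbar : ResidualGaloisRep (ResidueField O)}
  {bb : Basis (Fin 2) (ResidueField O) ρbar.V} {S : Finset ℕ} {abar : ℕ → ResidueField O} {N₀ : ℕ}
  [NeZero N₀]

set_option maxHeartbeats 1600000 in
set_option synthInstance.maxHeartbeats 400000 in
/-- **Every lift of minimal type comes from the algebra at minimal level.** -/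
theorem exists_rtHom (hlimit : LimitProperty) (hd : IsResidualDatum p W ρbar bb S abar N₀)
    {C : CondAt O} {good : ℕ → Prop} (hC : IsPairCond ρbar C) (hpt : PointCond p ρbar C good)
    (hgood : ∀ M : ℕ, ¬ p ^ 2 ∣ M → (p ∣ M → p ∣ N₀) → good M)
    (hTW : TWModuleProperty p W S abar N₀)
    (D : ∀ (M : ℕ) [NeZero M], HeckeGaloisModel M p)
    (hU : ∀ (M : ℕ) [NeZero M] (v : ℕ), v.Prime → v ≠ p → v ∣ M → ¬ v ^ 2 ∣ M → UnipotentAt (D M) v)
    (hTI : ∀ (q R M : ℕ) [Fact q.Prime] [NeZero R] [NeZero M]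
      (g : CuspForm (CongruenceSubgroup.Gamma0 M) 2), InertiaTW.TraceInertia p q R M g)
    (hcong : ∀ (N : ℕ) [NeZero N], CongruenceProperty N p)
    {e : OpRing O N₀ S} (he : IsLocalizer (resIdeal S abar N₀) (Classes O S N₀) e)
    [Nontrivial (MinMod S N₀ e)]
    (Bs : MinimalBase p W S N₀ (MinMod S N₀ e) (minOp S N₀ e)) {m : ℕ}
    (hSel : ∀ n : ℕ, ∃ qv : Fin m → ℕ, IsTWSet p W.rb S n qv ∧
      ∀ Z : Submodule (ResidueField O) (Gal → M2 (ResidueField O)),
        Module.Finite (ResidueField O) Z →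
        (∀ b ∈ Z, IsSelmerClass p C W.rb (N₀.primeFactors ∪ Finset.univ.image qv)
          (N₀.primeFactors.erase p) ∅ b) →
        (∀ b ∈ Z, ∀ X, b = cobdLin W.rb X → b = 0) → finrank (ResidueField O) Z ≤ m)
    {B : Type} [CommRing B] [IsLocalRing B] [Algebra O B] [Module.Finite O B] {hB : IsResAlg O B}
    {rB : Gal →* M2 B}
    (hrB : IsCondLift p W C N₀.primeFactors N₀.primeFactors hB rB) (y : B →ₐ[O] O) :
    ∃ f : Bs.T →ₐ[O] B, mapM (f : Bs.T →+* B) Bs.rep = rB := by
  haveI : Module.Free O (MinMod S N₀ e) := Module.free_of_finite_type_torsion_free'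
  haveI : NeZero (2 ^ m) := ⟨pow_ne_zero m two_ne_zero⟩
  letI : Module Bs.T (MinMod S N₀ e) :=
    Module.compHom _ (Bs.act : Bs.T →+* Module.End O (MinMod S N₀ e))
  letI : Module (pairAlg O Bs.rep rB) (Fin (2 ^ m) → MinMod S N₀ e) :=
    Module.compHom _ (pairFst O Bs.rep rB : pairAlg O Bs.rep rB →+* Bs.T)
  haveI : IsScalarTower O (pairAlg O Bs.rep rB) (Fin (2 ^ m) → MinMod S N₀ e) :=
    ⟨fun o a x => funext fun j => by
      show Bs.act (pairFst O Bs.rep rB (o • a)) (x j) = o • Bs.act (pairFst O Bs.rep rB a) (x j)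
      rw [map_smul, map_smul, LinearMap.smul_apply]⟩
  obtain ⟨-, hbij, -⟩ := limit_pair hlimit hd.p_mem Bs (fun _ _ _ => rfl)
    (exists_minimalDatum hd hC hpt hgood hTW D hU hTI hcong he Bs hSel hrB y fun _ _ _ => rfl)
  let E := AlgEquiv.ofBijective (pairFst O Bs.rep rB) hbij
  refine ⟨(pairSnd O Bs.rep rB).comp E.symm.toAlgHom, ?_⟩
  ext σ i j
  have h : E.symm (Bs.rep σ i j) = pairRep O Bs.rep rB σ i j := E.symm_apply_eq.2 rfl
  show pairSnd O Bs.rep rB (E.symm (Bs.rep σ i j)) = _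
  rw [h]
  rfl

end Fermat.Agent.RT.Lifting
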